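import Fermat.Agent.GoodReduction.PlaceMap
import Mathlib.Algebra.Ring.GeomSum

/-!
# Reduction is injective on torsion prime to the residue characteristic

If `E`, `E₀` are effective with the same reduction, `E₀` consisting of `g` distinct places with
`l(E₀) = 1`, and `div f = m (E - E₀)` with `f` reducing to `1`, then writing `f = 1 + t h` the
residue of `h` has at most simple poles along the reduction of `E₀`, hence is constant.
-/

set_option autoImplicit false

noncomputable section

open AlgebraicCurve Filter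

namespace Fermat.Agent.GoodReduction

section Local

variable {K F : Type*} [Field K] [Field F] [Algebra K F] (v : Place K F)

/-- Constants have order zero. -/
theorem ord_algebraMap_eq_zero (a : K) : v.ord (algebraMap K F a) = 0 := by
  rcases eq_or_ne a 0 with rfl | ha
  · simp
  have haF : algebraMap K F a ≠ 0 := by simpa using ha
  have h1 := v.ord_mul haF (inv_ne_zero haF)
  have ha1 : ∀ b : K, b ≠ 0 → 0 ≤ v.ord (algebraMap K F b) := fun b hb => by
    have := (v.adicValuation_le_one_iff).mp (v.adicValuation_algebraMap_le_one b)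
    simpa [hb] using this
  have h2 := ha1 a ha
  have h3 := ha1 a⁻¹ (inv_ne_zero ha)
  rw [map_inv₀] at h3
  rw [mul_inv_cancel₀ haF, v.ord_one] at h1
  omega

/-- Negation does not change the order. -/
theorem ord_neg' (f : F) : v.ord (-f) = v.ord f := by
  rcases eq_or_ne f 0 with rfl | hf
  · simp
  rw [show -f = algebraMap K F (-1) * f by simp, v.ord_mul (by simp) hf,
    ord_algebraMap_eq_zero, zero_add]

/-- The order of a power. -/
theorem ord_pow' (f : F) (n : ℕ) : v.ord (f ^ n) = n * v.ord f := by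
  rw [← zpow_natCast, v.ord_zpow]

/-- The order of a sum is at least a common lower bound of the orders. -/
theorem le_ord_add {n : ℤ} {f f' : F} (h : f = 0 ∨ n ≤ v.ord f) (h' : f' = 0 ∨ n ≤ v.ord f')
    (h0 : f + f' ≠ 0) : n ≤ v.ord (f + f') := by
  have e : ∀ {x : F}, (x = 0 ∨ n ≤ v.ord x) ↔ v.adicValuation x ≤ WithZero.exp (-n) := by
    intro x
    rw [v.adicValuation_le_exp_iff, neg_neg]
  exact (e.mpr (le_trans (Valuation.map_add _ _ _) (max_le (e.mp h) (e.mp h')))).resolve_left h0

/-- The order of a difference is at least a common lower bound of the orders. -/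
theorem le_ord_sub {n : ℤ} {f f' : F} (h : f = 0 ∨ n ≤ v.ord f) (h' : f' = 0 ∨ n ≤ v.ord f')
    (h0 : f - f' ≠ 0) : n ≤ v.ord (f - f') := by
  rw [sub_eq_add_neg] at h0 ⊢
  exact le_ord_add v h (by simpa [ord_neg'] using h') h0

theorem mem_valuationSubring_of_ord_nonneg {f : F} (hf : 0 ≤ v.ord f) :
    f ∈ v.toValuationSubring := by
  rcases eq_or_ne f 0 with rfl | hf0
  · exact zero_mem _
  rcases v.toValuationSubring.mem_or_inv_mem f with h | h
  · exact h
  · have hle : v.adicValuation f⁻¹ ≤ 1 := v.adicValuation_le_one_of_mem h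
    have := (v.adicValuation_le_one_iff.mp hle).resolve_left (inv_ne_zero hf0)
    rw [v.ord_inv] at this
    have hz : v.ord f = 0 := by omega
    have hu : IsUnit (⟨f⁻¹, h⟩ : v.toValuationSubring) := by
      rw [← v.adicValuation_coe_eq_one_iff,
        v.adicValuation_eq_exp_neg_ord (inv_ne_zero hf0), v.ord_inv, hz]
      simp
    obtain ⟨u, hu⟩ := hu
    have h1 : ((u : v.toValuationSubring) : F) * ((↑u⁻¹ : v.toValuationSubring) : F) = 1 :=
      congrArg Subtype.val u.mul_inv
    rw [hu] at h1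
    have : ((↑u⁻¹ : v.toValuationSubring) : F) = f := by
      simpa using eq_inv_of_mul_eq_one_right h1
    exact this ▸ (↑u⁻¹ : v.toValuationSubring).2

/-- The value of a regular function at a place of degree one. -/
theorem exists_value (hv : v.deg = 1) {f : F} (hf : 0 ≤ v.ord f) :
    ∃ a : K, f = algebraMap K F a ∨ 1 ≤ v.ord (f - algebraMap K F a) := by
  let x : v.toValuationSubring := ⟨f, mem_valuationSubring_of_ord_nonneg v hf⟩
  obtain ⟨a, ha⟩ := (finrank_eq_one_iff_of_nonzero' (1 : v.ResidueField) one_ne_zero).mp hv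
    (IsLocalRing.residue _ x)
  refine ⟨a, ?_⟩
  set y : v.toValuationSubring := x - algebraMap K v.toValuationSubring a with hy
  have hres : IsLocalRing.residue _ y = 0 := by
    rw [hy, map_sub, ← ha, Algebra.smul_def, mul_one, sub_eq_zero]
    rfl
  rw [IsLocalRing.residue_eq_zero_iff] at hres
  have hyF : (y : F) = f - algebraMap K F a := by
    rw [hy, AddSubgroupClass.coe_sub, v.coe_algebraMap]
  rcases eq_or_ne (y : F) 0 with h0 | h0
  · exact Or.inl (sub_eq_zero.mp (hyF ▸ h0))
  · right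
    rw [← hyF]
    have hle := (v.adicValuation_le_one_iff.mp (v.adicValuation_le_one_of_mem y.2)).resolve_left h0
    by_contra hlt
    have hz : v.ord (y : F) = 0 := by omega
    apply (IsLocalRing.mem_maximalIdeal _).mp hres
    rw [← v.adicValuation_coe_eq_one_iff, v.adicValuation_eq_exp_neg_ord h0, hz]
    simp

end Local

/-- A function without poles is constant. -/
theorem RiemannData.mem_LSpace_zero {K F : Type*} [Field K] [Field F] [Algebra K F] {g : ℕ}
    {c : ℤ} (R : RiemannData K F g c) {f : F} (hf : f ∈ LSpace (0 : Divisor K F)) :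
    ∃ a : K, algebraMap K F a = f := by
  have h1 : (1 : F) ∈ LSpace (0 : Divisor K F) := (mem_LSpace one_ne_zero).mpr fun v => by simp
  obtain ⟨a, ha⟩ := (finrank_eq_one_iff_of_nonzero' (⟨1, h1⟩ : LSpace (0 : Divisor K F))
    (by simp [Subtype.ext_iff])).mp R.one ⟨f, hf⟩
  exact ⟨a, by simpa [Subtype.ext_iff, Algebra.smul_def] using ha⟩

/-- If `l(D) = 1` for an effective `D`, the functions of `L(D)` are constant. -/
theorem RiemannData.eq_const_of_finrank {K F : Type*} [Field K] [Field F] [Algebra K F]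
    {D : Divisor K F} (hD : 0 ≤ D)
    (h : Module.finrank K (LSpace D) = 1) {f : F} (hf : f ∈ LSpace D) :
    ∃ a : K, algebraMap K F a = f := by
  have h1 : (1 : F) ∈ LSpace D := (mem_LSpace one_ne_zero).mpr fun v => by simpa using hD v
  obtain ⟨a, ha⟩ := (finrank_eq_one_iff_of_nonzero' (⟨1, h1⟩ : LSpace D)
    (by simp [Subtype.ext_iff])).mp h ⟨f, hf⟩
  exact ⟨a, by simpa [Subtype.ext_iff, Algebra.smul_def] using ha⟩

namespace GoodModel

variable {K k F κ : Type*} [Field K] [Field k] [Field F] [Field κ] [Algebra K F] [Algebra k κ]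
variable {A : ValuationSubring K} {π : A →+* k} {red : Reduction F κ A π}
variable {g : ℕ} {c : ℤ} {H : Divisor K F} {Hb : Divisor k κ}
variable (G : GoodModel red g c H Hb)

include G

/-- The coefficient of `divMap X` at `Q` is the sum of `X` over the fibre of `Q`. -/
theorem divMap_apply_eq_sum (X : Divisor K F) (Q : Place k κ) :
    G.divMap X Q = open Classical in ∑ P ∈ X.support, if G.placeMap P = Q then X P else 0 := by
  classical
  rw [G.divMap_apply, Finsupp.mapDomain, Finsupp.sum_apply]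
  exact Finset.sum_congr rfl fun w _ => Finsupp.single_apply

/-- A divisor nonnegative on a fibre has nonnegative image there. -/
theorem divMap_apply_nonneg {X : Divisor K F} {Q : Place k κ}
    (hX : ∀ P, G.placeMap P = Q → 0 ≤ X P) : 0 ≤ G.divMap X Q := by
  classical
  rw [G.divMap_apply_eq_sum]
  refine Finset.sum_nonneg fun w _ => ?_
  split
  · exact hX w ‹_›
  · exact le_rfl

/-- A coefficient of a divisor nonnegative on a fibre is at most the coefficient of the image. -/
theorem le_divMap_apply {X : Divisor K F} (P : Place K F)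
    (hX : ∀ P', G.placeMap P' = G.placeMap P → 0 ≤ X P') :
    X P ≤ G.divMap X (G.placeMap P) := by
  classical
  have h := G.divMap_apply_nonneg (X := X - Finsupp.single P (X P)) (Q := G.placeMap P)
    (fun P' hP' => by
      rcases eq_or_ne P P' with rfl | hne
      · simp
      · simpa [Finsupp.single_eq_of_ne hne.symm] using hX P' hP')
  rw [map_sub, G.divMap_single, Finsupp.sub_apply, Finsupp.single_eq_same] at h
  omega

/-- A fibre in which a divisor is nonnegative with total one has one point. -/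
theorem fibre_eq {X : Divisor K F} {P : Place K F}
    (hX : ∀ P', G.placeMap P' = G.placeMap P → 0 ≤ X P')
    (hsum : G.divMap X (G.placeMap P) = 1) (hP : 1 ≤ X P) :
    ∀ P', G.placeMap P' = G.placeMap P → X P' = Finsupp.single P (1 : ℤ) P' := by
  classical
  intro P' hP'
  have hX' : ∀ P'', G.placeMap P'' = G.placeMap P →
      0 ≤ (X - Finsupp.single P (1 : ℤ)) P'' := fun P'' hP'' => by
    rcases eq_or_ne P P'' with rfl | hne
    · simp; omega
    · simpa [Finsupp.single_eq_of_ne hne.symm] using hX P'' hP''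
  have h := G.le_divMap_apply (X := X - Finsupp.single P (1 : ℤ)) P' (fun P'' h'' =>
    hX' P'' (h''.trans hP'))
  rw [hP', map_sub, G.divMap_single, Finsupp.sub_apply, Finsupp.sub_apply,
    Finsupp.single_eq_same, hsum] at h
  have := hX' P' hP'
  rw [Finsupp.sub_apply] at this
  omega

/-- Residue of a function regular along a fibre is regular at its image. -/
theorem ord_res_nonneg {x : red.V} {Q : Place k κ}
    (hx : (x : F) = 0 ∨ ∀ P, G.placeMap P = Q → 0 ≤ P.ord (x : F)) :
    0 ≤ Q.ord (red.res x) := by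
  rcases eq_or_ne (red.res x) 0 with h | h
  · simp [h]
  rw [← G.riemann'.div_apply, ← G.divMap_div h]
  refine G.divMap_apply_nonneg fun P hP => ?_
  rw [G.riemann.div_apply]
  exact hx.resolve_left (red.coe_ne_zero h) P hP

/-- Near `Q = placeMap P₀`, away from the supports of `H` and `Hb`, a uniformiser at `Q` lifts to
a function vanishing on the fibre only at `P₀`, to order one. -/
theorem exists_lift_uniformiser {P₀ : Place K F}
    (hH : ∀ P, G.placeMap P = G.placeMap P₀ → H P = 0) (hHb : Hb (G.placeMap P₀) = 0) :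
    ∃ a : red.V, red.res a ≠ 0 ∧ (G.placeMap P₀).ord (red.res a) = 1 ∧
      ∀ P, G.placeMap P = G.placeMap P₀ → P.ord (a : F) = Finsupp.single P₀ (1 : ℤ) P := by
  classical
  set Q := G.placeMap P₀ with hQdef
  obtain ⟨M, hM, hM1⟩ := ((G.redEquiv_placeMap P₀).and
    (eventually_le_mul G.deg_pos (c + 3))).exists
  obtain ⟨y, hy, hy0, hyQ⟩ := G.riemann'.exists_ord_eq
    (D := M • Hb - Finsupp.single Q 1)
    (by rw [map_sub, G.riemann'.degree_single, map_nsmul, nsmul_eq_mul, G.deg_eq]; omega) Q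
  rw [Finsupp.sub_apply, Finsupp.single_eq_same, Finsupp.smul_apply, hHb, nsmul_zero] at hyQ
  rw [← hM] at hy
  obtain ⟨a, ha, rfl⟩ := red.exists_of_mem_resSpace hy
  have ha0 : (a : F) ≠ 0 := red.coe_ne_zero hy0
  have haP := (mem_LSpace ha0).mp ha
  have hfib : ∀ P, G.placeMap P = Q → Finsupp.single P₀ (1 : ℤ) P ≤ P.ord (a : F) := by
    intro P hP
    have := haP P
    rw [Finsupp.sub_apply, Finsupp.smul_apply, hH P hP, nsmul_zero] at this
    omega
  have haord : ∀ P, G.placeMap P = Q → P.ord (a : F) = Finsupp.single P₀ (1 : ℤ) P := by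
    intro P hP
    rw [← G.riemann.div_apply]
    refine G.fibre_eq (fun P' hP' => ?_) ?_ ?_ P hP
    · rw [G.riemann.div_apply]
      have := hfib P' hP'
      have : (0 : ℤ) ≤ Finsupp.single P₀ (1 : ℤ) P' := by
        rw [Finsupp.single_apply]; split <;> norm_num
      omega
    · rw [← hQdef, G.divMap_div hy0, G.riemann'.div_apply]
      omega
    · rw [G.riemann.div_apply]
      simpa using hfib P₀ rfl
  have hnonneg : ∀ (P₂ : Place K F) P, (0 : ℤ) ≤ Finsupp.single P₂ (1 : ℤ) P := by
    intro P₂ P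
    rw [Finsupp.single_apply]; split <;> norm_num
  exact ⟨a, hy0, by omega, haord⟩

/-- A lifted uniformiser can be translated by an element of `A` so that it vanishes at any other
point of the fibre, without changing its reduction. -/
theorem exists_translated_uniformiser {P₀ P₁ : Place K F}
    (hQ : G.placeMap P₁ = G.placeMap P₀) {a : red.V}
    (hQa : (G.placeMap P₀).ord (red.res a) = 1)
    (haord : ∀ P, G.placeMap P = G.placeMap P₀ → P.ord (a : F) = Finsupp.single P₀ (1 : ℤ) P) :
    ∃ (γ : K) (a' : red.V), (a' : F) = (a : F) - algebraMap K F γ ∧ red.res a' = red.res a ∧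
      ∀ P, G.placeMap P = G.placeMap P₀ → P.ord (a' : F) = Finsupp.single P₁ (1 : ℤ) P := by
  classical
  set Q := G.placeMap P₀ with hQdef
  have hnonneg : ∀ (P₂ : Place K F) P, (0 : ℤ) ≤ Finsupp.single P₂ (1 : ℤ) P := by
    intro P₂ P
    rw [Finsupp.single_apply]; split <;> norm_num
  obtain ⟨γ, hγ⟩ := exists_value P₁ (G.riemann.deg_one P₁) (f := (a : F))
    (by rw [haord P₁ hQ]; exact hnonneg _ _)
  have hnc : ∀ b : k, red.res a ≠ algebraMap k κ b := by
    intro b hb
    have h0 := ord_algebraMap_eq_zero Q b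
    rw [← hb] at h0
    omega
  have hγA : γ ∈ A := by
    by_contra hγA
    have hγ0 : γ ≠ 0 := fun h0 => hγA (h0 ▸ A.zero_mem)
    have hinv : γ⁻¹ ∈ A := (A.mem_or_inv_mem γ).resolve_left hγA
    have hnu : π ⟨γ⁻¹, hinv⟩ = 0 := by
      rw [red.map_eq_zero_iff]
      rintro ⟨u, hu⟩
      have h1 : ((u : A) : K) * ((↑u⁻¹ : A) : K) = 1 := congrArg Subtype.val u.mul_inv
      rw [hu] at h1
      have : ((↑u⁻¹ : A) : K) = γ := by simpa using eq_inv_of_mul_eq_one_right h1
      exact hγA (this ▸ (↑u⁻¹ : A).2)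
    set z : red.V := ⟨_, red.algebraMap_mem ⟨γ⁻¹, hinv⟩⟩ * a - 1 with hz
    have hzF : (z : F) = algebraMap K F γ⁻¹ * ((a : F) - algebraMap K F γ) := by
      show algebraMap K F γ⁻¹ * (a : F) - 1 = _
      rw [mul_sub, ← map_mul, inv_mul_cancel₀ hγ0, map_one]
    have hzres : red.res z = -1 := by
      rw [hz, map_sub, map_mul, red.res_algebraMap, hnu]
      simp
    have hsub : (a : F) - algebraMap K F γ ≠ 0 := by
      intro h0
      have hz0 : z = 0 := Subtype.ext (by rw [hzF, h0, mul_zero]; rfl)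
      rw [hz0, map_zero] at hzres
      exact one_ne_zero (neg_eq_zero.mp hzres.symm)
    have hordz : ∀ P, G.placeMap P = Q → 0 ≤ G.riemann.div (z : F) P := by
      intro P hP
      rw [G.riemann.div_apply, hzF,
        P.ord_mul (by simp [hγ0]) hsub, ord_algebraMap_eq_zero, zero_add]
      exact le_ord_sub P (Or.inr (by rw [haord P hP]; exact hnonneg _ _))
        (Or.inr (by rw [ord_algebraMap_eq_zero])) hsub
    have hle := G.le_divMap_apply (X := G.riemann.div (z : F)) P₁
      (fun P' hP' => hordz P' (hP'.trans hQ))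
    rw [G.divMap_div (by rw [hzres]; simp), hzres, G.riemann'.div_apply, ord_neg',
      Place.ord_one, G.riemann.div_apply, hzF, P₁.ord_mul (by simp [hγ0]) hsub,
      ord_algebraMap_eq_zero, zero_add] at hle
    rcases hγ with h | h
    · exact hsub (sub_eq_zero.mpr h)
    · omega
  set a' : red.V := a - ⟨_, red.algebraMap_mem ⟨γ, hγA⟩⟩ with ha'
  have ha'F : (a' : F) = (a : F) - algebraMap K F γ := rfl
  have ha'res0 : red.res a' = red.res a - algebraMap k κ (π ⟨γ, hγA⟩) := by
    rw [ha', map_sub, red.res_algebraMap]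
  have ha'ne : red.res a' ≠ 0 := by
    rw [ha'res0]; exact sub_ne_zero.mpr (hnc _)
  have ha'0 := red.coe_ne_zero ha'ne
  have ha'fib : ∀ P, G.placeMap P = Q → 0 ≤ G.riemann.div (a' : F) P := fun P hP => by
    rw [G.riemann.div_apply, ha'F]
    exact le_ord_sub P (Or.inr (by rw [haord P hP]; exact hnonneg _ _))
      (Or.inr (by rw [ord_algebraMap_eq_zero])) (ha'F ▸ ha'0)
  have hord1 : 1 ≤ P₁.ord (a' : F) := by
    rcases hγ with h | h
    · exact absurd (ha'F.trans (sub_eq_zero.mpr h)) ha'0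
    · rwa [ha'F]
  have hQ1 : 1 ≤ Q.ord (red.res a') := by
    have := G.le_divMap_apply (X := G.riemann.div (a' : F)) P₁
      (fun P' hP' => ha'fib P' (hP'.trans hQ))
    rw [hQ, G.divMap_div ha'ne, G.riemann'.div_apply, G.riemann.div_apply] at this
    omega
  have ha'res : red.res a' = red.res a := by
    by_contra hne
    have hsub : red.res a - red.res a' ≠ 0 := sub_ne_zero.mpr (Ne.symm hne)
    have := le_ord_sub Q (Or.inr (show (1 : ℤ) ≤ Q.ord (red.res a) by omega)) (Or.inr hQ1) hsub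
    rw [ha'res0, sub_sub_cancel, ord_algebraMap_eq_zero] at this
    omega
  have ha'ord : ∀ P, G.placeMap P = Q → P.ord (a' : F) = Finsupp.single P₁ (1 : ℤ) P := by
    intro P hP
    rw [← G.riemann.div_apply]
    refine G.fibre_eq (fun P' hP' => ha'fib P' (hP'.trans hQ)) ?_ ?_ P (hP.trans hQ.symm)
    · rw [hQ, G.divMap_div ha'ne, G.riemann'.div_apply, ha'res]
      omega
    · rwa [G.riemann.div_apply]
  exact ⟨γ, a', ha'F, ha'res, ha'ord⟩

omit G in
/-- Two constants have a common scale with integral coefficients, not both reducing to `0`. -/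
theorem exists_common_scale (π : A →+* k) {τ : A} (hτ : (τ : K) ≠ 0) (γ : K) :
    ∃ (c₀ : K) (μ ν : A), c₀ ≠ 0 ∧ (τ : K) = μ * c₀ ∧ γ = ν * c₀ ∧ (π μ = 0 → π ν = 1) := by
  rcases A.mem_or_inv_mem (γ / τ) with h | h
  · exact ⟨τ, 1, ⟨_, h⟩, hτ, by simp, by simp [div_mul_cancel₀ _ hτ],
      fun h1 => absurd h1 (by simp)⟩
  · rcases eq_or_ne γ 0 with rfl | hγ0
    · exact ⟨τ, 1, 0, hτ, by simp, by simp, fun h1 => absurd h1 (by simp)⟩
    · exact ⟨γ, ⟨_, h⟩, 1, hγ0, by simp [inv_div, div_mul_cancel₀ _ hγ0], by simp,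
        fun _ => map_one π⟩

/-- If `f = 1 + τ h` has divisor `m (E - E₀)` near a fibre meeting `E₀` and `E` only in `P₀` and
`P₁`, then the reduction of `h` has at most a simple pole at the image. -/
theorem fibre_pole_bound {m : ℕ} (hm : (m : k) ≠ 0) {E E₀ : Divisor K F}
    {P₀ P₁ : Place K F} (hQ : G.placeMap P₁ = G.placeMap P₀)
    (hE₀ : ∀ P, G.placeMap P = G.placeMap P₀ → E₀ P = Finsupp.single P₀ (1 : ℤ) P)
    (hE : ∀ P, G.placeMap P = G.placeMap P₀ → E P = Finsupp.single P₁ (1 : ℤ) P)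
    (hH : ∀ P, G.placeMap P = G.placeMap P₀ → H P = 0) (hHb : Hb (G.placeMap P₀) = 0)
    {f h : red.V} {τ : A} (hf0 : (f : F) ≠ 0)
    (hdiv : ∀ P : Place K F, P.ord (f : F) = (m : ℤ) * (E P - E₀ P))
    (hfh : (f : F) = 1 + algebraMap K F τ * (h : F)) (hτ : (τ : K) ≠ 0) :
    -1 ≤ (G.placeMap P₀).ord (red.res h) := by
  classical
  set Q := G.placeMap P₀ with hQdef
  -- uniformisers vanishing at `P₀` and at `P₁`, with the same reduction
  obtain ⟨a, hares, hQa, haord⟩ := G.exists_lift_uniformiser hH hHb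
  obtain ⟨γ, a', ha'F, ha'res, ha'ord⟩ := G.exists_translated_uniformiser hQ hQa haord
  replace hQa : Q.ord (red.res a) = 1 := hQa
  have ha0 : (a : F) ≠ 0 := red.coe_ne_zero hares
  have ha'ne : red.res a' ≠ 0 := ha'res ▸ hares
  have ha'0 := red.coe_ne_zero ha'ne
  -- the common scale of `τ` and `γ`
  obtain ⟨c₀, μ, ν, hc₀, hμ, hν, hμν⟩ := exists_common_scale π hτ γ
  have hmu : m ≠ 0 := by rintro rfl; simp at hm
  set Gs : red.V := ∑ i ∈ Finset.range m, a ^ i * a' ^ (m - 1 - i) with hGs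
  have hGsres : red.res Gs = (m : κ) * red.res a ^ (m - 1) := by
    rw [hGs, map_sum]
    simp_rw [map_mul, map_pow, ha'res]
    exact geom_sum₂_self _ _
  have hpowne : red.res (a' ^ m) ≠ 0 := by rw [map_pow]; exact pow_ne_zero _ ha'ne
  set inv : red.V := ⟨_, red.inv_mem hpowne⟩ with hinvdef
  have hinvres : red.res inv = (red.res a ^ m)⁻¹ := by
    refine eq_inv_of_mul_eq_one_right ?_
    rw [← ha'res, ← map_pow, ← map_mul,
      show a' ^ m * inv = 1 from Subtype.ext (mul_inv_cancel₀ (red.coe_ne_zero hpowne)), map_one]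
  set w : red.V := (⟨_, red.algebraMap_mem μ⟩ * h * a ^ m + ⟨_, red.algebraMap_mem ν⟩ * Gs) * inv
    with hw
  have hwF : algebraMap K F c₀ * (w : F) = (f : F) * (a : F) ^ m * ((a' : F) ^ m)⁻¹ - 1 := by
    have hgs : (Gs : F) * ((a : F) - (a' : F)) = (a : F) ^ m - (a' : F) ^ m := by
      rw [hGs]
      push_cast
      exact geom_sum₂_mul _ _ _
    have hga : (a : F) - (a' : F) = algebraMap K F γ := by rw [ha'F]; ring
    have hinvF : (inv : F) = ((a' : F) ^ m)⁻¹ := by rw [hinvdef]; simp
    have hwc : (w : F) = (algebraMap K F μ * (h : F) * (a : F) ^ m +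
        algebraMap K F ν * (Gs : F)) * ((a' : F) ^ m)⁻¹ := by
      rw [hw, ← hinvF]; simp
    rw [hwc, hfh, hν] at *
    rw [hμ, map_mul]
    rw [map_mul] at hga
    have hne : (a' : F) ^ m ≠ 0 := pow_ne_zero _ ha'0
    field_simp
    rw [show (a : F) - (a' : F) = algebraMap K F ν * algebraMap K F c₀ from hga] at hgs
    linear_combination hgs
  have hwfib : (w : F) = 0 ∨ ∀ P, G.placeMap P = Q → 0 ≤ P.ord (w : F) := by
    rcases eq_or_ne (w : F) 0 with h0 | h0
    · exact Or.inl h0
    refine Or.inr fun P hP => ?_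
    have hord : P.ord ((f : F) * (a : F) ^ m * ((a' : F) ^ m)⁻¹) = 0 := by
      rw [P.ord_mul (mul_ne_zero hf0 (pow_ne_zero _ ha0)) (inv_ne_zero (pow_ne_zero _ ha'0)),
        P.ord_mul hf0 (pow_ne_zero _ ha0), P.ord_inv, ord_pow', ord_pow', haord P hP,
        ha'ord P hP, hdiv, hE P hP, hE₀ P hP]
      ring
    have hne : (f : F) * (a : F) ^ m * ((a' : F) ^ m)⁻¹ - 1 ≠ 0 := by
      rw [← hwF]; exact mul_ne_zero (by simpa using hc₀) h0
    have := le_ord_sub P (Or.inr hord.ge) (Or.inr P.ord_one.ge) hne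
    rwa [← hwF, P.ord_mul (by simpa using hc₀) h0, ord_algebraMap_eq_zero, zero_add] at this
  have hwQ := G.ord_res_nonneg hwfib
  have hm' : (m : κ) ≠ 0 := by
    rw [← map_natCast (algebraMap k κ)]
    exact (map_ne_zero_iff _ (algebraMap k κ).injective).mpr hm
  have hwres : red.res w = algebraMap k κ (π μ) * red.res h
      + algebraMap k κ (π ν) * ((m : κ) * (red.res a)⁻¹) := by
    rw [hw, map_mul, map_add, map_mul, map_mul, map_mul, map_pow, red.res_algebraMap,
      red.res_algebraMap, hGsres, hinvres]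
    obtain ⟨n, rfl⟩ : ∃ n, m = n + 1 := ⟨m - 1, by omega⟩
    simp only [Nat.add_sub_cancel]
    field_simp
    ring
  have hpole : ∀ e : κ, e ≠ 0 → Q.ord e = 0 → Q.ord (e * ((m : κ) * (red.res a)⁻¹)) = -1 := by
    intro e he he0
    rw [Q.ord_mul he (mul_ne_zero hm' (inv_ne_zero hares)), Q.ord_mul hm' (inv_ne_zero hares),
      Q.ord_inv, he0, show (m : κ) = algebraMap k κ m from (map_natCast _ m).symm,
      ord_algebraMap_eq_zero]
    omega
  by_cases hμ0 : π μ = 0
  · rw [hwres, hμ0, hμν hμ0, map_zero, zero_mul, zero_add, map_one] at hwQ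
    have := hpole 1 one_ne_zero Q.ord_one
    omega
  · rcases eq_or_ne (red.res h) 0 with h0 | h0
    · simp [h0]
    have heq : algebraMap k κ (π μ) * red.res h
        = red.res w - algebraMap k κ (π ν) * ((m : κ) * (red.res a)⁻¹) := by
      rw [hwres]; ring
    have hne : algebraMap k κ (π μ) * red.res h ≠ 0 := mul_ne_zero (by simpa using hμ0) h0
    have hmulord : Q.ord (algebraMap k κ (π μ) * red.res h) = Q.ord (red.res h) := by
      rw [Q.ord_mul (by simpa using hμ0) h0, ord_algebraMap_eq_zero, zero_add]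
    rw [← hmulord, heq]
    refine le_ord_sub Q (Or.inr (by omega)) ?_ (heq ▸ hne)
    rcases eq_or_ne (π ν) 0 with hν0 | hν0
    · exact Or.inl (by simp [hν0])
    · exact Or.inr (hpole _ (by simpa using hν0) (ord_algebraMap_eq_zero Q _)).ge

omit G in
/-- A function reducing to `1` can be rescaled to `1 + τ h` with `h` reducing to a non-constant. -/
theorem scaled_decomposition (_G : GoodModel red g c H Hb) {f : red.V} (hf : red.res f = 1)
    (hnc : ∀ a : K, (f : F) ≠ algebraMap K F a) :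
    ∃ (f' h : red.V) (τ : A) (b : K), b ≠ 0 ∧ (f' : F) = algebraMap K F b * (f : F) ∧
      (τ : K) ≠ 0 ∧ (f' : F) = 1 + algebraMap K F τ * (h : F) ∧
      (h : F) ∈ Submodule.span K {(1 : F), (f : F)} ∧
      ∀ a : k, red.res h ≠ algebraMap k κ a := by
  set W : Submodule K F := Submodule.span K {(1 : F), (f : F)} with hW
  have : FiniteDimensional K W := FiniteDimensional.span_of_finite K (Set.toFinite _)
  have hrank : Module.finrank K W = 2 := by
    have hli : LinearIndependent K ![(1 : F), (f : F)] := by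
      rw [LinearIndependent.pair_iff' one_ne_zero]
      intro a ha
      exact hnc a (by rw [← ha, Algebra.smul_def, mul_one])
    have := finrank_span_eq_card hli
    rwa [Matrix.range_cons, Matrix.range_cons, Matrix.range_empty, Set.union_empty,
      Set.singleton_union, Fintype.card_fin] at this
  have hnle : ¬ red.resSpace W ≤ Submodule.span k {(1 : κ)} := by
    intro hle
    have h1 := Submodule.finrank_mono hle
    rw [red.finrank_resSpace, hrank, finrank_span_singleton one_ne_zero] at h1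
    omega
  obtain ⟨y, hy, hy'⟩ := SetLike.not_le_iff_exists.mp hnle
  obtain ⟨h, hh, rfl⟩ := red.exists_of_mem_resSpace hy
  have hncst : ∀ a : k, red.res h ≠ algebraMap k κ a := fun a ha =>
    hy' (Submodule.mem_span_singleton.mpr ⟨a, by rw [Algebra.smul_def, mul_one, ha]⟩)
  obtain ⟨α, β, hαβ⟩ := Submodule.mem_span_pair.mp hh
  rw [Algebra.smul_def, Algebra.smul_def, mul_one] at hαβ
  have hβA : β ∉ A := by
    intro hβ
    have hαV : algebraMap K F α ∈ red.V := by
      have : algebraMap K F α = ((h - ⟨_, red.algebraMap_mem ⟨β, hβ⟩⟩ * f : red.V) : F) := by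
        show _ = (h : F) - algebraMap K F β * (f : F)
        rw [← hαβ]; ring
      rw [this]; exact SetLike.coe_mem _
    have hα : α ∈ A := red.mem_of_algebraMap_mem hαV
    apply hncst (π ⟨α, hα⟩ + π ⟨β, hβ⟩)
    have he : h = ⟨_, red.algebraMap_mem ⟨α, hα⟩⟩ + ⟨_, red.algebraMap_mem ⟨β, hβ⟩⟩ * f :=
      Subtype.ext hαβ.symm
    rw [he, map_add, map_mul, red.res_algebraMap, red.res_algebraMap, hf, mul_one, map_add]
  have hβ0 : β ≠ 0 := fun h0 => hβA (h0 ▸ A.zero_mem)
  have hτA : β⁻¹ ∈ A := (A.mem_or_inv_mem β).resolve_left hβA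
  have hcV : algebraMap K F (-(α / β)) ∈ red.V := by
    have : algebraMap K F (-(α / β))
        = ((f - ⟨_, red.algebraMap_mem ⟨β⁻¹, hτA⟩⟩ * h : red.V) : F) := by
      show _ = (f : F) - algebraMap K F β⁻¹ * (h : F)
      rw [← hαβ, map_neg, map_div₀, map_inv₀]
      have : algebraMap K F β ≠ 0 := by simpa using hβ0
      field_simp
      ring
    rw [this]; exact SetLike.coe_mem _
  have hcA : -(α / β) ∈ A := red.mem_of_algebraMap_mem hcV
  set cc : A := ⟨-(α / β), hcA⟩
  have hfe : f = ⟨_, red.algebraMap_mem cc⟩ + ⟨_, red.algebraMap_mem ⟨β⁻¹, hτA⟩⟩ * h := by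
    refine Subtype.ext ?_
    show (f : F) = algebraMap K F (-(α / β)) + algebraMap K F β⁻¹ * (h : F)
    rw [← hαβ, map_neg, map_div₀, map_inv₀]
    have : algebraMap K F β ≠ 0 := by simpa using hβ0
    field_simp
    ring
  have hπτ : π ⟨β⁻¹, hτA⟩ = 0 := by
    rw [red.map_eq_zero_iff]
    rintro ⟨u, hu⟩
    have h1 : ((u : A) : K) * ((↑u⁻¹ : A) : K) = 1 := congrArg Subtype.val u.mul_inv
    rw [hu] at h1
    have : ((↑u⁻¹ : A) : K) = β := by simpa using eq_inv_of_mul_eq_one_right h1
    exact hβA (this ▸ (↑u⁻¹ : A).2)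
  have hcu : IsUnit cc := by
    by_contra hcu
    have := congrArg red.res hfe
    rw [hf, map_add, map_mul, red.res_algebraMap, red.res_algebraMap, hπτ,
      (red.map_eq_zero_iff cc).mpr hcu] at this
    simp at this
  obtain ⟨u, hu⟩ := hcu
  have hu1 : ((↑u⁻¹ : A) : K) * -(α / β) = 1 := by
    have h1 : ((↑u⁻¹ : A) : K) * ((u : A) : K) = 1 := congrArg Subtype.val u.inv_mul
    rwa [hu] at h1
  refine ⟨⟨_, red.algebraMap_mem ↑u⁻¹⟩ * f, h, ↑u⁻¹ * ⟨β⁻¹, hτA⟩, ((↑u⁻¹ : A) : K), ?_, rfl,
    ?_, ?_, hh, hncst⟩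
  · exact left_ne_zero_of_mul_eq_one hu1
  · show ((↑u⁻¹ : A) : K) * β⁻¹ ≠ 0
    exact mul_ne_zero (left_ne_zero_of_mul_eq_one hu1) (inv_ne_zero hβ0)
  · show algebraMap K F ((↑u⁻¹ : A) : K) * (f : F)
      = 1 + algebraMap K F (((↑u⁻¹ : A) : K) * β⁻¹) * (h : F)
    conv_lhs => rw [hfe]
    show algebraMap K F ((↑u⁻¹ : A) : K) *
      (algebraMap K F (-(α / β)) + algebraMap K F β⁻¹ * (h : F)) = _
    rw [mul_add, ← map_mul, hu1, map_one, map_mul, mul_assoc]

/-- An effective divisor whose reduction is linearly equivalent to an effective `Eb` with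
`l(Eb) = 1` reduces to `Eb`. -/
theorem divMap_eq_of_finrank_eq_one {E : Divisor K F} {Eb : Divisor k κ} {z : κ} (hz : z ≠ 0)
    (hE0 : 0 ≤ E) (hEb0 : 0 ≤ Eb) (hT : Module.finrank k (LSpace Eb) = 1)
    (hmapE' : G.divMap E = Eb + G.riemann'.div z) : G.divMap E = Eb := by
  have hmem : z ∈ LSpace Eb := by
    rw [mem_LSpace hz]
    intro Q
    have := G.divMap_apply_nonneg (X := E) (Q := Q) fun P _ => hE0 P
    rwa [hmapE', Finsupp.add_apply, G.riemann'.div_apply] at this
  obtain ⟨a, ha⟩ := RiemannData.eq_const_of_finrank hEb0 hT hmem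
  rw [hmapE', add_eq_left]
  ext Q
  rw [G.riemann'.div_apply, ← ha, ord_algebraMap_eq_zero, Finsupp.coe_zero, Pi.zero_apply]

/-- A function with divisor `m (E - E₀)`, where `E` and `E₀` have the same reduction, can be
rescaled to reduce to `1`. -/
theorem exists_normalised_multiple {m : ℕ} {E E₀ : Divisor K F} {Eb : Divisor k κ}
    (hmapE : G.divMap E = Eb) (hmapE₀ : G.divMap E₀ = Eb) {f₁ : F} (hf₁0 : f₁ ≠ 0)
    (hf₁div : ∀ P : Place K F, P.ord f₁ = (m : ℤ) * (E P - E₀ P)) :
    ∃ f₃ : red.V, red.res f₃ = 1 ∧ ∀ P : Place K F, P.ord (f₃ : F) = (m : ℤ) * (E P - E₀ P) := by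
  obtain ⟨b, hb, f₂, hf₂F, hf₂⟩ := red.exists_smul_res_ne_zero hf₁0
  have hf₂div : ∀ P : Place K F, P.ord (f₂ : F) = (m : ℤ) * (E P - E₀ P) := by
    intro P
    rw [hf₂F, Algebra.smul_def, P.ord_mul (by simpa using hb) hf₁0, ord_algebraMap_eq_zero,
      zero_add, hf₁div]
  obtain ⟨e, he⟩ : ∃ e : k, algebraMap k κ e = red.res f₂ := by
    refine G.riemann'.mem_LSpace_zero ((mem_LSpace hf₂).mpr fun Q => ?_)
    have hd : G.riemann.div (f₂ : F) = m • (E - E₀) := Finsupp.ext fun P => by
      rw [G.riemann.div_apply, hf₂div, Finsupp.smul_apply, nsmul_eq_mul, Finsupp.sub_apply]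
    rw [← G.riemann'.div_apply, ← G.divMap_div hf₂, hd, map_nsmul, map_sub, hmapE, hmapE₀,
      sub_self, smul_zero]
    simp
  obtain ⟨e', he'⟩ := red.surjective e⁻¹
  have he0 : e ≠ 0 := fun h => hf₂ (by rw [← he, h, map_zero])
  set f₃ : red.V := ⟨_, red.algebraMap_mem e'⟩ * f₂ with hf₃def
  have hf₃ : red.res f₃ = 1 := by
    rw [hf₃def, map_mul, red.res_algebraMap, he', ← he, ← map_mul, inv_mul_cancel₀ he0, map_one]
  have he'0 : (e' : K) ≠ 0 := by
    intro h
    rw [show e' = 0 from Subtype.ext h, map_zero] at he'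
    exact inv_ne_zero he0 he'.symm
  have hf₃div : ∀ P : Place K F, P.ord (f₃ : F) = (m : ℤ) * (E P - E₀ P) := by
    intro P
    show P.ord (algebraMap K F e' * (f₂ : F)) = _
    rw [P.ord_mul (by simpa using he'0) (red.coe_ne_zero hf₂), ord_algebraMap_eq_zero, zero_add,
      hf₂div]
  exact ⟨f₃, hf₃, hf₃div⟩

open scoped Classical in
/-- If `E₀` lifts, place by place, a non-special set `T` avoiding the supports of `H` and `Hb`,
then `E₀` is the only effective divisor `E` with reduction `T` such that `m (E - E₀)` is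
principal, for `m` prime to the residue characteristic. -/
theorem eq_of_torsion_of_divMap_eq {m : ℕ} (hm : (m : k) ≠ 0) {T : Finset (Place k κ)}
    (hTS : Disjoint T (H.support.image G.placeMap ∪ Hb.support))
    (hT : Module.finrank k (LSpace (∑ Q ∈ T, Finsupp.single Q (1 : ℤ))) = 1)
    {lift : Place k κ → Place K F} (hlift : ∀ Q, G.placeMap (lift Q) = Q) {E : Divisor K F}
    (hE0 : 0 ≤ E) (hmapE : G.divMap E = ∑ Q ∈ T, Finsupp.single Q (1 : ℤ)) {f₁ : F}
    (hf₁0 : f₁ ≠ 0)
    (hf₁div : ∀ P : Place K F,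
      P.ord f₁ = (m : ℤ) * (E P - (∑ Q ∈ T, Finsupp.single (lift Q) (1 : ℤ)) P)) :
    E = ∑ Q ∈ T, Finsupp.single (lift Q) (1 : ℤ) := by
  classical
  have hm0 : m ≠ 0 := by rintro rfl; simp at hm
  set Eb : Divisor k κ := ∑ Q ∈ T, Finsupp.single Q (1 : ℤ) with hEb
  have hEb0 : 0 ≤ Eb := Finset.sum_nonneg fun Q _ => by simp
  have hEbapp : ∀ Q, Eb Q = if Q ∈ T then 1 else 0 := fun Q => by
    rw [hEb, Finsupp.finsetSum_apply]
    simp [Finsupp.single_apply]
  set E₀ : Divisor K F := ∑ Q ∈ T, Finsupp.single (lift Q) (1 : ℤ) with hE₀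
  have hE₀0 : 0 ≤ E₀ := Finset.sum_nonneg fun Q _ => by simp
  have hmapE₀ : G.divMap E₀ = Eb := by
    rw [hE₀, map_sum]
    exact Finset.sum_congr rfl fun Q _ => by rw [G.divMap_single, hlift]
  obtain ⟨f₃, hf₃, hf₃div⟩ := G.exists_normalised_multiple hmapE hmapE₀ hf₁0 hf₁div
  by_cases hconst : ∃ a : K, (f₃ : F) = algebraMap K F a
  · obtain ⟨a, ha⟩ := hconst
    ext P
    have := hf₃div P
    rw [ha, ord_algebraMap_eq_zero] at this
    rcases mul_eq_zero.mp this.symm with h | h
    · omega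
    · omega
  exfalso
  push Not at hconst
  obtain ⟨f, h, τ, b', hb', hfb, hτ, hfh, hh, hhnc⟩ := G.scaled_decomposition hf₃ hconst
  have hf₃0 : (f₃ : F) ≠ 0 := red.coe_ne_zero (by rw [hf₃]; exact one_ne_zero)
  have hf0 : (f : F) ≠ 0 := by rw [hfb]; exact mul_ne_zero (by simpa using hb') hf₃0
  have hfdiv : ∀ P : Place K F, P.ord (f : F) = (m : ℤ) * (E P - E₀ P) := by
    intro P
    rw [hfb, P.ord_mul (by simpa using hb') hf₃0, ord_algebraMap_eq_zero, zero_add, hf₃div]
  have hspan : Submodule.span K {(1 : F), (f₃ : F)} ≤ LSpace (m • E₀) := by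
    rw [Submodule.span_le]
    rintro z (rfl | rfl)
    · exact (mem_LSpace one_ne_zero).mpr fun P => by
        have := hE₀0 P
        simp at this ⊢
        positivity
    · refine (mem_LSpace hf₃0).mpr fun P => ?_
      have h1 : 0 ≤ (m : ℤ) * E P := mul_nonneg (Int.natCast_nonneg m) (hE0 P)
      rw [hf₃div, Finsupp.smul_apply, nsmul_eq_mul]
      linarith
  have hh0 : red.res h ≠ 0 := fun h' => hhnc 0 (by rw [h', map_zero])
  have hbound := (mem_LSpace hh0).mp (G.res_mem_LSpace (hspan hh))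
  rw [map_nsmul, hmapE₀] at hbound
  have hmem : red.res h ∈ LSpace Eb := by
    rw [mem_LSpace hh0]
    intro Q
    rw [hEbapp]
    by_cases hQ : Q ∈ T
    · rw [if_pos hQ]
      have hnotS := Finset.disjoint_left.mp hTS hQ
      simp only [Finset.mem_union, not_or, Finset.mem_image, Finsupp.mem_support_iff,
        not_exists, not_and, not_not] at hnotS
      have hsum : ∀ X : Divisor K F, G.divMap X = Eb → G.divMap X Q = 1 := fun X hX => by
        rw [hX, hEbapp, if_pos hQ]
      obtain ⟨P₁, hP₁Q, hP₁⟩ : ∃ P₁, G.placeMap P₁ = Q ∧ 1 ≤ E P₁ := by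
        have hne := hsum E hmapE
        rw [G.divMap_apply_eq_sum] at hne
        obtain ⟨P, -, hP⟩ := Finset.exists_ne_zero_of_sum_ne_zero (hne ▸ one_ne_zero)
        split at hP
        · exact ⟨P, ‹_›, by have := hE0 P; simp at this; omega⟩
        · exact absurd rfl hP
      have hlift1 : 1 ≤ E₀ (lift Q) := by
        rw [hE₀, Finsupp.finsetSum_apply]
        refine le_trans (le_of_eq ?_) (Finset.single_le_sum (fun w _ => ?_) hQ)
        · simp
        · rw [Finsupp.single_apply]; split <;> norm_num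
      have key := G.fibre_pole_bound hm (E := E) (E₀ := E₀) (P₀ := lift Q) (P₁ := P₁)
        (hP₁Q.trans (hlift Q).symm)
        (G.fibre_eq (fun P _ => hE₀0 P) (by rw [hlift]; exact hsum E₀ hmapE₀) hlift1)
        (fun P hP => G.fibre_eq (fun P' _ => hE0 P') (by rw [hP₁Q]; exact hsum E hmapE) hP₁ P
          (hP.trans ((hlift Q).trans hP₁Q.symm)))
        (fun P hP => by
          by_contra hne
          exact hnotS.1 P hne (hP.trans (hlift Q)))
        (by rw [hlift]; exact hnotS.2) hf0 hfdiv hfh hτ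
      rw [hlift] at key
      omega
    · rw [if_neg hQ]
      have := hbound Q
      rw [Finsupp.smul_apply, hEbapp, if_neg hQ, nsmul_zero] at this
      exact this
  obtain ⟨a, ha⟩ := RiemannData.eq_const_of_finrank hEb0 hT hmem
  exact hhnc a ha.symm

/-- **Injectivity of reduction on torsion prime to the residue characteristic.** -/
theorem eq_zero_of_picMap_eq_zero {x : Pic0 K F} {m : ℕ} (hm : (m : k) ≠ 0) (hx : m • x = 0)
    (h0 : G.picMap x = 0) : x = 0 := by
  classical
  obtain ⟨D, rfl⟩ := Pic0.mk_surjective x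
  obtain ⟨gb, hgb, hgbD⟩ : (Divisor.IsPrincipal (G.divMap (D : Divisor K F))) := by
    rw [G.picMap_mk] at h0
    exact AddSubgroup.mem_addSubgroupOf.mp ((QuotientAddGroup.eq_zero_iff _).mp h0)
  obtain ⟨fm, hfm, hfmD⟩ : (Divisor.IsPrincipal ((m • D : _) : Divisor K F)) := by
    rw [Pic0.mk, ← QuotientAddGroup.mk_nsmul] at hx
    exact AddSubgroup.mem_addSubgroupOf.mp ((QuotientAddGroup.eq_zero_iff _).mp hx)
  obtain ⟨T, hTc, hTS, hT⟩ := G.riemann'.exists_nonspecial
    (H.support.image G.placeMap ∪ Hb.support)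
  set Eb : Divisor k κ := ∑ Q ∈ T, Finsupp.single Q (1 : ℤ) with hEb
  have hEb0 : 0 ≤ Eb := Finset.sum_nonneg fun Q _ => by simp
  set lift := Function.surjInv G.placeMap_surjective
  have hlift : ∀ Q, G.placeMap (lift Q) = Q := Function.surjInv_eq G.placeMap_surjective
  set E₀ : Divisor K F := ∑ Q ∈ T, Finsupp.single (lift Q) (1 : ℤ) with hE₀
  have hmapE₀ : G.divMap E₀ = Eb := by
    rw [hE₀, map_sum]
    exact Finset.sum_congr rfl fun Q _ => by rw [G.divMap_single, hlift]
  have hdegE₀ : Divisor.degree E₀ = g := by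
    rw [hE₀, map_sum]
    simp only [G.riemann.degree_single, Finset.sum_const, nsmul_eq_mul, mul_one, hTc]
  obtain ⟨f₀, hf₀, hE0⟩ := G.riemann.exists_effective (D := (D : Divisor K F))
    (Divisor.mem_degZero.mp D.2) hdegE₀
  set E : Divisor K F := (D : Divisor K F) + E₀ + G.riemann.div f₀ with hEdef
  -- the reduction of `E` is `Eb`
  obtain ⟨yb, hyb, hybD⟩ := G.divMap_mem_principal (D := G.riemann.div f₀)
    ⟨f₀, hf₀, fun v => G.riemann.div_apply f₀ v⟩
  have hmapE' : G.divMap E = Eb + G.riemann'.div (gb * yb) := by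
    rw [hEdef, map_add, map_add, hmapE₀, G.riemann'.div_mul hgb hyb,
      G.riemann'.div_eq hgbD, G.riemann'.div_eq hybD]
    abel
  have hmapE : G.divMap E = Eb :=
    G.divMap_eq_of_finrank_eq_one (mul_ne_zero hgb hyb) hE0 hEb0 hT hmapE'
  have hEE : E - E₀ = (D : Divisor K F) + G.riemann.div f₀ := by rw [hEdef]; abel
  have hf₁0 : fm * f₀ ^ m ≠ 0 := mul_ne_zero hfm (pow_ne_zero _ hf₀)
  have hf₁div : ∀ P : Place K F, P.ord (fm * f₀ ^ m) = (m : ℤ) * (E P - E₀ P) := by
    intro P
    rw [← Finsupp.sub_apply, hEE, Finsupp.add_apply, G.riemann.div_apply, mul_add,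
      P.ord_mul hfm (pow_ne_zero _ hf₀), ord_pow', ← hfmD P, AddSubgroupClass.coe_nsmul,
      Finsupp.smul_apply, nsmul_eq_mul]
  have hEq : E = E₀ := G.eq_of_torsion_of_divMap_eq hm hTS hT hlift hE0 hmapE hf₁0 hf₁div
  refine (QuotientAddGroup.eq_zero_iff D).mpr (AddSubgroup.mem_addSubgroupOf.mpr ?_)
  refine ⟨f₀⁻¹, inv_ne_zero hf₀, fun v => ?_⟩
  have hv := congrFun (congrArg DFunLike.coe hEE) v
  rw [hEq, sub_self] at hv
  simp [G.riemann.div_apply] at hv
  rw [v.ord_inv]
  omega

end GoodModel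

end Fermat.Agent.GoodReduction
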