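import Fermat.Agent.GoodReduction.Bounded
import Fermat.Agent.GoodReduction.Injective
import Fermat.Prelude.Def_AlgebraicCurve_Correspondence

/-!
# Transporting identities of functions to identities of divisor classes

For a finite morphism `ι : F₀ → F` into a function field with a good model, two positive maps
`Div F₀ → Div κ` that agree on divisors of normalised functions agree on all classes of degree
zero. Applied to the reduction composed with Galois, Frobenius and Hecke maps, this yields the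
congruence relation from identities between reduced functions.
-/

set_option autoImplicit false

noncomputable section

open AlgebraicCurve

namespace Fermat.Agent.GoodReduction

section Scales

variable {K F k κ L M : Type*} [Field K] [Field F] [Algebra K F] [Field k] [Field κ] [Algebra k κ]
  [Field L] [Field M] [Algebra L M]

/-- A positive map multiplying degrees by `b`. -/
structure Scales (ψ : Divisor K F →+ Divisor k κ) (b : ℕ) : Prop where
  nonneg : ∀ D, 0 ≤ D → 0 ≤ ψ D
  degree : ∀ D, Divisor.degree (ψ D) = b * Divisor.degree D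

namespace Scales

/-- Bounds multiply under composition. -/
theorem comp {ψ : Divisor K F →+ Divisor k κ} {ψ' : Divisor k κ →+ Divisor L M} {b b' : ℕ}
    (h : Scales ψ b) (h' : Scales ψ' b') : Scales (ψ'.comp ψ) (b' * b) :=
  ⟨fun D hD => h'.nonneg _ (h.nonneg D hD), fun D => by
    rw [AddMonoidHom.comp_apply, h'.degree, h.degree]; push_cast; ring⟩

/-- Bounds add under addition. -/
theorem add {ψ ψ' : Divisor K F →+ Divisor k κ} {b b' : ℕ} (h : Scales ψ b) (h' : Scales ψ' b') :
    Scales (ψ + ψ') (b + b') :=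
  ⟨fun D hD => add_nonneg (h.nonneg D hD) (h'.nonneg D hD), fun D => by
    rw [AddMonoidHom.add_apply, map_add, h.degree, h'.degree]; push_cast; ring⟩

/-- Bounds scale under multiples. -/
theorem nsmul {ψ : Divisor K F →+ Divisor k κ} {b : ℕ} (h : Scales ψ b) (n : ℕ) :
    Scales (n • ψ) (n * b) :=
  ⟨fun D hD => nsmul_nonneg (h.nonneg D hD) n, fun D => by
    rw [AddMonoidHom.nsmul_apply, map_nsmul, h.degree, nsmul_eq_mul]; push_cast; ring⟩

/-- A semilinear automorphism has bound `1`. -/
theorem smul (s : SemilinearAut K F) : Scales (DistribSMul.toAddMonoidHom (Divisor K F) s) 1 :=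
  ⟨fun D hD v => by
    rw [DistribSMul.toAddMonoidHom_apply, SemilinearAut.divisor_smul_apply]
    exact hD _, fun D => by
    rw [DistribSMul.toAddMonoidHom_apply, SemilinearAut.degree_smul, Nat.cast_one, one_mul]⟩

theorem abs_single_le (hdeg : ∀ v : Place K F, v.deg = 1) (hdeg' : ∀ v : Place k κ, v.deg = 1)
    {ψ : Divisor K F →+ Divisor k κ} {b : ℕ} (h : Scales ψ b) (P : Place K F) (Q : Place k κ) :
    |ψ (Finsupp.single P 1) Q| ≤ b := by
  refine (abs_apply_le_degree hdeg' (h.nonneg _ (by simp)) Q).trans (le_of_eq ?_)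
  rw [h.degree, Divisor.degree_single, hdeg]
  simp

/-- Bounded maps of divisors agreeing on principal divisors agree in degree zero. -/
theorem eq_on_degZero {g : ℕ} {E₀ : Divisor K F} (hE : EffectiveUpTo K F g E₀)
    (hdeg' : ∀ v : Place k κ, v.deg = 1) {ψ ψ' : Divisor K F →+ Divisor k κ} {b b' : ℕ}
    (h : Scales ψ b) (h' : Scales ψ' b')
    (hp : ∀ D : Divisor K F, D.IsPrincipal → ψ D = ψ' D) {D : Divisor K F}
    (hD : Divisor.degree D = 0) : ψ D = ψ' D := by
  ext Q
  have := eq_zero_of_bounded hE ((Finsupp.applyAddHom Q).comp (ψ - ψ')) (b + b' : ℕ)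
    (fun P => by
      simp only [AddMonoidHom.comp_apply, AddMonoidHom.sub_apply, Finsupp.applyAddHom_apply,
        Finsupp.sub_apply]
      have h1 := h.abs_single_le hE.deg_one hdeg' P Q
      have h2 := h'.abs_single_le hE.deg_one hdeg' P Q
      have := abs_sub (ψ (Finsupp.single P 1) Q) (ψ' (Finsupp.single P 1) Q)
      push_cast
      linarith)
    (fun E hE' => by simp [hp E hE']) hD
  simpa [sub_eq_zero] using this

end Scales

end Scales

namespace GoodModel

variable {K k F κ : Type*} [Field K] [Field k] [Field F] [Field κ] [Algebra K F] [Algebra k κ]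
variable {A : ValuationSubring K} {π : A →+* k} {red : Reduction F κ A π}
variable {g : ℕ} {c : ℤ} {H : Divisor K F} {Hb : Divisor k κ}
variable (G : GoodModel red g c H Hb)
variable {F₀ : Type*} [Field F₀] [Algebra K F₀] [HasPrincipalDivisors K F]
variable (ι : F₀ →ₐ[K] F) (hι : ι.toRingHom.IsIntegral)

include G

/-- Pullback followed by reduction. -/
def lowerDivMap : Divisor K F₀ →+ Divisor k κ := G.divMap.comp (Divisor.pullbackAlong ι hι)

/-- `lowerDivMap` is the pullback followed by the reduction. -/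
theorem lowerDivMap_apply (D : Divisor K F₀) :
    G.lowerDivMap ι hι D = G.divMap (Divisor.pullbackAlong ι hι D) := rfl

omit [HasPrincipalDivisors K F] in
theorem scales_divMap : Scales G.divMap 1 :=
  ⟨fun D hD v => G.divMap_apply_nonneg fun P _ => hD P,
    fun D => by rw [G.degree_divMap, Nat.cast_one, one_mul]⟩

/-- `lowerDivMap` is bounded by the degree of `ι`. -/
theorem scales_lowerDivMap (hFI : FundamentalIdentityAlong K ι hι) :
    Scales (G.lowerDivMap ι hι) (1 * finrankAlong K ι) :=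
  Scales.comp (ψ := Divisor.pullbackAlong ι hι)
    ⟨fun D hD v => by
      rw [Divisor.pullbackAlong_apply, Finsupp.coe_zero, Pi.zero_apply]
      exact mul_nonneg (Int.natCast_nonneg _) (hD _),
      fun D => Divisor.degree_pullbackAlong ι hι hFI D⟩ G.scales_divMap

/-- The reduced divisor of a normalised function of `F₀`. -/
theorem lowerDivMap_div {f : F₀} {D : Divisor K F₀} (hD : ∀ v, D v = v.ord f) {x : red.V}
    (hx : (x : F) = ι f) (hx0 : red.res x ≠ 0) :
    G.lowerDivMap ι hι D = G.riemann'.div (red.res x) := by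
  rw [G.lowerDivMap_apply, ← G.divMap_div hx0]
  congr 1
  refine G.riemann.div_eq fun w => ?_
  rw [hx]
  let := algebraAlong ι
  have := isScalarTower_along ι
  have := isIntegral_along ι hι
  exact Divisor.pullback_apply_eq_ord hD w

omit [HasPrincipalDivisors K F] in
/-- It suffices to compare positive maps on normalised functions. -/
theorem eq_of_eq_on_normalised {g₀ : ℕ} {E₀ : Divisor K F₀} (hE : EffectiveUpTo K F₀ g₀ E₀)
    {ψ ψ' : Divisor K F₀ →+ Divisor k κ} {b b' : ℕ} (h : Scales ψ b) (h' : Scales ψ' b')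
    (hp : ∀ (f : F₀) (x : red.V) (D : Divisor K F₀), (x : F) = ι f → red.res x ≠ 0 →
      (∀ v, D v = v.ord f) → ψ D = ψ' D)
    {D : Divisor K F₀} (hD : Divisor.degree D = 0) : ψ D = ψ' D := by
  refine h.eq_on_degZero hE G.riemann'.deg_one h' (fun E ⟨f, hf, hEf⟩ => ?_) hD
  obtain ⟨a, ha, x, hx, hx0⟩ :=
    red.exists_smul_res_ne_zero ((map_ne_zero_iff _ ι.toRingHom.injective).mpr hf)
  refine hp (a • f) x E (hx.trans (map_smul ι a f).symm) hx0 fun v => ?_
  rw [hEf, Algebra.smul_def, v.ord_mul (by simpa using ha) hf, ord_algebraMap_eq_zero, zero_add]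

variable (hFI : FundamentalIdentityAlong K ι hι)

/-- Pullback followed by reduction, on classes of degree zero. -/
def lowerPicMap : Pic0 K F₀ →+ Pic0 k κ :=
  QuotientAddGroup.map _ _
    (((G.lowerDivMap ι hι).domRestrict _).codRestrict _ fun D => G.divMap_mem_degZero
      (Divisor.pullbackAlong_mem_degZero ι hι hFI D.2)) (by
    rintro ⟨D, hD0⟩ hD
    simp only [AddSubgroup.mem_addSubgroupOf] at hD ⊢
    exact G.divMap_mem_principal (Divisor.isPrincipal_pullbackAlong ι hι hD))

/-- `lowerPicMap` on the class of a divisor. -/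
theorem lowerPicMap_mk (D : Divisor.degZero (K := K) (F := F₀)) :
    G.lowerPicMap ι hι hFI (Pic0.mk D) =
      Pic0.mk ⟨G.lowerDivMap ι hι (D : Divisor K F₀), G.divMap_mem_degZero
        (Divisor.pullbackAlong_mem_degZero ι hι hFI D.2)⟩ := rfl

/-- `lowerPicMap` is injective on the torsion prime to the residue characteristic. -/
theorem lowerPicMap_injOn_torsion {m : ℕ}
    (hpull : ∀ D : Divisor K F₀, Divisor.degree D = 0 → (m • D).IsPrincipal →
      (Divisor.pullbackAlong ι hι D).IsPrincipal → D.IsPrincipal)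
    {x : Pic0 K F₀} (hm : (m : k) ≠ 0) (hx : m • x = 0)
    (h0 : G.lowerPicMap ι hι hFI x = 0) : x = 0 := by
  obtain ⟨D, rfl⟩ := Pic0.mk_surjective x
  set D' : Divisor.degZero (K := K) (F := F) :=
    ⟨_, Divisor.pullbackAlong_mem_degZero ι hι hFI D.2⟩ with hD'
  have hmD : Divisor.IsPrincipal (m • (D : Divisor K F₀)) := by
    rw [Pic0.mk, ← QuotientAddGroup.mk_nsmul, QuotientAddGroup.eq_zero_iff] at hx
    exact AddSubgroup.mem_addSubgroupOf.mp hx
  have hm' : m • Pic0.mk D' = 0 := by
    rw [Pic0.mk, ← QuotientAddGroup.mk_nsmul, QuotientAddGroup.eq_zero_iff] at hx ⊢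
    rw [AddSubgroup.mem_addSubgroupOf] at hx ⊢
    rw [AddSubgroupClass.coe_nsmul] at hx ⊢
    rw [hD', ← map_nsmul]
    exact Divisor.isPrincipal_pullbackAlong ι hι hx
  have := G.eq_zero_of_picMap_eq_zero hm hm' (by rw [G.picMap_mk]; exact h0)
  rw [Pic0.mk, QuotientAddGroup.eq_zero_iff, AddSubgroup.mem_addSubgroupOf] at this ⊢
  exact hpull _ (Divisor.mem_degZero.mp D.2) hmD this

/-- Galois and Frobenius equivariance from the function-level identity. -/
theorem lowerPicMap_smul {g₀ : ℕ} {E₀ : Divisor K F₀} (hE : EffectiveUpTo K F₀ g₀ E₀)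
    (s₀ : SemilinearAut K F₀) (s' : SemilinearAut k κ)
    (hs : ∀ (f : F₀) (x : red.V), (x : F) = ι f → red.res x ≠ 0 →
      ∃ x' : red.V, (x' : F) = ι (s₀ • f) ∧ red.res x' = s' • red.res x)
    (x : Pic0 K F₀) : G.lowerPicMap ι hι hFI (s₀ • x) = s' • G.lowerPicMap ι hι hFI x := by
  obtain ⟨D, rfl⟩ := Pic0.mk_surjective x
  rw [SemilinearAut.pic0_smul_mk, G.lowerPicMap_mk, G.lowerPicMap_mk, SemilinearAut.pic0_smul_mk]
  refine congrArg Pic0.mk (Subtype.ext ?_)
  refine G.eq_of_eq_on_normalised ι hE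
    (ψ := (G.lowerDivMap ι hι).comp (DistribSMul.toAddMonoidHom _ s₀))
    (ψ' := (DistribSMul.toAddMonoidHom _ s').comp (G.lowerDivMap ι hι))
    ((Scales.smul s₀).comp (G.scales_lowerDivMap ι hι hFI))
    ((G.scales_lowerDivMap ι hι hFI).comp (Scales.smul s')) (fun f y E hy hy0 hEf => ?_)
    (Divisor.mem_degZero.mp D.2)
  obtain ⟨y', hy', hres⟩ := hs f y hy hy0
  simp only [AddMonoidHom.comp_apply, DistribSMul.toAddMonoidHom_apply]
  rw [G.lowerDivMap_div ι hι (f := s₀ • f) (x := y') (fun v => ?_) hy'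
      (by rw [hres]; exact (smul_ne_zero_iff_ne s').mpr hy0), hres,
    G.lowerDivMap_div ι hι hEf hy hy0]
  · refine (G.riemann'.div_eq fun Q => ?_).symm
    rw [SemilinearAut.divisor_smul_apply, G.riemann'.div_apply]
    have h := SemilinearAut.ord_smul s' (s'⁻¹ • Q) (red.res y)
    rwa [smul_inv_smul, eq_comm] at h
  · rw [SemilinearAut.divisor_smul_apply, hEf]
    have h := SemilinearAut.ord_smul s₀ (s₀⁻¹ • v) f
    rwa [smul_inv_smul, eq_comm] at h

/-- The congruence relation from the reduced norm identity. -/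
theorem lowerPicMap_congruence {g₀ : ℕ} {E₀ : Divisor K F₀} (hE : EffectiveUpTo K F₀ g₀ E₀)
    (T : Divisor K F₀ →+ Divisor K F₀) {bT : ℕ} (hT : Scales T bT) (Nrm : F₀ → F₀)
    (hTdiv : ∀ (f : F₀) (D : Divisor K F₀), f ≠ 0 → (∀ v, D v = v.ord f) →
      ∀ v, T D v = v.ord (Nrm f))
    (s : SemilinearAut k κ) (ℓ : ℕ)
    (hN : ∀ (f : F₀) (x : red.V), (x : F) = ι f → red.res x ≠ 0 →
      ∃ x' : red.V, (x' : F) = ι (Nrm f) ∧
        red.res x' = (s • red.res x) * (s⁻¹ • red.res x) ^ ℓ)
    (D : Divisor.degZero (K := K) (F := F₀))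
    (hTD : T (D : Divisor K F₀) ∈ Divisor.degZero (K := K) (F := F₀)) :
    G.lowerPicMap ι hι hFI (Pic0.mk ⟨T (D : Divisor K F₀), hTD⟩) =
      s • G.lowerPicMap ι hι hFI (Pic0.mk D) + ℓ • (s⁻¹ • G.lowerPicMap ι hι hFI (Pic0.mk D)) := by
  rw [G.lowerPicMap_mk, G.lowerPicMap_mk, SemilinearAut.pic0_smul_mk, SemilinearAut.pic0_smul_mk,
    Pic0.mk, Pic0.mk, Pic0.mk, ← QuotientAddGroup.mk_nsmul, ← QuotientAddGroup.mk_add]
  refine congrArg QuotientAddGroup.mk (Subtype.ext ?_)
  have hL := G.scales_lowerDivMap ι hι hFI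
  refine (G.eq_of_eq_on_normalised ι hE (ψ := (G.lowerDivMap ι hι).comp T)
    (ψ' := (DistribSMul.toAddMonoidHom _ s).comp (G.lowerDivMap ι hι)
      + ℓ • (DistribSMul.toAddMonoidHom _ s⁻¹).comp (G.lowerDivMap ι hι))
    (hT.comp hL) ((hL.comp (Scales.smul s)).add ((hL.comp (Scales.smul s⁻¹)).nsmul ℓ))
    (fun f y E hy hy0 hEf => ?_) (Divisor.mem_degZero.mp D.2)).trans ?_
  · have hf : f ≠ 0 := fun h => red.coe_ne_zero hy0 (by rw [hy, h, map_zero])
    obtain ⟨y', hy', hres⟩ := hN f y hy hy0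
    have hs0 : s • red.res y ≠ 0 := (smul_ne_zero_iff_ne s).mpr hy0
    have hs1 : s⁻¹ • red.res y ≠ 0 := (smul_ne_zero_iff_ne s⁻¹).mpr hy0
    simp only [AddMonoidHom.comp_apply, AddMonoidHom.add_apply, AddMonoidHom.nsmul_apply,
      DistribSMul.toAddMonoidHom_apply]
    rw [G.lowerDivMap_div ι hι (fun v => hTdiv f E hf hEf v) hy'
      (by rw [hres]; exact mul_ne_zero hs0 (pow_ne_zero _ hs1)), hres,
      G.lowerDivMap_div ι hι hEf hy hy0]
    ext Q
    have e : ∀ t : SemilinearAut k κ, (t⁻¹ • Q).ord (red.res y) = Q.ord (t • red.res y) :=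
      fun t => by
        have h := SemilinearAut.ord_smul t (t⁻¹ • Q) (red.res y)
        rw [smul_inv_smul] at h
        exact h.symm
    rw [G.riemann'.div_apply, Q.ord_mul hs0 (pow_ne_zero _ hs1), ord_pow', Finsupp.add_apply,
      Finsupp.smul_apply, SemilinearAut.divisor_smul_apply, SemilinearAut.divisor_smul_apply,
      G.riemann'.div_apply, G.riemann'.div_apply, e, e, nsmul_eq_mul]
  · simp [AddMonoidHom.comp_apply]

end GoodModel

end Fermat.Agent.GoodReduction
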