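import Fermat.Agent.GoodReduction.RiemannData
import Fermat.Agent.FunctionField.RiemannRoch

/-!
# Riemann data of a function field over an algebraically closed constant field
-/

set_option autoImplicit false

noncomputable section

open AlgebraicCurve WithZero IntermediateField

namespace Fermat.Agent.GoodReduction

variable {K F : Type*} [Field K] [Field F] [Algebra K F]

theorem adjoin_sub_algebraMap_eq (x : F) (a : K) : K⟮x - algebraMap K F a⟯ = K⟮x⟯ := by
  refine le_antisymm ?_ ?_ <;> rw [adjoin_simple_le_iff]
  · exact sub_mem (mem_adjoin_simple_self K x) (IntermediateField.algebraMap_mem _ a)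
  · simpa using add_mem (mem_adjoin_simple_self K (x - algebraMap K F a))
      (IntermediateField.algebraMap_mem _ a)

/-- A translate of a transcendental element is transcendental. -/
theorem transcendental_sub_algebraMap {x : F} (hx : Transcendental K x) (a : K) :
    Transcendental K (x - algebraMap K F a) := fun h =>
  hx (by simpa using h.add (isAlgebraic_algebraMap a))

/-- Translating a function does not change its degree. -/
theorem degFun_sub_algebraMap (x : F) (a : K) :
    FunctionField.degFun K (x - algebraMap K F a) = FunctionField.degFun K x := by
  unfold FunctionField.degFun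
  rw [adjoin_sub_algebraMap_eq]

variable [FunctionField.IsFunctionField K F]

theorem infinite_place [Infinite K] : Infinite (Place K F) := by
  obtain ⟨x, hx⟩ := FunctionField.IsFunctionField.exists_transcendental (K := K) (F := F)
  choose v hv using fun a : K =>
    FunctionField.exists_place_ord_pos (transcendental_sub_algebraMap hx a)
  refine Infinite.of_injective v fun a b hab => ?_
  by_contra hne
  have hb := hv b
  rw [← hab] at hb
  have hlt : ∀ c : K, 0 < (v a).ord (x - algebraMap K F c) →
      (v a).adicValuation (x - algebraMap K F c) < 1 := fun c hc =>
    (FunctionField.adicValuation_lt_one_iff _).mpr (Or.inr hc)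
  have h := ((v a).adicValuation.map_sub (x - algebraMap K F a) (x - algebraMap K F b)).trans_lt
    (max_lt (hlt a (hv a)) (hlt b hb))
  rw [sub_sub_sub_cancel_left, ← map_sub,
    FunctionField.adicValuation_algebraMap _ (sub_ne_zero.mpr (Ne.symm hne))] at h
  exact lt_irrefl _ h

variable (K F) [IsAlgClosed K]

/-- The Riemann data of a function field: genus `genusFF`, exact above some bound. -/
theorem exists_riemannData :
    ∃ c₀ : ℤ, ∀ c, c₀ ≤ c → RiemannData K F (genusFF K F) c := by
  obtain ⟨c₀, hc₀⟩ := FunctionField.exists_index_eq_zero (K := K) (F := F)
  refine ⟨c₀, fun c hc => ?_⟩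
  refine
    { deg_one := FunctionField.deg_eq_one
      principal := inferInstance
      finite := fun D => FunctionField.finite_riemannRochSpace D
      riemann := fun D => ?_
      exact' := fun D hD => ?_
      one := FunctionField.ell_zero_eq_one
      infinite := inferInstance
      infinitePlaces := infinite_place }
  · have := FunctionField.riemann_roch D
    simp only [FunctionField.ell] at this
    show _ ≤ (Module.finrank K (riemannRochSpace D) : ℤ)
    omega
  · have h := FunctionField.riemann_roch D
    rw [hc₀ D (hc.trans hD)] at h
    simpa [FunctionField.ell] using h

end Fermat.Agent.GoodReduction
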