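import Fermat.Agent.GoodReduction.PolyBasis
import Fermat.Agent.Differentials.CanonicalGenus
import Mathlib.RingTheory.Discriminant
import Mathlib.RingTheory.Trace.Basic
import Mathlib.LinearAlgebra.Matrix.NonsingularInverse

/-!
# Riemann–Hurwitz counting by the trace discriminant
-/

set_option autoImplicit false

noncomputable section

open AlgebraicCurve WithZero IntermediateField Polynomial
open Fermat.Agent.FunctionField (IsFunctionField degFun poleDiv)

namespace Fermat.Agent.GoodReduction

variable {K F : Type*} [Field K] [Field F] [Algebra K F]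

/-- `(X - s) ^ dim U` divides the determinant when `U` kills the matrix at `X = s`. -/
theorem pow_finrank_dvd_det {n : ℕ} (M : Matrix (Fin n) (Fin n) K[X]) (s : K)
    (U : Submodule K (Fin n → K))
    (hU : ∀ c ∈ U, Matrix.vecMul c (M.map (eval s)) = 0) :
    (X - Polynomial.C s) ^ Module.finrank K U ∣ M.det := by
  classical
  obtain ⟨W, hW⟩ := exists_isCompl U
  let B := ((Module.finBasis K U).prod (Module.finBasis K W)).map
    (Submodule.prodEquivOfIsCompl U W hW)
  let e : (Fin (Module.finrank K U) ⊕ Fin (Module.finrank K W)) ≃ Fin n :=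
    Fintype.equivOfCardEq (by rw [← Module.finrank_eq_card_basis B]; simp)
  let B' := B.reindex e
  let P : Matrix (Fin n) (Fin n) K := fun i => B' i
  have hP : IsUnit P := Matrix.linearIndependent_rows_iff_isUnit.mp B'.linearIndependent
  let w : Fin n → K[X] := fun i =>
    Sum.elim (fun _ => X - Polynomial.C s) (fun _ => 1) (e.symm i)
  have hdvd : ∀ i j, w i ∣ (P.map Polynomial.C * M) i j := by
    intro i j
    rcases h : e.symm i with a | a
    · simp only [w, h, Sum.elim_inl]
      rw [dvd_iff_isRoot, IsRoot, Matrix.mul_apply, eval_finsetSum]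
      have hmem : B' i ∈ U := by
        simp [B', B, Module.Basis.reindex_apply, h, Module.Basis.prod_apply]
      have := congrFun (hU _ hmem) j
      simpa [Matrix.vecMul, dotProduct, P] using this
    · simp [w, h]
  choose A hA using hdvd
  have hdet : (P.map Polynomial.C * M).det = (∏ i, w i) * (Matrix.of A).det := by
    rw [← Matrix.det_mul_column]
    congr 1
    ext1 i j
    exact hA i j
  have hw : ∏ i, w i = (X - Polynomial.C s) ^ Module.finrank K U := by
    rw [← e.prod_comp, Fintype.prod_sum_type]
    simp [w]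
  have hu : IsUnit (P.map Polynomial.C).det := by
    have := ((Matrix.isUnit_iff_isUnit_det P).mp hP).map Polynomial.C
    rwa [RingHom.map_det] at this
  rw [← hw]
  refine (hu.dvd_mul_left).mp ?_
  rw [← Matrix.det_mul, hdet]
  exact dvd_mul_right _ _

theorem adicValuation_pow_div_le {v : Place K F} {f q : F} {N : ℕ} (hq : q ≠ 0)
    (h : f = 0 ∨ v.ord q ≤ (N : ℤ) * v.ord f) (hN : 0 < N) :
    v.adicValuation (f ^ N / q) ≤ 1 := by
  rcases eq_or_ne f 0 with rfl | hf
  · simp [zero_pow hN.ne']
  rw [v.adicValuation_le_one_iff, div_eq_mul_inv]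
  right
  rw [v.ord_mul (pow_ne_zero _ hf) (inv_ne_zero hq), FunctionField.ord_pow, v.ord_inv]
  have := h.resolve_left hf
  omega

variable [IsFunctionField K F]

variable (K) in
/-- The places where `x` has a zero. -/
def zeros (x : F) : Finset (Place K F) := (FunctionField.finite_ord_pos (K := K) x).toFinset

/-- Membership in `zeros`. -/
theorem mem_zeros {x : F} {v : Place K F} : v ∈ zeros K x ↔ 0 < v.ord x := by simp [zeros]

/-- The fibre of `x` over `s`. -/
abbrev fibre (x : F) (s : K) : Finset (Place K F) := zeros K (x - algebraMap K F s)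

variable (K) in
/-- The poles of `x`. -/
abbrev poles (x : F) : Finset (Place K F) := zeros K x⁻¹

/-- Membership in `poles`. -/
theorem mem_poles {x : F} {v : Place K F} : v ∈ poles K x ↔ v.ord x < 0 := by
  rw [mem_zeros, v.ord_inv]
  omega

variable [IsAlgClosed K] {x : F} (hx : Transcendental K x)

include hx in
theorem sum_ord_zeros : ∑ v ∈ zeros K x, v.ord x = degFun K x := by
  classical
  rw [← FunctionField.degree_zeros hx, FunctionField.degree_eq_sum _ (zeros K x) fun v hv => by
    rw [Finsupp.mem_support_iff, Finsupp.sup_apply] at hv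
    simp at hv
    rw [mem_zeros]
    omega]
  refine Finset.sum_congr rfl fun v hv => ?_
  have := mem_zeros.mp hv
  simp [FunctionField.deg_eq_one]
  omega

include hx in
/-- The orders of `x - s` along the fibre over `s` add up to the degree of `x`. -/
theorem sum_ord_fibre (s : K) :
    ∑ v ∈ fibre x s, v.ord (x - algebraMap K F s) = degFun K x := by
  rw [fibre, sum_ord_zeros (transcendental_sub_algebraMap hx s), degFun_sub_algebraMap]

include hx in
theorem ord_le_degFun {v : Place K F} : v.ord x ≤ degFun K x := by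
  rcases le_or_gt (v.ord x) 0 with h | h
  · omega
  rw [← sum_ord_zeros hx]
  exact Finset.single_le_sum (f := fun w : Place K F => w.ord x)
    (fun w hw => (mem_zeros.mp hw).le) (mem_zeros.mpr h)

omit [IsAlgClosed K] in
include hx in
/-- A function has at most `degFun K x` zeros. -/
theorem card_zeros_le : (zeros K x).card ≤ degFun K x :=
  FunctionField.card_le_degFun hx _ fun _ hv => mem_zeros.mp hv

omit [IsAlgClosed K] in
include hx in
/-- A fibre has at most `degFun K x` points. -/
theorem card_fibre_le (s : K) : (fibre x s).card ≤ degFun K x :=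
  degFun_sub_algebraMap x s ▸ card_zeros_le (transcendental_sub_algebraMap hx s)

omit [IsAlgClosed K] in
include hx in
/-- A function has at most `degFun K x` poles. -/
theorem card_poles_le : (poles K x).card ≤ degFun K x :=
  FunctionField.degFun_inv (K := K) x ▸ card_zeros_le (FunctionField.transcendental_inv hx)

include hx in
/-- A regular function vanishing on the fibre over `s` has a power divisible by `x - s`. -/
theorem div_mem_of_vanish {f : F} (hf : f ∈ regularOff K x) (s : K)
    (h0 : ∀ v ∈ fibre x s, v.adicValuation f < 1) :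
    f ^ degFun K x / (x - algebraMap K F s) ∈ regularOff K x := by
  intro v hv
  have ht := transcendental_sub_algebraMap hx s
  refine adicValuation_pow_div_le (FunctionField.transcendental_ne_zero ht) ?_
    (FunctionField.degFun_pos hx)
  rcases eq_or_ne f 0 with h | h
  · exact Or.inl h
  right
  by_cases hs : 0 < v.ord (x - algebraMap K F s)
  · have h1 := ((FunctionField.adicValuation_lt_one_iff v).mp
      (h0 v (mem_zeros.mpr hs))).resolve_left h
    have h2 := ord_le_degFun ht (v := v)
    rw [degFun_sub_algebraMap] at h2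
    exact h2.trans (le_mul_of_one_le_right (by omega) (by omega))
  · have := (mem_regularOff_of_ne_zero h).mp hf v hv
    exact (not_lt.mp hs).trans (mul_nonneg (by omega) this)

/-- The embedding of polynomials. -/
def toAdjoin (K : Type*) {F : Type*} [Field K] [Field F] [Algebra K F] (x : F) :
    K[X] →+* K⟮x⟯ :=
  (aeval (⟨x, mem_adjoin_simple_self K x⟩ : K⟮x⟯)).toRingHom

omit [IsFunctionField K F] [IsAlgClosed K] in
/-- The underlying element of `toAdjoin`. -/
theorem coe_toAdjoin (p : K[X]) : ((toAdjoin K x p : K⟮x⟯) : F) = aeval x p := by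
  simp only [toAdjoin, AlgHom.toRingHom_eq_coe, RingHom.coe_coe]
  exact (aeval_algHom_apply K⟮x⟯.val (⟨x, mem_adjoin_simple_self K x⟩ : K⟮x⟯) p).symm

omit [IsFunctionField K F] [IsAlgClosed K] in
include hx in
theorem toAdjoin_injective : Function.Injective (toAdjoin K x) := fun p q h =>
  transcendental_iff_injective.mp hx (by rw [← coe_toAdjoin, ← coe_toAdjoin, h])

namespace PolyBasis

variable (P : PolyBasis K x (degFun K x))

/-- The basis over `K⟮x⟯`. -/
def basis : Module.Basis (Fin (degFun K x)) K⟮x⟯ F :=
  haveI : Nonempty (Fin (degFun K x)) := ⟨⟨0, FunctionField.degFun_pos hx⟩⟩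
  basisOfLinearIndependentOfCardEqFinrank P.indep (Fintype.card_fin _)

omit [IsAlgClosed K] in
@[simp] theorem basis_apply (i : Fin (degFun K x)) : P.basis hx i = P.b i := by
  simp [basis]

omit [IsAlgClosed K] in
/-- Regular functions act by polynomial matrices. -/
theorem exists_matrix {f : F} (hf : f ∈ regularOff K x) :
    ∃ M : Matrix (Fin (degFun K x)) (Fin (degFun K x)) K[X],
      Algebra.leftMulMatrix (P.basis hx) f = M.map (toAdjoin K x) := by
  choose p hp using fun j => P.span (f * P.b j) (mul_mem hf (P.mem j))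
  refine ⟨fun i j => p j i, ?_⟩
  ext1 i j
  rw [Algebra.leftMulMatrix_eq_repr_mul, basis_apply, Matrix.map_apply, hp j]
  have : ∑ k, aeval x (p j k) * P.b k = ∑ k, toAdjoin K x (p j k) • P.basis hx k := by
    simp [IntermediateField.smul_def, coe_toAdjoin]
  rw [this, Module.Basis.repr_sum_self]

/-- The trace of a function vanishing on the fibre over `s` vanishes at `s`. -/
theorem trace_eval_eq_zero {f : F} (hf : f ∈ regularOff K x) (s : K)
    (h0 : ∀ v ∈ fibre x s, v.adicValuation f < 1)
    {M : Matrix (Fin (degFun K x)) (Fin (degFun K x)) K[X]}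
    (hM : Algebra.leftMulMatrix (P.basis hx) f = M.map (toAdjoin K x)) :
    (M.trace).eval s = 0 := by
  set h := f ^ degFun K x / (x - algebraMap K F s) with hh
  obtain ⟨N, hN⟩ := P.exists_matrix hx (div_mem_of_vanish hx hf s h0)
  have hfh : f ^ degFun K x = toAdjoin K x (X - Polynomial.C s) • h := by
    rw [IntermediateField.smul_def, coe_toAdjoin, hh, smul_eq_mul, map_sub, aeval_X, aeval_C,
      mul_div_cancel₀ _ (FunctionField.transcendental_ne_zero (transcendental_sub_algebraMap hx s))]
  have hpow : M ^ degFun K x = (X - Polynomial.C s) • N := by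
    apply Matrix.map_injective (toAdjoin_injective hx)
    have := congrArg (Algebra.leftMulMatrix (P.basis hx)) hfh
    rw [map_pow, map_smul, hM, hN] at this
    change (toAdjoin K x).mapMatrix (M ^ degFun K x) = _
    rw [map_pow, RingHom.mapMatrix_apply]
    refine this.trans ?_
    ext1 i j
    simp [Matrix.map_apply]
  have hnil : IsNilpotent (M.map (eval s)) := by
    refine ⟨degFun K x, ?_⟩
    have := congrArg (evalRingHom s).mapMatrix hpow
    rw [map_pow] at this
    refine this.trans ?_
    ext1 i j
    simp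
  have := (Matrix.isNilpotent_trace_of_isNilpotent hnil).eq_zero
  rw [Matrix.trace] at this ⊢
  simpa [eval_finsetSum] using this

include hx in
/-- The trace form in the basis, as a polynomial matrix. -/
theorem exists_traceMatrix :
    ∃ D : Matrix (Fin (degFun K x)) (Fin (degFun K x)) K[X],
      (∀ i j, ((Algebra.trace K⟮x⟯ F (P.b i * P.b j) : K⟮x⟯) : F) = aeval x (D i j)) ∧
      (Algebra.IsSeparable K⟮x⟯ F → D.det ≠ 0) ∧
      ∀ s : K, (X - Polynomial.C s) ^ (degFun K x - (fibre x s).card) ∣ D.det := by
  classical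
  choose M hM using fun i j => P.exists_matrix hx (mul_mem (P.mem i) (P.mem j))
  have htr : ∀ i j,
      Algebra.trace K⟮x⟯ F (P.b i * P.b j) = toAdjoin K x (M i j).trace := fun i j => by
    rw [Algebra.trace_eq_matrix_trace (P.basis hx), hM, AddMonoidHom.map_trace]
  refine ⟨fun i j => (M i j).trace, fun i j => by rw [htr, coe_toAdjoin], fun hsep hdet => ?_,
    fun s => ?_⟩
  · have := IsFunctionField.finiteDimensional_adjoin x hx
    apply Algebra.discr_not_zero_of_basis K⟮x⟯ (P.basis hx)
    rw [Algebra.discr_def, show Algebra.traceMatrix K⟮x⟯ (P.basis hx)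
      = (toAdjoin K x).mapMatrix (fun i j => (M i j).trace) from ?_, ← RingHom.map_det, hdet,
      map_zero]
    ext1 i j
    simp only [Algebra.traceMatrix_apply, Algebra.traceForm_apply, basis_apply]
    exact htr i j
  set D : Matrix (Fin (degFun K x)) (Fin (degFun K x)) K[X] := fun i j => (M i j).trace with hD
  let φ : (Fin (degFun K x) → K) →ₗ[K] F := Fintype.linearCombination K P.b
  have hφreg : ∀ c, φ c ∈ regularOff K x := fun c => by
    rw [Fintype.linearCombination_apply]
    exact sum_mem fun i _ => Subalgebra.smul_mem _ (P.mem i) _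
  have hφmem : ∀ c, φ c ∈ FunctionField.lSpace (fibre x s : Set (Place K F)) 0 := fun c v hv => by
    have hv' : 0 < v.ord (x - algebraMap K F s) := mem_zeros.mp hv
    have hxv : 0 ≤ v.ord x := by
      by_contra hneg
      have h1 := v.adicValuation_le_one_iff.mpr (Or.inr hv'.le)
      have h2 := (Valuation.map_add _ _ _).trans
        (max_le h1 (v.adicValuation_algebraMap_le_one s))
      rw [sub_add_cancel] at h2
      exact (v.not_adicValuation_le_one_iff.mpr (not_le.mp hneg)) h2
    simpa using hφreg c v hxv
  have hrel := FunctionField.relDim_lSpace (fibre x s)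
    (fun v _ => FunctionField.finite_residueField v) (D := fun _ => (-1 : ℤ)) (E := 0)
    (fun v _ => by simp)
  have := hrel.finite
  let g := (Submodule.mkQ _).comp (φ.codRestrict _ hφmem) (R₂ := K)
    (M₃ := FunctionField.lSpace (fibre x s : Set (Place K F)) (0 : Place K F → ℤ) ⧸
      (FunctionField.lSpace (fibre x s : Set (Place K F)) fun _ => (-1 : ℤ)).submoduleOf
        (FunctionField.lSpace (fibre x s : Set (Place K F)) (0 : Place K F → ℤ)))
  have hker : degFun K x - (fibre x s).card ≤ Module.finrank K (LinearMap.ker g) := by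
    have h1 := g.finrank_range_add_finrank_ker
    have h2 := (LinearMap.range g).finrank_le
    rw [hrel.finrank_eq] at h2
    simp [FunctionField.degOn, FunctionField.deg_eq_one] at h1 h2
    omega
  refine (pow_dvd_pow _ hker).trans (pow_finrank_dvd_det D s _ fun c hc => ?_)
  have hlt : ∀ v ∈ fibre x s, v.adicValuation (φ c) < 1 := fun v hv => by
    have h1 : φ c ∈ FunctionField.lSpace (fibre x s : Set (Place K F)) fun _ => (-1 : ℤ) :=
      ((Submodule.Quotient.mk_eq_zero _).mp (LinearMap.mem_ker.mp hc) :)
    exact (h1 v hv).trans_lt (by rw [← exp_zero, exp_lt_exp]; norm_num)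
  funext j
  have hfib : ∀ v ∈ fibre x s, v.adicValuation (φ c * P.b j) < 1 := fun v hv => by
    have h1 := hφmem (Pi.single j 1) v hv
    simp [φ] at h1
    rw [map_mul]
    exact mul_lt_one_of_lt_of_le (hlt v hv) h1
  have hmat : Algebra.leftMulMatrix (P.basis hx) (φ c * P.b j)
      = (∑ i, Polynomial.C (c i) • M i j).map (toAdjoin K x) := by
    rw [Fintype.linearCombination_apply, Finset.sum_mul, map_sum]
    change _ = (toAdjoin K x).mapMatrix _
    rw [map_sum]
    refine Finset.sum_congr rfl fun i _ => ?_
    rw [smul_mul_assoc, ← algebraMap_smul K⟮x⟯ (c i), map_smul, hM]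
    ext1 k l
    simp [toAdjoin]
  have := P.trace_eval_eq_zero hx (mul_mem (hφreg c) (P.mem j)) s hfib hmat
  simpa [Matrix.trace_sum, Matrix.trace_smul, eval_finsetSum, Matrix.vecMul, dotProduct, hD]
    using this

end PolyBasis

omit [IsAlgClosed K] [IsFunctionField K F] in
theorem coe_trace_congr {E E' : IntermediateField K F} (h : E = E') (f : F) :
    ((Algebra.trace E F f : E) : F) = (Algebra.trace E' F f : E') := by
  subst h
  rfl

omit [IsAlgClosed K] [IsFunctionField K F] in
include hx in
/-- Comparing the degree of a polynomial with the order of its transform at infinity. -/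
theorem natDegree_add_le_of_inv {D Q : K[X]} (hD : D ≠ 0) {A k : ℕ}
    (h : aeval x⁻¹ (X ^ k * Q) = x⁻¹ ^ A * aeval x D) : D.natDegree + k ≤ A := by
  have hx0 := FunctionField.transcendental_ne_zero hx
  have hpoly : X ^ A * reflect D.natDegree D = X ^ (D.natDegree + k) * Q := by
    refine transcendental_iff_injective.mp (FunctionField.transcendental_inv hx) ?_
    rw [pow_add, mul_assoc, map_mul, map_mul _ (X ^ D.natDegree), h,
      aeval_inv_reflect hx0 D le_rfl, map_pow, map_pow, aeval_X]
    ring
  by_contra hlt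
  have := congrArg (fun p : K[X] => p.coeff A) hpoly
  simp only [coeff_X_pow_mul', if_neg hlt, le_refl, if_true, Nat.sub_self, coeff_reflect,
    revAt_le (Nat.zero_le _), Nat.sub_zero] at this
  exact leadingCoeff_ne_zero.mpr hD this

include hx in
/-- **Riemann–Hurwitz inequality** in any characteristic. -/
theorem hurwitz_le [Algebra.IsSeparable K⟮x⟯ F] (S : Finset K) :
    (∑ s ∈ S, ((degFun K x : ℤ) - (fibre x s).card)) + ((degFun K x : ℤ) - (poles K x).card)
      ≤ 2 * ((genusFF K F : ℤ) + degFun K x - 1) := by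
  classical
  have hx0 := FunctionField.transcendental_ne_zero hx
  have hy := FunctionField.transcendental_inv hx
  obtain ⟨B⟩ := exists_reducedBasis (K := K) hx
  set n := degFun K x with hn
  obtain ⟨D, hDtr, hD0, hDdvd⟩ := (B.finiteChart hx0).exists_traceMatrix hx
  obtain ⟨D', hDtr', -, hDdvd'⟩ : ∃ D' : Matrix (Fin n) (Fin n) K[X],
      (∀ i j, ((Algebra.trace K⟮x⁻¹⟯ F ((B.infiniteChart hx0).b i * (B.infiniteChart hx0).b j)
        : K⟮x⁻¹⟯) : F) = aeval x⁻¹ (D' i j)) ∧ True ∧
      X ^ (n - (poles K x).card) ∣ D'.det := by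
    have key : ∀ {m : ℕ} (P : PolyBasis K x⁻¹ m), degFun K x⁻¹ = m →
        ∃ D' : Matrix (Fin m) (Fin m) K[X],
          (∀ i j, ((Algebra.trace K⟮x⁻¹⟯ F (P.b i * P.b j) : K⟮x⁻¹⟯) : F)
            = aeval x⁻¹ (D' i j)) ∧ True ∧ X ^ (m - (poles K x).card) ∣ D'.det := by
      rintro m P rfl
      obtain ⟨D', h1, -, h3⟩ := P.exists_traceMatrix hy
      exact ⟨D', h1, trivial, by simpa [fibre, poles] using h3 0⟩
    exact key (B.infiniteChart hx0) (FunctionField.degFun_inv x)
  obtain ⟨Q, hQ⟩ := hDdvd'
  set A := ∑ i, B.a i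
  have hdet : aeval x⁻¹ D'.det = x⁻¹ ^ (2 * A) * aeval x D.det := by
    rw [AlgHom.map_det, AlgHom.map_det, two_mul, pow_add, ← Finset.prod_pow_eq_pow_sum, mul_assoc,
      ← Matrix.det_mul_row, ← Matrix.det_mul_column]
    congr 1
    ext1 i j
    have hyE : ∀ k : ℕ, x⁻¹ ^ k ∈ K⟮x⟯ := fun k =>
      pow_mem (inv_mem (mem_adjoin_simple_self K x)) k
    simp only [AlgHom.mapMatrix_apply, Matrix.map_apply, Matrix.of_apply, ← hDtr, ← hDtr']
    rw [coe_trace_congr (FunctionField.adjoin_inv_eq x)]
    simp only [ReducedBasis.infiniteChart, ReducedBasis.finiteChart]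
    rw [show B.b i * x⁻¹ ^ B.a i * (B.b j * x⁻¹ ^ B.a j)
        = (⟨_, hyE (B.a i)⟩ * ⟨_, hyE (B.a j)⟩ : K⟮x⟯) • (B.b i * B.b j) by
      simp [IntermediateField.smul_def]; ring, map_smul]
    simp
    ring
  have hle1 := natDegree_add_le_of_inv hx (hD0 inferInstance) (hQ ▸ hdet)
  have hle2 : ∑ s ∈ S, (n - (fibre x s).card) ≤ D.det.natDegree := by
    have hdvd : ∏ s ∈ S, (X - Polynomial.C s) ^ (n - (fibre x s).card) ∣ D.det :=
      Finset.prod_dvd_of_coprime (fun s _ t _ hst => IsCoprime.pow
        ((pairwise_coprime_X_sub_C Function.injective_id) hst)) fun s _ => hDdvd s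
    refine le_trans (le_of_eq ?_) (natDegree_le_of_dvd hdvd (hD0 inferInstance))
    rw [natDegree_prod _ _ fun s _ => pow_ne_zero _ (X_sub_C_ne_zero s)]
    simp
  have hsum : ∑ s ∈ S, ((n : ℤ) - (fibre x s).card)
      = ((∑ s ∈ S, (n - (fibre x s).card) : ℕ) : ℤ) := by
    rw [Nat.cast_sum]
    exact Finset.sum_congr rfl fun s _ => by
      have := card_fibre_le hx s
      omega
  have hA : (A : ℤ) = (genusFF K F : ℤ) + n - 1 := by
    rw [← B.sum_eq]; push_cast [A]; rfl
  have := card_poles_le (K := K) hx
  omega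

include hx in
/-- **Riemann–Hurwitz formula** in characteristic zero. -/
theorem hurwitz_eq [CharZero K] (S : Finset K)
    (hS : ∀ s ∉ S, (fibre x s).card = degFun K x) :
    (∑ s ∈ S, ((degFun K x : ℤ) - (fibre x s).card)) + ((degFun K x : ℤ) - (poles K x).card)
      = 2 * ((genusFF K F : ℤ) + degFun K x - 1) := by
  have := FunctionField.isCurveOver (K := K) (F := F)
  have hpolesum : ∑ v ∈ poles K x, v.ord x = -(degFun K x : ℤ) := by
    have := sum_ord_zeros (FunctionField.transcendental_inv hx)
    simp only [Place.ord_inv, Finset.sum_neg_distrib, FunctionField.degFun_inv] at this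
    show ∑ v ∈ zeros K x⁻¹, v.ord x = _
    omega
  have hunr : ∀ s ∉ S, ∀ v ∈ fibre x s, v.ord (x - algebraMap K F s) = 1 := by
    intro s hs v hv
    have h1 : ∀ w ∈ fibre x s, (1 : ℤ) ≤ w.ord (x - algebraMap K F s) :=
      fun w hw => mem_zeros.mp hw
    have h2 : ∑ w ∈ fibre x s, (1 : ℤ) = ∑ w ∈ fibre x s, w.ord (x - algebraMap K F s) := by
      rw [sum_ord_fibre hx, ← hS s hs]; simp
    exact ((Finset.sum_eq_sum_iff_of_le h1).mp h2 v hv).symm
  have := Differentials.genusFF_eq_of_fibers hx (degFun K x) (fibre x) (poles K x)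
    (fun _ _ => mem_zeros) (fun _ => mem_poles) (sum_ord_fibre hx) hpolesum S hunr
  linarith

end Fermat.Agent.GoodReduction
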