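import Fermat.Agent.GoodReduction.GoodModel
import Fermat.Agent.GoodReduction.Hurwitz
import Mathlib.LinearAlgebra.Matrix.Charpoly.Coeff
import Mathlib.LinearAlgebra.Charpoly.ToMatrix
import Mathlib.Algebra.Polynomial.Lifts

/-!
# A good-model criterion by counting fibres

If `t = res x` has the same degree as `x`, and `x` is unramified outside two values with distinct
reductions and infinity, then Riemann–Hurwitz forces equality of genera and of the reduced
Riemann–Roch spaces of the multiples of the polar divisor.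
-/

set_option autoImplicit false

noncomputable section

open AlgebraicCurve WithZero IntermediateField Polynomial Filter
open Fermat.Agent.FunctionField (IsFunctionField degFun poleDiv)

namespace Fermat.Agent.GoodReduction

variable {K k F κ : Type*} [Field K] [Field k] [Field F] [Field κ] [Algebra K F] [Algebra k κ]

/-- A root of a monic polynomial with integral coefficients is integral. -/
theorem adicValuation_le_one_of_isRoot {v : Place K F} {p : F[X]} (hp : p.Monic)
    (hc : ∀ i, v.adicValuation (p.coeff i) ≤ 1) {f : F} (hf : p.eval f = 0) :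
    v.adicValuation f ≤ 1 := by
  by_contra! h
  have hf0 : (v.adicValuation f) ≠ 0 := fun h0 => by simp [h0] at h
  rw [eval_eq_sum_range] at hf
  have hlt : ∀ i ∈ Finset.range (p.natDegree + 1) \ {p.natDegree},
      v.adicValuation (p.coeff i * f ^ i)
        < v.adicValuation (p.coeff p.natDegree * f ^ p.natDegree) := by
    intro i hi
    simp only [Finset.mem_sdiff, Finset.mem_range, Finset.mem_singleton] at hi
    rw [map_mul, map_mul, map_pow, map_pow, hp.coeff_natDegree, map_one, one_mul]
    exact (mul_le_of_le_one_left' (hc i)).trans_lt (pow_lt_pow_right₀ h (by omega))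
  have heq := Valuation.map_sum_eq_of_lt v.adicValuation
    (Finset.mem_range.mpr (Nat.lt_succ_self p.natDegree)) hlt
  rw [hf, map_zero, map_mul, map_pow, hp.coeff_natDegree, map_one, one_mul] at heq
  exact pow_ne_zero _ hf0 heq.symm

theorem ord_nonneg_of_mem_fibre [IsFunctionField K F] {x : F} {s : K} {v : Place K F}
    (hv : v ∈ fibre x s) : 0 ≤ v.ord x := by
  by_contra hneg
  have h1 := v.adicValuation_le_one_iff.mpr (Or.inr (mem_zeros.mp hv).le)
  have h2 := (Valuation.map_add _ _ _).trans (max_le h1 (v.adicValuation_algebraMap_le_one s))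
  rw [sub_add_cancel] at h2
  exact v.not_adicValuation_le_one_iff.mpr (not_le.mp hneg) h2

/-- Fibres over distinct values are disjoint. -/
theorem disjoint_fibre [IsFunctionField K F] (x : F) {s s' : K} (h : s ≠ s') :
    Disjoint (fibre x s) (fibre x s') := by
  refine Finset.disjoint_left.mpr fun v h1 h2 => ?_
  have hlt : ∀ c : K, v ∈ fibre x c → v.adicValuation (x - algebraMap K F c) < 1 := fun c hc =>
    (FunctionField.adicValuation_lt_one_iff _).mpr (Or.inr (mem_zeros.mp hc))
  have h3 := (v.adicValuation.map_sub (x - algebraMap K F s) (x - algebraMap K F s')).trans_lt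
    (max_lt (hlt s h1) (hlt s' h2))
  rw [sub_sub_sub_cancel_left, ← map_sub,
    FunctionField.adicValuation_algebraMap _ (sub_ne_zero.mpr (Ne.symm h))] at h3
  exact lt_irrefl _ h3

theorem disjoint_fibre_poles [IsFunctionField K F] (x : F) (s : K) :
    Disjoint (fibre x s) (poles K x) :=
  Finset.disjoint_left.mpr fun _ h1 h2 =>
    not_lt.mpr (ord_nonneg_of_mem_fibre h1) (mem_poles.mp h2)

theorem indicator_apply (Z : Finset (Place K F)) (v : Place K F) [Decidable (v ∈ Z)] :
    (∑ w ∈ Z, Finsupp.single w (1 : ℤ)) v = if v ∈ Z then 1 else 0 := by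
  classical
  rw [Finsupp.finsetSum_apply]
  simp [Finsupp.single_apply]

theorem mem_LSpace_sub_indicator {D : Divisor K F} {f : F} (Z : Finset (Place K F)) :
    f ∈ LSpace (D - ∑ v ∈ Z, Finsupp.single v (1 : ℤ)) ↔
      f ∈ LSpace D ∧ ∀ v ∈ Z, f = 0 ∨ 0 < D v + v.ord f := by
  classical
  rcases eq_or_ne f 0 with rfl | hf
  · simp
  rw [mem_LSpace hf, mem_LSpace hf]
  simp only [Finsupp.sub_apply, indicator_apply, hf, false_or]
  constructor
  · intro h
    refine ⟨fun v => ?_, fun v hv => ?_⟩
    · have := h v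
      split_ifs at this <;> omega
    · have := h v
      rw [if_pos hv] at this
      omega
  · rintro ⟨h1, h2⟩ v
    split_ifs with hv
    · have := h2 v hv
      omega
    · simpa using h1 v

variable {A : ValuationSubring K} {π : A →+* k} (red : Reduction F κ A π)

namespace Reduction

/-- Constants in the valuation ring. -/
def algA : A →+* red.V :=
  ((algebraMap K F).comp A.subtype).codRestrict red.V fun a => red.algebraMap_mem a

/-- The residue of a constant of `A`. -/
theorem res_algA (a : A) : red.res (red.algA a) = algebraMap k κ (π a) := red.res_algebraMap a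

/-- Evaluation of integral polynomials. -/
def evV (x : red.V) : A[X] →+* red.V := eval₂RingHom red.algA x

theorem coe_evV (x : red.V) (p : A[X]) :
    ((red.evV x p : red.V) : F) = aeval (x : F) (p.map A.subtype) := by
  show red.V.subtype (eval₂ red.algA x p) = _
  rw [hom_eval₂, aeval_def, eval₂_map]
  rfl

theorem res_evV (x : red.V) (p : A[X]) :
    red.res (red.evV x p) = aeval (red.res x) (p.map π) := by
  show red.res (eval₂ red.algA x p) = _
  rw [hom_eval₂, aeval_def, eval₂_map]
  congr 1
  ext a
  exact red.res_algA a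

theorem exists_primitive {p : K[X]} (hp : p ≠ 0) :
    ∃ (l : K) (p₀ : A[X]), l ≠ 0 ∧ p = Polynomial.C l * p₀.map A.subtype ∧ p₀.map π ≠ 0 := by
  classical
  obtain ⟨m, hm, hmax⟩ := p.support.exists_max_image (fun i => A.valuation (p.coeff i))
    (Finset.nonempty_iff_ne_empty.mpr fun h => hp (support_eq_empty.mp h))
  have hl : p.coeff m ≠ 0 := mem_support_iff.mp hm
  have hmem : ∀ i, p.coeff i / p.coeff m ∈ A := by
    intro i
    by_cases hi : i ∈ p.support
    · rw [← A.valuation_le_one_iff, map_div₀,
        div_le_one₀ (zero_lt_iff.mpr ((Valuation.ne_zero_iff _).mpr hl))]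
      exact hmax i hi
    · simp [notMem_support_iff.mp hi]
  refine ⟨p.coeff m, ∑ i ∈ p.support, Polynomial.C ⟨_, hmem i⟩ * X ^ i, hl, ?_, fun h0 => ?_⟩
  · rw [Polynomial.map_sum, Finset.mul_sum]
    conv_lhs => rw [p.as_sum_support_C_mul_X_pow]
    refine Finset.sum_congr rfl fun i _ => ?_
    rw [Polynomial.map_mul, Polynomial.map_pow, map_X, map_C, ← mul_assoc, ← map_mul]
    congr 2
    exact (mul_div_cancel₀ _ hl).symm
  · have := congrArg (fun q : k[X] => q.coeff m) h0
    simp only [Polynomial.coeff_map, finsetSum_coeff, coeff_C_mul, coeff_X_pow, mul_ite, mul_one,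
      mul_zero, Finset.sum_ite_eq, hm, if_true, coeff_zero] at this
    rw [show (⟨p.coeff m / p.coeff m, hmem m⟩ : A) = 1 from Subtype.ext (div_self hl), map_one]
      at this
    exact one_ne_zero this

section Gauss

variable {x : red.V} (ht : Transcendental k (red.res x))

include ht

theorem res_evV_ne_zero {p : A[X]} (hp : p.map π ≠ 0) : red.res (red.evV x p) ≠ 0 := by
  rw [red.res_evV]
  exact fun h => hp (transcendental_iff.mp ht _ h)

/-- A function with transcendental residue is transcendental. -/
theorem transcendental : Transcendental K (x : F) := by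
  rw [transcendental_iff]
  intro p hp
  by_contra hne
  obtain ⟨l, p₀, hl, rfl, hp₀⟩ := exists_primitive (A := A) (π := π) hne
  rw [map_mul, aeval_C, mul_eq_zero, map_eq_zero, or_iff_right hl] at hp
  exact red.coe_ne_zero (red.res_evV_ne_zero ht hp₀) (red.coe_evV x p₀ ▸ hp)

theorem exists_integral_of_aeval_mem {p : K[X]} (hp : aeval (x : F) p ∈ red.V) :
    ∃ P : A[X], p = P.map A.subtype := by
  rcases eq_or_ne p 0 with rfl | hne
  · exact ⟨0, by simp⟩
  obtain ⟨l, p₀, -, rfl, hp₀⟩ := exists_primitive (A := A) (π := π) hne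
  rw [map_mul, aeval_C, ← red.coe_evV] at hp
  have hinv := red.inv_mem (red.res_evV_ne_zero ht hp₀)
  have hl : algebraMap K F l ∈ red.V := by
    have := red.V.mul_mem _ _ hp hinv
    rwa [mul_assoc, mul_inv_cancel₀ (red.coe_ne_zero (red.res_evV_ne_zero ht hp₀)), mul_one]
      at this
  exact ⟨Polynomial.C ⟨l, red.mem_of_algebraMap_mem hl⟩ * p₀, by simp [Polynomial.map_mul]⟩

theorem res_mem_adjoin {r : red.V} (hr : (r : F) ∈ K⟮(x : F)⟯) :
    red.res r ∈ k⟮red.res x⟯ := by
  obtain ⟨p, q, hpq⟩ := (mem_adjoin_simple_iff K _).mp hr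
  rcases eq_or_ne q 0 with rfl | hq
  · rw [show r = 0 from Subtype.ext (by simpa using hpq), map_zero]
    exact zero_mem _
  obtain ⟨l, q₀, hl, rfl, hq₀⟩ := exists_primitive (A := A) (π := π) hq
  have h0 := red.res_evV_ne_zero ht hq₀
  have hq' : aeval (x : F) (q₀.map A.subtype) ≠ 0 := red.coe_evV x q₀ ▸ red.coe_ne_zero h0
  have hl' : algebraMap K F l ≠ 0 := by simpa using hl
  have hmem : aeval (x : F) (Polynomial.C l⁻¹ * p) ∈ red.V := by
    have : aeval (x : F) (Polynomial.C l⁻¹ * p) = ((r * red.evV x q₀ : red.V) : F) := by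
      rw [MulMemClass.coe_mul, red.coe_evV, hpq, map_mul, map_mul, aeval_C, aeval_C, map_inv₀]
      field_simp
    exact this ▸ (r * red.evV x q₀).2
  obtain ⟨P, hP⟩ := red.exists_integral_of_aeval_mem ht hmem
  have hrP : r * red.evV x q₀ = red.evV x P := by
    refine Subtype.ext ?_
    rw [MulMemClass.coe_mul, red.coe_evV, red.coe_evV, ← hP, hpq, map_mul, map_mul, aeval_C,
      aeval_C, map_inv₀]
    field_simp
  have := congrArg red.res hrP
  rw [map_mul, red.res_evV x P, ← eq_div_iff h0] at this
  rw [this, red.res_evV]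
  exact (mem_adjoin_simple_iff k _).mpr ⟨_, _, rfl⟩

end Gauss

section Lifts

variable {x : red.V} (ht : Transcendental k (red.res x)) {ι : Type*} [Fintype ι]
  {z : ι → red.V} (hz : LinearIndependent k⟮red.res x⟯ fun i => red.res (z i))

include ht hz

theorem res_coeff_eq_zero (r : ι → red.V) (hr : ∀ i, (r i : F) ∈ K⟮(x : F)⟯)
    (h : red.res (∑ i, r i * z i) = 0) (i : ι) : red.res (r i) = 0 := by
  have h' := Fintype.linearIndependent_iff.mp hz
    (fun i => ⟨red.res (r i), red.res_mem_adjoin ht (hr i)⟩) (by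
      rw [← h, map_sum]
      simp [IntermediateField.smul_def]) i
  exact congrArg Subtype.val h'

/-- The coordinates of an element of `V` in the residually independent family lie in `V`. -/
theorem coeff_mem (g : ι → K⟮(x : F)⟯) (hg : (∑ i, (g i : F) * (z i : F)) ∈ red.V) (i : ι) :
    (g i : F) ∈ red.V := by
  classical
  by_contra hi
  obtain ⟨m, -, hmax⟩ := Finset.exists_max_image Finset.univ
    (fun j => red.V.valuation (g j : F)) ⟨i, Finset.mem_univ i⟩
  have hm : (g m : F) ∉ red.V := fun hm => by
    rw [← ValuationSubring.valuation_le_one_iff] at hm hi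
    exact hi ((hmax i (Finset.mem_univ i)).trans hm)
  have hm0 : (g m : F) ≠ 0 := fun h0 => hm (h0 ▸ zero_mem _)
  have hinv : (g m : F)⁻¹ ∈ red.V := (red.V.mem_or_inv_mem _).resolve_left hm
  have hmem : ∀ j, (g j : F) * (g m : F)⁻¹ ∈ red.V := fun j => by
    rw [← ValuationSubring.valuation_le_one_iff, map_mul, map_inv₀,
      mul_inv_le_iff₀ (zero_lt_iff.mpr ((Valuation.ne_zero_iff _).mpr hm0)), one_mul]
    exact hmax j (Finset.mem_univ j)
  have hres : red.res ⟨_, hinv⟩ = 0 := by
    by_contra h
    exact hm (by simpa using red.inv_mem h)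
  have h := red.res_coeff_eq_zero ht hz (fun j => ⟨_, hmem j⟩)
    (fun j => mul_mem (g j).2 (IntermediateField.inv_mem _ (g m).2)) (by
      rw [show ∑ j, (⟨_, hmem j⟩ : red.V) * z j = ⟨_, hinv⟩ * ⟨_, hg⟩ from ?_, map_mul, hres,
        zero_mul]
      apply Subtype.ext
      rw [AddSubmonoidClass.coe_finsetSum, MulMemClass.coe_mul]
      simp only [MulMemClass.coe_mul, Finset.mul_sum]
      exact Finset.sum_congr rfl fun j _ => by ring) m
  rw [show (⟨_, hmem m⟩ : red.V) = 1 from Subtype.ext (mul_inv_cancel₀ hm0), map_one] at h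
  exact one_ne_zero h

theorem linearIndependent_lifts : LinearIndependent K⟮(x : F)⟯ fun i => (z i : F) := by
  classical
  rw [Fintype.linearIndependent_iff]
  intro g hg i
  by_contra hi
  have h0 : ∑ j, (g j : F) * (z j : F) = 0 := by simpa [IntermediateField.smul_def] using hg
  have hi' : (g i : F) ≠ 0 := by simpa using hi
  have hmem : ∀ j, ((g j / g i : K⟮(x : F)⟯) : F) ∈ red.V := by
    refine fun j => red.coeff_mem ht hz (fun j => g j / g i) ?_ j
    have : ∑ j, ((g j / g i : K⟮(x : F)⟯) : F) * (z j : F) = 0 := by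
      calc _ = (g i : F)⁻¹ * ∑ j, (g j : F) * (z j : F) := by
            rw [Finset.mul_sum]
            exact Finset.sum_congr rfl fun j _ => by push_cast; ring
        _ = 0 := by rw [h0, mul_zero]
    exact this ▸ zero_mem _
  have h := red.res_coeff_eq_zero ht hz (fun j => ⟨_, hmem j⟩) (fun j => (g j / g i).2) (by
    rw [show ∑ j, (⟨_, hmem j⟩ : red.V) * z j = 0 from ?_, map_zero]
    apply Subtype.ext
    simp only [AddSubmonoidClass.coe_finsetSum, MulMemClass.coe_mul, ZeroMemClass.coe_zero]
    calc _ = (g i : F)⁻¹ * ∑ j, (g j : F) * (z j : F) := by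
          rw [Finset.mul_sum]
          exact Finset.sum_congr rfl fun j _ => by push_cast; ring
      _ = 0 := by rw [h0, mul_zero]) i
  rw [show (⟨_, hmem i⟩ : red.V) = 1 from Subtype.ext (by simp [div_self hi]), map_one] at h
  exact one_ne_zero h

end Lifts

section Degree

variable [IsFunctionField K F] [IsFunctionField k κ] [IsAlgClosed K]
  {x : red.V} (ht : Transcendental k (red.res x))
  (hdeg : degFun k (red.res x) = degFun K (x : F)) (hsurj : Function.Surjective red.res)

include ht hdeg hsurj

/-- Functions regular off the poles reduce to functions regular off the poles. -/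
theorem res_mem_regularOff {f : red.V} (hf : (f : F) ∈ regularOff K (x : F)) :
    red.res f ∈ regularOff k (red.res x) := by
  classical
  have hx := red.transcendental ht
  have : Nonempty (Fin (degFun K (x : F))) := ⟨⟨0, FunctionField.degFun_pos hx⟩⟩
  have := IsFunctionField.finiteDimensional_adjoin (x : F) hx
  have := IsFunctionField.finiteDimensional_adjoin (red.res x) ht
  let bk := Module.finBasisOfFinrankEq k⟮red.res x⟯ κ hdeg
  choose z hz using fun i => hsurj (bk i)
  let bz := basisOfLinearIndependentOfCardEqFinrank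
    (red.linearIndependent_lifts ht (z := z) (by simpa only [hz] using bk.linearIndependent))
    (Fintype.card_fin _)
  have hzapp : ∀ i, bz i = (z i : F) := fun i => by simp [bz]
  let φ := Algebra.lmul K⟮(x : F)⟯ F (f : F)
  let VE : ValuationSubring K⟮(x : F)⟯ := red.V.comap (algebraMap K⟮(x : F)⟯ F)
  have hentry : ∀ i j, Algebra.leftMulMatrix bz (f : F) i j ∈ VE := by
    intro i j
    have hsum := bz.sum_repr ((f : F) * bz j)
    rw [Algebra.leftMulMatrix_eq_repr_mul]
    show ((bz.repr ((f : F) * bz j) i : K⟮(x : F)⟯) : F) ∈ red.V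
    refine red.coeff_mem ht (z := z) (by simpa only [hz] using bk.linearIndependent)
      (fun i => bz.repr ((f : F) * bz j) i) ?_ i
    simp only [IntermediateField.smul_def, smul_eq_mul, hzapp] at hsum ⊢
    rw [hsum]
    exact red.V.mul_mem _ _ f.2 (z j).2
  let MV : Matrix (Fin (degFun K (x : F))) (Fin (degFun K (x : F))) VE :=
    fun i j => ⟨_, hentry i j⟩
  have hχV : φ.charpoly = MV.charpoly.map VE.subtype := by
    rw [← Matrix.charpoly_map, ← LinearMap.charpoly_toMatrix φ bz]
    rfl
  obtain ⟨B⟩ := exists_reducedBasis (K := K) hx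
  let P := B.finiteChart (FunctionField.transcendental_ne_zero hx)
  obtain ⟨M, hM⟩ := P.exists_matrix hx hf
  have hχX : φ.charpoly = M.charpoly.map (toAdjoin K (x : F)) := by
    rw [← Matrix.charpoly_map, ← hM, ← LinearMap.charpoly_toMatrix φ (P.basis hx)]
    rfl
  have hcoeff : ∀ i, ((φ.charpoly.coeff i : K⟮(x : F)⟯) : F) ∈ red.V := fun i => by
    rw [hχV, Polynomial.coeff_map]
    exact (MV.charpoly.coeff i).2
  let χ : red.V[X] := ∑ i ∈ Finset.range (φ.charpoly.natDegree + 1),
    Polynomial.C ⟨_, hcoeff i⟩ * X ^ i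
  have hχc : ∀ i, (χ.coeff i : F) = ((φ.charpoly.coeff i : K⟮(x : F)⟯) : F) := by
    intro i
    simp only [χ, finsetSum_coeff, coeff_C_mul, coeff_X_pow, mul_ite, mul_one, mul_zero,
      Finset.sum_ite_eq, Finset.mem_range]
    split_ifs with h
    · rfl
    · rw [coeff_eq_zero_of_natDegree_lt (by omega)]
      rfl
  have hχmap : χ.map red.V.subtype = φ.charpoly.map (algebraMap K⟮(x : F)⟯ F) := by
    ext i
    rw [Polynomial.coeff_map, Polynomial.coeff_map]
    exact hχc i
  have hmonic : χ.Monic := by
    refine monic_of_injective (f := red.V.subtype) Subtype.val_injective ?_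
    rw [hχmap]
    exact (LinearMap.charpoly_monic φ).map _
  have hroot : χ.eval f = 0 := by
    refine Subtype.val_injective ?_
    show red.V.subtype (χ.eval f) = 0
    rw [← eval_map_apply, hχmap, eval_map, ← aeval_def]
    have h := LinearMap.aeval_self_charpoly φ
    rw [show φ = Algebra.lmul K⟮(x : F)⟯ F (f : F) from rfl, aeval_algHom_apply] at h
    simpa [φ] using congrArg (fun ψ : Module.End K⟮(x : F)⟯ F => ψ 1) h
  rw [mem_regularOff]
  intro v hv
  refine adicValuation_le_one_of_isRoot (hmonic.map red.res) (fun i => ?_)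
    (by rw [eval_map_apply, hroot, map_zero])
  have hp : aeval (x : F) (M.charpoly.coeff i) = (χ.coeff i : F) := by
    rw [hχc, hχX, Polynomial.coeff_map, coe_toAdjoin]
  obtain ⟨Q, hQ⟩ := red.exists_integral_of_aeval_mem ht (hp ▸ (χ.coeff i).2)
  rw [hQ, ← red.coe_evV] at hp
  rw [Polynomial.coeff_map, ← show red.evV x Q = χ.coeff i from Subtype.ext hp, red.res_evV]
  exact Algebra.adjoin_le (S := regularOff k (red.res x))
    (Set.singleton_subset_iff.mpr (self_mem_regularOff (red.res x)))
    (aeval_mem_adjoin_singleton k (red.res x)) v hv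

/-- Vanishing on a fibre is preserved. -/
theorem res_vanish {f : red.V} (hf : (f : F) ∈ regularOff K (x : F)) (c : A)
    (h0 : ∀ v ∈ fibre (x : F) (c : K), v.adicValuation (f : F) < 1)
    {w : Place k κ} (hw : w ∈ fibre (red.res x) (π c)) : w.adicValuation (red.res f) < 1 := by
  have hx := red.transcendental ht
  set u : red.V := x - red.algA c with hu_def
  have hures : red.res u = red.res x - algebraMap k κ (π c) := by
    rw [map_sub, red.res_algA]
  have hu : red.res u ≠ 0 :=
    hures ▸ FunctionField.transcendental_ne_zero (transcendental_sub_algebraMap ht (π c))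
  have hh := div_mem_of_vanish hx hf (c : K) h0
  set h : red.V := f ^ degFun K (x : F) * ⟨_, red.inv_mem hu⟩ with hdef
  have hcoe : (h : F) = (f : F) ^ degFun K (x : F) / ((x : F) - algebraMap K F (c : K)) := by
    simp [hdef, div_eq_mul_inv, hu_def, algA]
  have hres := red.res_mem_regularOff ht hdeg hsurj (f := h) (hcoe ▸ hh) w
      (ord_nonneg_of_mem_fibre hw)
  have hfu : f ^ degFun K (x : F) = u * h := by
    refine Subtype.ext ?_
    rw [MulMemClass.coe_mul, hdef, MulMemClass.coe_mul]
    field_simp [red.coe_ne_zero hu]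
  have := congrArg (fun y => w.adicValuation (red.res y)) hfu
  simp only [map_pow, map_mul, hures] at this
  have hlt : w.adicValuation (red.res x - algebraMap k κ (π c)) < 1 :=
    (FunctionField.adicValuation_lt_one_iff _).mpr (Or.inr (mem_zeros.mp hw))
  have hlt' := this ▸ mul_lt_one_of_lt_of_le hlt hres
  exact (pow_lt_one_iff (FunctionField.degFun_pos hx).ne').mp hlt'

end Degree

end Reduction

section Criterion

variable [IsFunctionField K F] [IsFunctionField k κ] [IsAlgClosed K] [IsAlgClosed k] [CharZero K]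
  {x : red.V} (ht : Transcendental k (red.res x))
  (hdeg : degFun k (red.res x) = degFun K (x : F)) (hsurj : Function.Surjective red.res)

include ht hdeg hsurj

omit [IsAlgClosed k] [CharZero K] in
open scoped Classical in
theorem resSpace_poleSpace_le (c₁ c₂ : A) (m : ℕ) :
    red.resSpace (LSpace (m • poleDiv K (x : F))) ≤ LSpace (m • poleDiv k (red.res x)) ∧
      red.resSpace (LSpace (m • poleDiv K (x : F) -
          ∑ v ∈ (fibre (x : F) (c₁ : K) ∪ fibre (x : F) (c₂ : K)) ∪ poles K (x : F),
            Finsupp.single v (1 : ℤ)))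
        ≤ LSpace (m • poleDiv k (red.res x) -
          ∑ v ∈ (fibre (red.res x) (π c₁) ∪ fibre (red.res x) (π c₂)) ∪ poles k (red.res x),
            Finsupp.single v (1 : ℤ)) := by
  classical
  have ht0 := FunctionField.transcendental_ne_zero ht
  have hx0 := red.coe_ne_zero ht0
  let y : red.V := ⟨(x : F)⁻¹, red.inv_mem ht0⟩
  have hy : red.res y = (red.res x)⁻¹ := by
    refine eq_inv_of_mul_eq_one_right ?_
    rw [← map_mul, show x * y = 1 from Subtype.ext (mul_inv_cancel₀ hx0), map_one]
  have hty : Transcendental k (red.res y) := hy ▸ FunctionField.transcendental_inv ht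
  have hdy : degFun k (red.res y) = degFun K (y : F) := by
    rw [hy, FunctionField.degFun_inv, hdeg, FunctionField.degFun_inv]
  have hmain : ∀ f : red.V, (f : F) ∈ LSpace (m • poleDiv K (x : F)) →
      red.res f ∈ LSpace (m • poleDiv k (red.res x)) ∧
        (f : F) ∈ regularOff K (x : F) ∧ ((f * y ^ m : red.V) : F) ∈ regularOff K (y : F) := by
    intro f hf
    rw [← natCast_zsmul] at hf
    obtain ⟨h1, h2⟩ := (mem_poleSpace_nat hx0).mp hf
    have h2' : ((f * y ^ m : red.V) : F) ∈ regularOff K (y : F) := by simpa [y] using h2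
    refine ⟨?_, h1, h2'⟩
    rw [← natCast_zsmul, mem_poleSpace_nat ht0, ← hy, ← map_pow, ← map_mul]
    exact ⟨red.res_mem_regularOff ht hdeg hsurj h1, red.res_mem_regularOff hty hdy hsurj h2'⟩
  constructor
  · intro a ha
    obtain ⟨f, hf, rfl⟩ := red.exists_of_mem_resSpace ha
    exact (hmain f hf).1
  intro a ha
  obtain ⟨f, hf, rfl⟩ := red.exists_of_mem_resSpace ha
  rw [mem_LSpace_sub_indicator] at hf ⊢
  obtain ⟨hfL, hfZ⟩ := hf
  obtain ⟨hres, hreg, hregy⟩ := hmain f hfL
  refine ⟨hres, fun w hw => or_iff_not_imp_left.mpr fun hne => ?_⟩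
  have hfin : ∀ c : A, fibre (x : F) (c : K) ⊆
      (fibre (x : F) (c₁ : K) ∪ fibre (x : F) (c₂ : K)) ∪ poles K (x : F) →
      w ∈ fibre (red.res x) (π c) →
        0 < (m • poleDiv k (red.res x)) w + w.ord (red.res f) := by
    intro c hc hwc
    have hlt := red.res_vanish ht hdeg hsurj hreg c (fun v hv => ?_) hwc
    · rw [FunctionField.adicValuation_lt_one_iff, or_iff_right hne] at hlt
      simp only [poleDiv, Finsupp.smul_apply, Finsupp.sup_apply, Finsupp.neg_apply,
        FunctionField.divFun_apply, Finsupp.zero_apply]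
      rw [max_eq_right (by linarith [ord_nonneg_of_mem_fibre hwc]), smul_zero]
      omega
    · rw [FunctionField.adicValuation_lt_one_iff]
      refine (hfZ v (hc hv)).imp id fun h => ?_
      simp only [poleDiv, Finsupp.smul_apply, Finsupp.sup_apply, Finsupp.neg_apply,
        FunctionField.divFun_apply, Finsupp.zero_apply] at h
      rw [max_eq_right (by linarith [ord_nonneg_of_mem_fibre hv]), smul_zero] at h
      omega
  rw [Finset.mem_union, Finset.mem_union] at hw
  rcases hw with (hw | hw) | hw
  · exact hfin c₁ (fun v hv => by simp [hv]) hw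
  · exact hfin c₂ (fun v hv => by simp [hv]) hw
  have hlt := red.res_vanish hty hdy hsurj hregy 0 (fun v hv => ?_) (w := w)
    (by simpa [fibre, poles, hy] using hw)
  · rw [map_mul, map_pow, hy, FunctionField.adicValuation_lt_one_iff,
      or_iff_right (mul_ne_zero hne (pow_ne_zero m (inv_ne_zero ht0))),
      w.ord_mul hne (pow_ne_zero m (inv_ne_zero ht0)), FunctionField.ord_pow, w.ord_inv] at hlt
    have hneg := mem_poles.mp hw
    simp only [poleDiv, Finsupp.smul_apply, Finsupp.sup_apply, Finsupp.neg_apply,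
      FunctionField.divFun_apply, Finsupp.zero_apply]
    rw [max_eq_left (by omega), nsmul_eq_mul]
    linarith
  · have hvp : v ∈ poles K (x : F) := by simpa [fibre, poles, y] using hv
    rw [FunctionField.adicValuation_lt_one_iff]
    rcases eq_or_ne (f : F) 0 with h0 | h0
    · left; simp [h0]
    right
    have h := (hfZ v (by simp [hvp])).resolve_left h0
    simp only [poleDiv, Finsupp.smul_apply, Finsupp.sup_apply, Finsupp.neg_apply,
      FunctionField.divFun_apply, Finsupp.zero_apply] at h
    rw [max_eq_left (by linarith [mem_poles.mp hvp]), nsmul_eq_mul] at h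
    show 0 < v.ord ((f : F) * ((x : F)⁻¹) ^ m)
    rw [v.ord_mul h0 (pow_ne_zero m (inv_ne_zero hx0)), FunctionField.ord_pow, v.ord_inv]
    linarith

/-- **Good-model criterion.** -/
theorem goodModel_of_fibres [Algebra.IsSeparable k⟮red.res x⟯ κ] (c₁ c₂ : A) (hc : π c₁ ≠ π c₂)
    (hS : ∀ s : K, s ≠ c₁ → s ≠ c₂ → (fibre (x : F) s).card = degFun K (x : F)) :
    genusFF k κ = genusFF K F ∧ ∃ c₀ : ℤ, ∀ c, c₀ ≤ c →
      GoodModel red (genusFF K F) c (poleDiv K (x : F)) (poleDiv k (red.res x)) := by
  classical
  have hx := red.transcendental ht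
  obtain ⟨a, ha⟩ := exists_riemannData K F
  obtain ⟨b, hb⟩ := exists_riemannData k κ
  have R := ha (max a b) (le_max_left a b)
  have R' := hb (max a b) (le_max_right a b)
  set n := degFun K (x : F) with hn
  have hcK : (c₁ : K) ≠ c₂ := fun h => hc (by rw [Subtype.ext h])
  set Z := (fibre (x : F) (c₁ : K) ∪ fibre (x : F) (c₂ : K)) ∪ poles K (x : F) with hZdef
  set Z' := (fibre (red.res x) (π c₁) ∪ fibre (red.res x) (π c₂)) ∪ poles k (red.res x) with hZ'def
  have hZ : Z.card = (fibre (x : F) (c₁ : K)).card + (fibre (x : F) (c₂ : K)).card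
      + (poles K (x : F)).card := by
    rw [hZdef, Finset.card_union_of_disjoint, Finset.card_union_of_disjoint (disjoint_fibre _ hcK)]
    exact Finset.disjoint_union_left.mpr
      ⟨disjoint_fibre_poles _ _, disjoint_fibre_poles _ _⟩
  have hZ' : Z'.card = (fibre (red.res x) (π c₁)).card + (fibre (red.res x) (π c₂)).card
      + (poles k (red.res x)).card := by
    rw [hZ'def, Finset.card_union_of_disjoint, Finset.card_union_of_disjoint (disjoint_fibre _ hc)]
    exact Finset.disjoint_union_left.mpr
      ⟨disjoint_fibre_poles _ _, disjoint_fibre_poles _ _⟩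
  have hdH : Divisor.degree (poleDiv K (x : F)) = n := FunctionField.degree_poleDiv hx
  have hdHb : Divisor.degree (poleDiv k (red.res x)) = n := by
    rw [FunctionField.degree_poleDiv ht, hdeg]
  have hn1 : (1 : ℤ) ≤ n := by exact_mod_cast FunctionField.degFun_pos hx
  set M₀ := (max a b).toNat + Z.card + Z'.card
  have hstep : ∀ m ≥ M₀, (genusFF k κ : ℤ) ≤ genusFF K F ∧
      (Z'.card : ℤ) + genusFF k κ ≤ Z.card + genusFF K F ∧
      (genusFF k κ = genusFF K F → red.resSpace (LSpace (m • poleDiv K (x : F)))
        = LSpace (m • poleDiv k (red.res x))) := by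
    intro m hm
    obtain ⟨h1, h2⟩ := resSpace_poleSpace_le red ht hdeg hsurj c₁ c₂ m
    rw [← hZdef, ← hZ'def] at h2
    have hmn := le_mul_of_one_le_right (a := (m : ℤ)) (by omega) hn1
    have dH : Divisor.degree (m • poleDiv K (x : F)) = (m : ℤ) * n := by
      rw [map_nsmul, hdH, nsmul_eq_mul]
    have dHb : Divisor.degree (m • poleDiv k (red.res x)) = (m : ℤ) * n := by
      rw [map_nsmul, hdHb, nsmul_eq_mul]
    have dZ : Divisor.degree (∑ v ∈ Z, Finsupp.single v (1 : ℤ)) = Z.card := by
      simp [map_sum, R.deg_one]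
    have dZ' : Divisor.degree (∑ v ∈ Z', Finsupp.single v (1 : ℤ)) = Z'.card := by
      simp [map_sum, R'.deg_one]
    have e1 := R.exact' (m • poleDiv K (x : F)) (by omega)
    have e2 := R'.exact' (m • poleDiv k (red.res x)) (by omega)
    have e3 := R.exact' (m • poleDiv K (x : F) - ∑ v ∈ Z, Finsupp.single v (1 : ℤ))
      (by rw [map_sub]; omega)
    have e4 := R'.exact' (m • poleDiv k (red.res x) - ∑ v ∈ Z', Finsupp.single v (1 : ℤ))
      (by rw [map_sub]; omega)
    rw [map_sub, dH, dZ] at e3
    rw [map_sub, dHb, dZ'] at e4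
    rw [dH] at e1
    rw [dHb] at e2
    have := R.finite (m • poleDiv K (x : F))
    have := R.finite (m • poleDiv K (x : F) - ∑ v ∈ Z, Finsupp.single v (1 : ℤ))
    have := R'.finite (m • poleDiv k (red.res x))
    have := R'.finite (m • poleDiv k (red.res x) - ∑ v ∈ Z', Finsupp.single v (1 : ℤ))
    have f1 := Submodule.finrank_mono h1
    have f2 := Submodule.finrank_mono h2
    rw [red.finrank_resSpace] at f1 f2
    refine ⟨by omega, by omega, fun hg => Submodule.eq_of_le_of_finrank_eq h1 ?_⟩
    rw [red.finrank_resSpace]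
    omega
  obtain ⟨hle, hcard, -⟩ := hstep M₀ le_rfl
  have hgen := hurwitz_eq hx {(c₁ : K), (c₂ : K)} fun s hs => by
    simp only [Finset.mem_insert, Finset.mem_singleton, not_or] at hs
    exact hS s hs.1 hs.2
  have hspec := hurwitz_le ht {π c₁, π c₂}
  rw [Finset.sum_pair hcK] at hgen
  rw [Finset.sum_pair hc, hdeg] at hspec
  have hg : genusFF k κ = genusFF K F := by omega
  refine ⟨hg, max a b, fun c hc' => ?_⟩
  exact
    { riemann := ha c (le_trans (le_max_left a b) hc')
      riemann' := hg ▸ hb c (le_trans (le_max_right a b) hc')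
      deg_pos := by rw [hdH]; omega
      deg_eq := hdHb.trans hdH.symm
      res_L := eventually_atTop.mpr ⟨M₀, fun m hm => (hstep m hm).2.2 hg⟩ }

end Criterion

end Fermat.Agent.GoodReduction
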