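import Fermat.Agent.GoodReduction.RiemannData
import Mathlib.RingTheory.Valuation.ValuationSubring

/-!
# Reductions of function fields along a valuation ring of the constant field

A reduction is a valuation ring `V` of `F` extending `A ⊂ K` together with a residue map to a
field `κ` over the residue field `k`, such that every finite-dimensional `K`-subspace of `F`
reduces to a `k`-subspace of the same dimension.
-/

set_option autoImplicit false

noncomputable section

open AlgebraicCurve

namespace Fermat.Agent.GoodReduction

variable {K k F κ : Type*} [Field K] [Field k] [Field F] [Field κ] [Algebra K F] [Algebra k κ]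

/-- The span of the residues of the integral elements of a subspace. -/
def resSpan {V : ValuationSubring F} (res : V →+* κ) (W : Submodule K F) : Submodule k κ :=
  Submodule.span k {y : κ | ∃ x : V, (x : F) ∈ W ∧ res x = y}

variable (F κ) in
/-- Reduction data, dimension preserving on finite-dimensional subspaces. -/
structure Reduction (A : ValuationSubring K) (π : A →+* k) where
  V : ValuationSubring F
  res : V →+* κ
  surjective : Function.Surjective π
  algebraMap_mem : ∀ a : A, algebraMap K F a ∈ V
  res_algebraMap : ∀ a : A, res ⟨algebraMap K F a, algebraMap_mem a⟩ = algebraMap k κ (π a)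
  isUnit_of_res_ne_zero : ∀ x : V, res x ≠ 0 → IsUnit x
  orth : ∀ W : Submodule K F, FiniteDimensional K W →
    Module.finrank k (resSpan (k := k) res W) = Module.finrank K W

namespace Reduction

variable {A : ValuationSubring K} {π : A →+* k} (red : Reduction F κ A π)

/-- The reduction of a subspace. -/
def resSpace (W : Submodule K F) : Submodule k κ := resSpan (k := k) red.res W

include red in
/-- `π` kills exactly the non-units. -/
theorem map_eq_zero_iff (a : A) : π a = 0 ↔ ¬ IsUnit a := by
  constructor
  · intro h hu
    exact not_isUnit_zero (h ▸ hu.map π)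
  · intro h
    have hker : RingHom.ker π = IsLocalRing.maximalIdeal A :=
      IsLocalRing.eq_maximalIdeal (RingHom.ker_isMaximal_of_surjective π red.surjective)
    rw [← RingHom.mem_ker, hker]
    exact h

/-- An element with nonzero residue has its inverse in `V`. -/
theorem inv_mem {x : red.V} (hx : red.res x ≠ 0) : (x : F)⁻¹ ∈ red.V := by
  obtain ⟨u, hu⟩ := red.isUnit_of_res_ne_zero x hx
  have hinv : ((↑u⁻¹ : red.V) : F) = (x : F)⁻¹ := by
    refine eq_inv_of_mul_eq_one_right ?_
    have := congrArg Subtype.val u.mul_inv
    rwa [hu] at this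
  exact hinv ▸ (↑u⁻¹ : red.V).2

/-- An element with nonzero residue is nonzero. -/
theorem coe_ne_zero {x : red.V} (hx : red.res x ≠ 0) : (x : F) ≠ 0 := by
  intro h
  rw [show x = 0 from Subtype.ext h, map_zero] at hx
  exact hx rfl

/-- The residue of an element of `W` lies in the reduction of `W`. -/
theorem res_mem {W : Submodule K F} {x : red.V} (hx : (x : F) ∈ W) :
    red.res x ∈ red.resSpace W :=
  Submodule.subset_span ⟨x, hx, rfl⟩

/-- Every element of the reduction of `W` is the residue of an element of `W`. -/
theorem exists_of_mem_resSpace {W : Submodule K F} {y : κ} (hy : y ∈ red.resSpace W) :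
    ∃ x : red.V, (x : F) ∈ W ∧ red.res x = y := by
  induction hy using Submodule.span_induction with
  | mem y hy => exact hy
  | zero => exact ⟨0, by simp, map_zero _⟩
  | add a b _ _ ha hb =>
    obtain ⟨x, hx, rfl⟩ := ha
    obtain ⟨x', hx', rfl⟩ := hb
    exact ⟨x + x', W.add_mem hx hx', map_add _ _ _⟩
  | smul a b _ hb =>
    obtain ⟨x, hx, rfl⟩ := hb
    obtain ⟨a, rfl⟩ := red.surjective a
    refine ⟨⟨_, red.algebraMap_mem a⟩ * x, ?_, ?_⟩
    · show algebraMap K F a * (x : F) ∈ W
      rw [← Algebra.smul_def]
      exact W.smul_mem _ hx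
    · rw [map_mul, red.res_algebraMap, Algebra.smul_def]

/-- Reduction of subspaces is monotone. -/
theorem resSpace_mono {W W' : Submodule K F} (h : W ≤ W') : red.resSpace W ≤ red.resSpace W' :=
  Submodule.span_mono fun _ ⟨x, hx, hy⟩ => ⟨x, h hx, hy⟩

/-- The product of reductions lies in the reduction of the product. -/
theorem resSpace_mul_le (W W' : Submodule K F) :
    red.resSpace W * red.resSpace W' ≤ red.resSpace (W * W') := by
  refine Submodule.mul_le.mpr fun a ha b hb => ?_
  obtain ⟨x, hx, rfl⟩ := red.exists_of_mem_resSpace ha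
  obtain ⟨x', hx', rfl⟩ := red.exists_of_mem_resSpace hb
  rw [← map_mul]
  exact red.res_mem (Submodule.mul_mem_mul hx hx')

/-- Reduction preserves dimensions. -/
theorem finrank_resSpace (W : Submodule K F) [FiniteDimensional K W] :
    Module.finrank k (red.resSpace W) = Module.finrank K W :=
  red.orth W inferInstance

/-- The reduction of a finite-dimensional subspace is finite-dimensional. -/
theorem finite_resSpace (W : Submodule K F) [FiniteDimensional K W] :
    FiniteDimensional k (red.resSpace W) := by
  rcases Nat.eq_zero_or_pos (Module.finrank K W) with h | h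
  · have hbot : red.resSpace W = ⊥ := by
      refine Submodule.span_eq_bot.mpr fun y hy => ?_
      obtain ⟨x, hx, rfl⟩ := hy
      rw [Submodule.finrank_eq_zero.mp h, Submodule.mem_bot] at hx
      rw [show x = 0 from Subtype.ext hx, map_zero]
    rw [hbot]
    infer_instance
  · exact Module.finite_of_finrank_pos (by rw [red.finrank_resSpace]; exact h)

/-- Every nonzero element has a scalar multiple with nonzero residue. -/
theorem exists_smul_res_ne_zero {f : F} (hf : f ≠ 0) :
    ∃ c : K, c ≠ 0 ∧ ∃ x : red.V, (x : F) = c • f ∧ red.res x ≠ 0 := by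
  have h := red.finrank_resSpace (Submodule.span K {f})
  rw [finrank_span_singleton hf] at h
  have hne : red.resSpace (Submodule.span K {f}) ≠ ⊥ := fun hb => by
    rw [hb, finrank_bot] at h
    omega
  obtain ⟨y, hy, hy0⟩ := Submodule.exists_mem_ne_zero_of_ne_bot hne
  obtain ⟨x, hx, rfl⟩ := red.exists_of_mem_resSpace hy
  obtain ⟨c, hc⟩ := Submodule.mem_span_singleton.mp hx
  refine ⟨c, ?_, x, hc.symm, hy0⟩
  rintro rfl
  exact red.coe_ne_zero hy0 (by simpa using hc.symm)

/-- A constant lying in `V` lies in `A`. -/
theorem mem_of_algebraMap_mem {a : K} (ha : algebraMap K F a ∈ red.V) : a ∈ A := by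
  by_contra h
  have hinv : a⁻¹ ∈ A := (A.mem_or_inv_mem a).resolve_left h
  have hnu : ¬ IsUnit (⟨a⁻¹, hinv⟩ : A) := by
    rintro ⟨u, hu⟩
    have h1 : ((u : A) : K) * ((↑u⁻¹ : A) : K) = 1 := congrArg Subtype.val u.mul_inv
    rw [hu] at h1
    have : ((↑u⁻¹ : A) : K) = a := by
      have := eq_inv_of_mul_eq_one_right h1
      simpa using this
    exact h (this ▸ (↑u⁻¹ : A).2)
  have ha0 : a ≠ 0 := fun h0 => h (h0 ▸ A.zero_mem)
  have hprod : (⟨algebraMap K F a, ha⟩ : red.V) *
      ⟨algebraMap K F (⟨a⁻¹, hinv⟩ : A), red.algebraMap_mem _⟩ = 1 :=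
    Subtype.ext (by
      show algebraMap K F a * algebraMap K F a⁻¹ = 1
      rw [← map_mul, mul_inv_cancel₀ ha0, map_one])
  have := congrArg red.res hprod
  rw [map_mul, map_one, red.res_algebraMap, (red.map_eq_zero_iff _).mpr hnu, map_zero,
    mul_zero] at this
  exact zero_ne_one this

end Reduction

end Fermat.Agent.GoodReduction
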