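import Fermat.Agent.GoodReduction.GoodModel
import Fermat.Prelude.Def_AlgebraicCurve_BaseChangeGalois

/-!
# The reduction map on places of a good model

The hyperplane `res L(mH - P)` of `L(m Hb)` has a unique base point `r P`. This defines a map on
places which preserves degrees and is compatible with principal divisors.
-/

set_option autoImplicit false

noncomputable section

open AlgebraicCurve Filter

namespace Fermat.Agent.GoodReduction

variable {K k F κ : Type*} [Field K] [Field k] [Field F] [Field κ] [Algebra K F] [Algebra k κ]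
variable {A : ValuationSubring K} {π : A →+* k} {red : Reduction F κ A π}
variable {g : ℕ} {c : ℤ} {H : Divisor K F} {Hb : Divisor k κ}

/-- Large multiples of a positive integer exceed any bound. -/
theorem eventually_le_mul {d : ℤ} (hd : 0 < d) (X : ℤ) : ∀ᶠ m : ℕ in atTop, X ≤ m * d := by
  refine eventually_atTop.mpr ⟨X.toNat, fun m hm => ?_⟩
  have h1 : X ≤ (m : ℤ) := by omega
  nlinarith [Int.natCast_nonneg m]

/-- Splitting a multiple of `D` into two multiples. -/
theorem smul_split {M : Type*} [AddCommGroup M] {a m : ℕ} (h : a ≤ m) (D X Y : M) :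
    (a • D - X) + ((m - a) • D - Y) = m • D - (X + Y) := by
  conv_rhs => rw [← Nat.add_sub_cancel' h, add_smul]
  abel

theorem smul_split' {M : Type*} [AddCommGroup M] {a m : ℕ} (h : a ≤ m) (D X : M) :
    (a • D - X) + (m - a) • D = m • D - X := by
  conv_rhs => rw [← Nat.add_sub_cancel' h, add_smul]
  abel

namespace RiemannData

/-- Comparable divisors of the same degree are equal. -/
theorem eq_of_le_of_degree_eq {K F : Type*} [Field K] [Field F] [Algebra K F] {g : ℕ} {c : ℤ}
    (R : RiemannData K F g c) {D D' : Divisor K F} (h : D ≤ D')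
    (hdeg : Divisor.degree D = Divisor.degree D') : D = D' := by
  classical
  by_contra hne
  obtain ⟨v, hv⟩ : ∃ v, D v ≠ D' v := by
    by_contra hall
    push Not at hall
    exact hne (Finsupp.ext hall)
  have hlt : D v < D' v := lt_of_le_of_ne (h v) hv
  have hle : D + Finsupp.single v 1 ≤ D' := fun w => by
    rcases eq_or_ne v w with rfl | hvw
    · simp
      omega
    · simpa [Finsupp.single_eq_of_ne hvw.symm] using h w
  have := R.degree_mono hle
  rw [map_add, R.degree_single] at this
  omega

end RiemannData

/-- `E` reduces to `Eb`: the spaces `L(mH - E)` reduce onto `L(m Hb - Eb)` for large `m`. -/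
def RedEquiv (red : Reduction F κ A π) (H : Divisor K F) (Hb : Divisor k κ)
    (E : Divisor K F) (Eb : Divisor k κ) : Prop :=
  ∀ᶠ m : ℕ in atTop, red.resSpace (LSpace (m • H - E)) = LSpace (m • Hb - Eb)

namespace GoodModel

variable (G : GoodModel red g c H Hb)

include G

omit G in
/-- The degree of `m • H - E`. -/
theorem degree_smul_sub (_G : GoodModel red g c H Hb) (E : Divisor K F) (m : ℕ) :
    Divisor.degree (m • H - E) = m * Divisor.degree H - Divisor.degree E := by
  rw [map_sub, map_nsmul, nsmul_eq_mul]

/-- The degree of `m • Hb - E`. -/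
theorem degree_smul_sub' (E : Divisor k κ) (m : ℕ) :
    Divisor.degree (m • Hb - E) = m * Divisor.degree H - Divisor.degree E := by
  rw [map_sub, map_nsmul, nsmul_eq_mul, G.deg_eq]

/-- Reduction preserves the dimension of a Riemann-Roch space. -/
theorem finrank_resSpace_LSpace (D : Divisor K F) :
    Module.finrank k (red.resSpace (LSpace D)) = Module.finrank K (LSpace D) :=
  haveI := G.riemann.finite D
  red.finrank_resSpace _

theorem eq_of_le_of_degree {D : Divisor K F} {Db : Divisor k κ} (hc : c ≤ Divisor.degree D)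
    (hdeg : Divisor.degree D = Divisor.degree Db)
    (hle : LSpace Db ≤ red.resSpace (LSpace D)) : red.resSpace (LSpace D) = LSpace Db := by
  have e1 := G.riemann.exact' D hc
  have e2 := G.riemann'.exact' Db (hdeg ▸ hc)
  have e3 := G.finrank_resSpace_LSpace D
  have := G.riemann.finite D
  have := red.finite_resSpace (LSpace D)
  exact (Submodule.eq_of_le_of_finrank_eq hle (by omega)).symm

theorem redEquiv_degree {E : Divisor K F} {Eb : Divisor k κ} (h : RedEquiv red H Hb E Eb) :
    Divisor.degree E = Divisor.degree Eb := by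
  have hpos := G.deg_pos
  obtain ⟨m, hm, hm1, hm2⟩ := (h.and ((eventually_le_mul hpos (c + Divisor.degree E)).and
    (eventually_le_mul hpos (c + Divisor.degree Eb)))).exists
  have e1 := G.riemann.exact' (m • H - E) (by rw [G.degree_smul_sub]; omega)
  have e2 := G.riemann'.exact' (m • Hb - Eb) (by rw [G.degree_smul_sub']; omega)
  have e3 := G.finrank_resSpace_LSpace (m • H - E)
  rw [hm] at e3
  rw [G.degree_smul_sub] at e1
  rw [G.degree_smul_sub'] at e2
  omega

/-- A divisor has at most one reduction. -/
theorem redEquiv_unique {E : Divisor K F} {Eb Eb' : Divisor k κ}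
    (h : RedEquiv red H Hb E Eb) (h' : RedEquiv red H Hb E Eb') : Eb = Eb' := by
  obtain ⟨m, ⟨hm, hm'⟩, hm1, hm2⟩ := ((h.and h').and
    ((eventually_le_mul G.deg_pos (c + 1 + Divisor.degree Eb)).and
    (eventually_le_mul G.deg_pos (c + 1 + Divisor.degree Eb')))).exists
  have := G.riemann'.eq_of_LSpace_eq (D := m • Hb - Eb) (D' := m • Hb - Eb')
    (by rw [G.degree_smul_sub']; omega) (by rw [G.degree_smul_sub']; omega) (hm.symm.trans hm')
  exact sub_right_injective this

theorem redEquiv_zero : RedEquiv red H Hb 0 0 := by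
  simpa [RedEquiv] using G.res_L

theorem redEquiv_add {E E' : Divisor K F} {Eb Eb' : Divisor k κ}
    (h : RedEquiv red H Hb E Eb) (h' : RedEquiv red H Hb E' Eb') :
    RedEquiv red H Hb (E + E') (Eb + Eb') := by
  have hd := G.redEquiv_degree h
  have hd' := G.redEquiv_degree h'
  have hpos := G.deg_pos
  obtain ⟨a, ha, ha1⟩ :=
    (h.and (eventually_le_mul hpos (c + 1 + Divisor.degree E))).exists
  filter_upwards [(tendsto_sub_atTop_nat a).eventually (h'.and (eventually_le_mul hpos
      (c + Divisor.degree E' + ((a : ℤ) * Divisor.degree H - Divisor.degree E)))),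
    eventually_ge_atTop a,
    eventually_le_mul hpos (c + Divisor.degree E + Divisor.degree E')] with m hm hma hm2
  obtain ⟨hmeq, hm1⟩ := hm
  refine G.eq_of_le_of_degree (by rw [G.degree_smul_sub, map_add]; omega)
    (by rw [G.degree_smul_sub, G.degree_smul_sub', map_add, map_add]; omega) ?_
  rw [← smul_split hma Hb Eb Eb', ← smul_split hma H E E',
    ← G.riemann'.mul_eq (by rw [G.degree_smul_sub']; omega)
      (by rw [G.degree_smul_sub', G.degree_smul_sub']; omega), ← ha, ← hmeq]
  exact (red.resSpace_mul_le _ _).trans (red.resSpace_mono (G.riemann.mul_le _ _))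

theorem exists_redEquiv_single (P : Place K F) :
    ∃ Q : Place k κ, RedEquiv red H Hb (Finsupp.single P 1) (Finsupp.single Q 1) := by
  classical
  have hpos := G.deg_pos
  obtain ⟨a, ha, ha1⟩ := (G.res_L.and (eventually_le_mul hpos (c + 2))).exists
  set B : Divisor k κ := a • Hb with hB
  have hdB : Divisor.degree B = a * Divisor.degree H := by
    rw [hB, map_nsmul, nsmul_eq_mul, G.deg_eq]
  set W := red.resSpace (LSpace (a • H - Finsupp.single P 1)) with hWdef
  have hW : W ≤ LSpace B := by
    rw [hWdef, ← ha]
    exact red.resSpace_mono (LSpace_mono (sub_le_self _ (by simp)))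
  have hWrank : (Module.finrank k W : ℤ) = a * Divisor.degree H - g := by
    rw [hWdef, G.finrank_resSpace_LSpace]
    have := G.riemann.exact' (a • H - Finsupp.single P 1)
      (by rw [G.degree_smul_sub, G.riemann.degree_single]; omega)
    rw [G.degree_smul_sub, G.riemann.degree_single] at this
    omega
  have hnb : ¬ RiemannData.BaseFree B W := by
    intro hb
    obtain ⟨b, hb1, hb2, hb3⟩ := (((tendsto_add_atTop_nat a).eventually G.res_L).and
      (G.res_L.and (eventually_le_mul hpos (c + 1 + a * Divisor.degree H)))).exists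
    have hle : LSpace ((b + a) • Hb) ≤
        red.resSpace (LSpace ((b + a) • H - Finsupp.single P 1)) := by
      rw [add_smul, add_comm, ← hB]
      refine (G.riemann'.le_mul_of_baseFree hW hb
        (by rw [hdB, map_nsmul, nsmul_eq_mul, G.deg_eq]; omega)).trans ?_
      rw [← hb2, hWdef]
      refine (red.resSpace_mul_le _ _).trans (red.resSpace_mono
        ((G.riemann.mul_le _ _).trans (le_of_eq (congrArg _ ?_))))
      rw [add_smul]; abel
    have e1 := G.riemann.exact' ((b + a) • H - Finsupp.single P 1)
      (by rw [G.degree_smul_sub, G.riemann.degree_single]; push_cast; rw [add_mul]; omega)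
    have hdeg' : Divisor.degree ((b + a) • Hb) = ((b + a : ℕ) : ℤ) * Divisor.degree H := by
      rw [map_nsmul, nsmul_eq_mul, G.deg_eq]
    have e2 := G.riemann'.exact' ((b + a) • Hb)
      (by rw [hdeg']; push_cast; rw [add_mul]; omega)
    have := G.riemann.finite ((b + a) • H - Finsupp.single P 1)
    have := red.finite_resSpace (LSpace ((b + a) • H - Finsupp.single P 1))
    have hfin := Submodule.finrank_mono hle
    rw [G.finrank_resSpace_LSpace] at hfin
    rw [G.degree_smul_sub, G.riemann.degree_single] at e1
    rw [hdeg'] at e2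
    omega
  simp only [RiemannData.BaseFree, not_forall, not_exists, not_and] at hnb
  obtain ⟨Q, hQ⟩ := hnb
  have hWeq : W = LSpace (B - Finsupp.single Q 1) := by
    have := G.riemann'.finite (B - Finsupp.single Q 1)
    refine Submodule.eq_of_le_of_finrank_eq (fun f hf => ?_) ?_
    · rcases eq_or_ne f 0 with rfl | hf0
      · simp
      exact (RiemannData.mem_LSpace_sub_single hf0 (hW hf) Q).mpr (hQ f hf hf0)
    · have := G.riemann'.exact' (B - Finsupp.single Q 1)
        (by rw [map_sub, G.riemann'.degree_single]; omega)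
      rw [map_sub, G.riemann'.degree_single] at this
      omega
  refine ⟨Q, ?_⟩
  filter_upwards [(tendsto_sub_atTop_nat a).eventually (G.res_L.and
      (eventually_le_mul hpos (c + a * Divisor.degree H))), eventually_ge_atTop a,
    eventually_le_mul hpos (c + 1)] with m hm hma hm2
  refine G.eq_of_le_of_degree (by rw [G.degree_smul_sub, G.riemann.degree_single]; omega)
    (by rw [G.degree_smul_sub, G.degree_smul_sub', G.riemann.degree_single,
      G.riemann'.degree_single]) ?_
  rw [← smul_split' hma Hb, ← smul_split' hma H, ← hB, ← G.riemann'.mul_eq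
    (by rw [map_sub, G.riemann'.degree_single]; omega)
    (by rw [map_sub, G.riemann'.degree_single, hdB, map_nsmul, nsmul_eq_mul, G.deg_eq]; omega),
    ← hWeq, ← hm.1, hWdef]
  exact (red.resSpace_mul_le _ _).trans (red.resSpace_mono (G.riemann.mul_le _ _))

/-- The reduction map on places. -/
def placeMap (P : Place K F) : Place k κ := (G.exists_redEquiv_single P).choose

/-- `placeMap P` is the reduction of `P`. -/
theorem redEquiv_placeMap (P : Place K F) :
    RedEquiv red H Hb (Finsupp.single P 1) (Finsupp.single (G.placeMap P) 1) :=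
  (G.exists_redEquiv_single P).choose_spec

theorem placeMap_eq {P : Place K F} {Q : Place k κ}
    (h : RedEquiv red H Hb (Finsupp.single P 1) (Finsupp.single Q 1)) : G.placeMap P = Q := by
  have := G.redEquiv_unique (G.redEquiv_placeMap P) h
  exact Finsupp.single_left_injective one_ne_zero this

theorem deg_placeMap (P : Place K F) : (G.placeMap P).deg = P.deg := by
  rw [G.riemann.deg_one, G.riemann'.deg_one]

/-- The induced map on divisors. -/
def divMap : Divisor K F →+ Divisor k κ := Finsupp.mapDomain.addMonoidHom G.placeMap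

/-- `divMap` is induced by `placeMap`. -/
theorem divMap_apply (D : Divisor K F) : G.divMap D = Finsupp.mapDomain G.placeMap D := rfl

/-- `divMap` on a single place. -/
theorem divMap_single (P : Place K F) (n : ℤ) :
    G.divMap (Finsupp.single P n) = Finsupp.single (G.placeMap P) n :=
  Finsupp.mapDomain_single

/-- `divMap` preserves the degree. -/
theorem degree_divMap (D : Divisor K F) :
    Divisor.degree (G.divMap D) = Divisor.degree D := by
  induction D using Finsupp.induction with
  | zero => simp
  | single_add P n D _ _ ih =>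
    rw [map_add, map_add, map_add, ih, G.divMap_single, Divisor.degree_single,
      Divisor.degree_single, G.deg_placeMap]

/-- `divMap E` is the reduction of an effective `E`. -/
theorem redEquiv_divMap {E : Divisor K F} (hE : 0 ≤ E) : RedEquiv red H Hb E (G.divMap E) := by
  classical
  let S : AddSubmonoid (Divisor K F) :=
    { carrier := {D | RedEquiv red H Hb D (G.divMap D)}
      zero_mem' := by simpa using G.redEquiv_zero
      add_mem' := fun {a b} ha hb => by
        simpa [map_add] using G.redEquiv_add ha hb }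
  suffices E ∈ S from this
  have hsum : E = ∑ P ∈ E.support, (E P).toNat • Finsupp.single P (1 : ℤ) := by
    conv_lhs => rw [← Finsupp.sum_single E]
    refine Finset.sum_congr rfl fun P _ => ?_
    have := hE P
    simp only [Finsupp.coe_zero, Pi.zero_apply] at this
    rw [Finsupp.smul_single, nsmul_eq_mul, mul_one, Int.toNat_of_nonneg this]
  rw [hsum]
  refine AddSubmonoid.sum_mem S fun P _ => AddSubmonoid.nsmul_mem S ?_ _
  show RedEquiv red H Hb _ _
  rw [G.divMap_single]
  exact G.redEquiv_placeMap P

/-- Compatibility with principal divisors. -/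
theorem divMap_div {x : red.V} (hx : red.res x ≠ 0) :
    G.divMap (G.riemann.div (x : F)) = G.riemann'.div (red.res x) := by
  classical
  set D := G.riemann.div (x : F) with hD
  have hEE : (D ⊔ 0) - ((-D) ⊔ 0) = D := by
    ext v
    simp [Finsupp.sup_apply, max_def]
    split_ifs <;> omega
  obtain ⟨m, ⟨hm, hm'⟩, hm1, hm2⟩ := (((G.redEquiv_divMap (E := D ⊔ 0) le_sup_right).and
    (G.redEquiv_divMap (E := (-D) ⊔ 0) le_sup_right)).and
    ((eventually_le_mul G.deg_pos (c + 1 + Divisor.degree (D ⊔ 0))).and
    (eventually_le_mul G.deg_pos (c + 1 + Divisor.degree ((-D) ⊔ 0))))).exists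
  have hle : LSpace (m • Hb - G.divMap ((-D) ⊔ 0) - G.riemann'.div (red.res x))
      ≤ LSpace (m • Hb - G.divMap (D ⊔ 0)) := by
    rw [← G.riemann'.map_mulLeft hx, ← hm', ← hm]
    rintro _ ⟨y, hy, rfl⟩
    obtain ⟨z, hz, rfl⟩ := red.exists_of_mem_resSpace hy
    rw [LinearMap.mulLeft_apply, ← map_mul]
    refine red.res_mem ?_
    have hmem : (x : F) * (z : F) ∈ LSpace (m • H - ((-D) ⊔ 0) - D) := by
      rw [hD, ← G.riemann.map_mulLeft (red.coe_ne_zero hx)]
      exact ⟨_, hz, rfl⟩
    have heq : m • H - ((-D) ⊔ 0) - D = m • H - (D ⊔ 0) := by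
      conv_lhs => arg 2; rw [← hEE]
      abel
    rwa [heq] at hmem
  have hdiv := G.riemann'.eq_of_LSpace_le
    (by rw [map_sub, G.riemann'.degree_div, G.degree_smul_sub', G.degree_divMap]; omega) hle
  have hle2 : G.divMap (D ⊔ 0) ≤ G.divMap ((-D) ⊔ 0) + G.riemann'.div (red.res x) := fun v => by
    have := hdiv v
    simp only [Finsupp.sub_apply, Finsupp.add_apply] at this ⊢
    omega
  have heq2 := G.riemann'.eq_of_le_of_degree_eq hle2 (by
    rw [map_add, G.riemann'.degree_div, G.degree_divMap, G.degree_divMap, add_zero]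
    have := congrArg Divisor.degree hEE
    rw [map_sub, hD, G.riemann.degree_div] at this
    rw [hD]
    omega)
  rw [← hEE, map_sub, heq2]
  abel

/-- The residue of an element of `L(X)` lies in `L(r_* X)`. -/
theorem res_mem_LSpace {X : Divisor K F} {x : red.V} (hx : (x : F) ∈ LSpace X) :
    red.res x ∈ LSpace (G.divMap X) := by
  rcases eq_or_ne (red.res x) 0 with h | h
  · rw [h]; exact zero_mem _
  rw [mem_LSpace h]
  have h0 := (mem_LSpace (red.coe_ne_zero h)).mp hx
  have hnn : 0 ≤ G.divMap (X + G.riemann.div (x : F)) := by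
    have hXd : 0 ≤ X + G.riemann.div (x : F) := fun v => by
      simpa [G.riemann.div_apply] using h0 v
    intro v
    rw [G.divMap_apply, Finsupp.mapDomain, Finsupp.sum_apply]
    refine Finset.sum_nonneg fun w _ => ?_
    classical
    show (0 : ℤ) ≤ Finsupp.single (G.placeMap w) _ v
    rw [Finsupp.single_apply]
    split
    · exact hXd w
    · exact le_rfl
  intro v
  have := hnn v
  rwa [map_add, G.divMap_div h, Finsupp.add_apply, G.riemann'.div_apply,
    Finsupp.coe_zero, Pi.zero_apply] at this

/-- Every place of the reduced field is the reduction of a place. -/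
theorem placeMap_surjective : Function.Surjective G.placeMap := by
  classical
  intro Q
  obtain ⟨m, hm, hm1⟩ := (G.res_L.and (eventually_le_mul G.deg_pos (c + 2))).exists
  have hd : Divisor.degree (m • Hb) = m * Divisor.degree H := by
    rw [map_nsmul, nsmul_eq_mul, G.deg_eq]
  obtain ⟨y₁, hy₁, hy₁0, e₁⟩ := G.riemann'.exists_ord_eq (D := m • Hb) (by omega) Q
  obtain ⟨y₂, hy₂, hy₂0, e₂⟩ := G.riemann'.exists_ord_eq (D := m • Hb - Finsupp.single Q 1)
    (by rw [map_sub, G.riemann'.degree_single]; omega) Q
  have hy₂' := LSpace_mono (sub_le_self (m • Hb) (by simp)) hy₂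
  simp only [Finsupp.sub_apply, Finsupp.single_eq_same] at e₂
  obtain ⟨y, hy, hy0, hyord⟩ : ∃ y ∈ LSpace (m • Hb), y ≠ 0 ∧ Q.ord y ≠ 0 := by
    by_cases h : Q.ord y₁ = 0
    · exact ⟨y₂, hy₂', hy₂0, by omega⟩
    · exact ⟨y₁, hy₁, hy₁0, h⟩
  rw [← hm] at hy
  obtain ⟨x, -, rfl⟩ := red.exists_of_mem_resSpace hy
  rw [← G.riemann'.div_apply, ← G.divMap_div hy0] at hyord
  have hmem := Finsupp.mapDomain_support (Finsupp.mem_support_iff.mpr hyord)
  obtain ⟨P, -, rfl⟩ := Finset.mem_image.mp hmem
  exact ⟨P, rfl⟩

/-- `divMap` sends principal divisors to principal divisors. -/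
theorem divMap_mem_principal {D : Divisor K F}
    (hD : D ∈ Divisor.principal (K := K) (F := F)) :
    G.divMap D ∈ Divisor.principal (K := k) (F := κ) := by
  obtain ⟨f, hf, hDf⟩ := hD
  obtain ⟨a, ha, x, hxf, hx⟩ := red.exists_smul_res_ne_zero hf
  refine ⟨red.res x, hx, fun v => ?_⟩
  have hdiv : D = G.riemann.div (x : F) := G.riemann.div_eq fun w => by
    have haF : algebraMap K F a ≠ 0 := by simpa using ha
    have hw : w.ord (algebraMap K F a) = 0 := by
      have h1 := w.ord_mul haF (inv_ne_zero haF)
      have ha1 : ∀ b : K, b ≠ 0 → 0 ≤ w.ord (algebraMap K F b) := fun b hb => by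
        have := (w.adicValuation_le_one_iff).mp (w.adicValuation_algebraMap_le_one b)
        simpa [hb] using this
      have h2 := ha1 a ha
      have h3 := ha1 a⁻¹ (inv_ne_zero ha)
      rw [map_inv₀] at h3
      rw [mul_inv_cancel₀ haF, w.ord_one] at h1
      omega
    rw [hxf, Algebra.smul_def, w.ord_mul haF hf, hw, zero_add, hDf]
  rw [hdiv, G.divMap_div hx, G.riemann'.div_apply]

/-- `divMap` preserves divisors of degree zero. -/
theorem divMap_mem_degZero {D : Divisor K F} (hD : D ∈ Divisor.degZero (K := K) (F := F)) :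
    G.divMap D ∈ Divisor.degZero (K := k) (F := κ) := by
  rw [Divisor.mem_degZero] at hD ⊢
  rw [G.degree_divMap, hD]

/-- The reduction on classes of degree zero. -/
def picMap : Pic0 K F →+ Pic0 k κ :=
  QuotientAddGroup.map _ _
    ((G.divMap.domRestrict _).codRestrict _ fun D => G.divMap_mem_degZero D.2) (by
    rintro ⟨D, hD0⟩ hD
    simp only [AddSubgroup.mem_addSubgroupOf] at hD ⊢
    exact G.divMap_mem_principal hD)

/-- `picMap` on the class of a divisor. -/
theorem picMap_mk (D : Divisor.degZero (K := K) (F := F)) :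
    G.picMap (Pic0.mk D) = Pic0.mk ⟨G.divMap (D : Divisor K F), G.divMap_mem_degZero D.2⟩ := rfl

section Equivariance

open SemilinearAut

variable (s : SemilinearAut K F) (s' : SemilinearAut k κ)

/-- `placeMap` commutes with automorphisms compatible with the reduction. -/
theorem placeMap_smul (hH : s • H = H) (hHb : s' • Hb = Hb)
    (hV : ∀ x : red.V, ∃ h : s • (x : F) ∈ red.V, red.res ⟨s • (x : F), h⟩ = s' • red.res x)
    (P : Place K F) : G.placeMap (s • P) = s' • G.placeMap P := by
  classical
  refine G.placeMap_eq ?_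
  filter_upwards [G.redEquiv_placeMap P, eventually_le_mul G.deg_pos (c + 1)] with m hm hm1
  refine G.eq_of_le_of_degree (by rw [G.degree_smul_sub, G.riemann.degree_single]; omega)
    (by rw [G.degree_smul_sub, G.degree_smul_sub', G.riemann.degree_single,
      G.riemann'.degree_single]) ?_
  intro y hy
  have hy' : s'⁻¹ • y ∈ LSpace (m • Hb - Finsupp.single (G.placeMap P) 1) := by
    rcases eq_or_ne y 0 with rfl | hy0
    · simp
    have hy'0 : s'⁻¹ • y ≠ 0 := (smul_ne_zero_iff_ne s'⁻¹).mpr hy0
    rw [mem_LSpace hy0] at hy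
    rw [mem_LSpace hy'0]
    intro v
    have h := hy (s' • v)
    rw [show s' • v = s' • v from rfl] at h
    have e : (s' • v).ord y = v.ord (s'⁻¹ • y) := by
      have := ord_smul s' v (s'⁻¹ • y)
      rwa [smul_inv_smul] at this
    have e' : (m • Hb - Finsupp.single (s' • G.placeMap P) (1 : ℤ) : Divisor k κ) (s' • v)
        = (m • Hb - Finsupp.single (G.placeMap P) (1 : ℤ) : Divisor k κ) v := by
      rw [← divisor_smul_apply_smul s' (m • Hb - Finsupp.single (G.placeMap P) 1) v]
      congr 1
      rw [smul_sub, smul_single, smul_comm, hHb]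
    rw [e, e'] at h
    exact h
  rw [← hm] at hy'
  obtain ⟨x, hx, hxy⟩ := red.exists_of_mem_resSpace hy'
  obtain ⟨hsx, hres⟩ := hV x
  have hy2 : y = red.res ⟨s • (x : F), hsx⟩ := by rw [hres, hxy, smul_inv_smul]
  rw [hy2]
  refine red.res_mem ?_
  show s • (x : F) ∈ _
  rcases eq_or_ne (x : F) 0 with h0 | h0
  · rw [h0, smul_zero]; exact zero_mem _
  rw [mem_LSpace h0] at hx
  rw [mem_LSpace ((smul_ne_zero_iff_ne s).mpr h0)]
  intro v
  have h := hx (s⁻¹ • v)
  have e : v.ord (s • (x : F)) = (s⁻¹ • v).ord (x : F) := by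
    have := ord_smul s (s⁻¹ • v) (x : F)
    rwa [smul_inv_smul] at this
  have e' : (m • H - Finsupp.single (s • P) (1 : ℤ) : Divisor K F) v
      = (m • H - Finsupp.single P (1 : ℤ) : Divisor K F) (s⁻¹ • v) := by
    rw [← divisor_smul_apply s (m • H - Finsupp.single P 1) v]
    congr 1
    rw [smul_sub, smul_single, smul_comm, hH]
  rw [e, e']
  exact h

end Equivariance

end GoodModel

end Fermat.Agent.GoodReduction
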