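import Fermat.Agent.GoodReduction.Reduction
import Mathlib.Algebra.Polynomial.AlgebraMap
import Mathlib.LinearAlgebra.Dimension.DivisionRing

/-!
# Reductions from a residually independent basis

If `F` is spanned over `K(x)` by elements `b i` of `V` whose residues are independent over
`k[res x]`, then reduction preserves dimensions of all finite-dimensional subspaces.
-/

set_option autoImplicit false

noncomputable section

open Polynomial

namespace Fermat.Agent.GoodReduction

variable {K k F κ : Type*} [Field K] [Field k] [Field F] [Field κ] [Algebra K F] [Algebra k κ]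
variable {A : ValuationSubring K} {π : A →+* k}
variable {V : ValuationSubring F} {res : V →+* κ}

/-- Among finitely many scalars, not all zero, one dominates. -/
theorem exists_dominant {ι : Type*} (s : Finset ι) (lam : ι → K)
    (hl : ∃ i ∈ s, lam i ≠ 0) :
    ∃ i ∈ s, lam i ≠ 0 ∧ ∀ j ∈ s, lam j / lam i ∈ A := by
  obtain ⟨i, his, hi⟩ := hl
  obtain ⟨i₀, hi₀, hmax⟩ := s.exists_max_image (fun j => A.valuation (lam j)) ⟨i, his⟩
  have hne : lam i₀ ≠ 0 := fun h => by
    have := hmax i his
    rw [h, map_zero] at this
    exact hi (A.valuation.zero_iff.mp (le_antisymm this zero_le))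
  refine ⟨i₀, hi₀, hne, fun j hj => ?_⟩
  rw [← A.valuation_le_one_iff, map_div₀]
  exact (div_le_one₀ (zero_lt_iff.mpr ((A.valuation.ne_zero_iff).mpr hne))).mpr (hmax j hj)

variable (hA : ∀ a : A, algebraMap K F a ∈ V)
  (hres : ∀ a : A, res ⟨algebraMap K F a, hA a⟩ = algebraMap k κ (π a))

include hA hres

/-- Residually independent modulo `res W` implies independent modulo `W`. -/
theorem linearIndependent_mkQ {ι : Type*} (W : Submodule K F) (u : ι → V)
    (hu : LinearIndependent k fun i => (resSpan (k := k) res W).mkQ (res (u i))) :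
    LinearIndependent K fun i => W.mkQ (u i : F) := by
  rw [linearIndependent_iff'] at hu ⊢
  intro s lam hsum i hi
  by_contra hli
  obtain ⟨i₀, hi₀, hne, hA'⟩ := exists_dominant (A := A) s lam ⟨i, hi, hli⟩
  let a : ι → A := fun j => open Classical in if h : j ∈ s then ⟨lam j / lam i₀, hA' j h⟩ else 0
  have hmem : ((∑ j ∈ s, ⟨_, hA (a j)⟩ * u j : V) : F) ∈ W := by
    rw [AddSubmonoidClass.coe_finsetSum]
    have : ∑ j ∈ s, ((⟨_, hA (a j)⟩ * u j : V) : F) = (lam i₀)⁻¹ • ∑ j ∈ s, lam j • (u j : F) := by
      rw [Finset.smul_sum]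
      refine Finset.sum_congr rfl fun j hj => ?_
      show algebraMap K F (a j) * (u j : F) = _
      simp only [a, dif_pos hj, Algebra.smul_def, div_eq_inv_mul, map_mul]
      ring
    rw [this]
    refine W.smul_mem _ ?_
    rw [← Submodule.Quotient.mk_eq_zero, ← Submodule.mkQ_apply, map_sum]
    simpa using hsum
  have hR : ∑ j ∈ s, π (a j) • (resSpan (k := k) res W).mkQ (res (u j)) = 0 := by
    rw [← Finset.sum_congr rfl (fun j _ => map_smul _ (π (a j)) (res (u j))), ← map_sum,
      Submodule.mkQ_apply, Submodule.Quotient.mk_eq_zero]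
    refine Submodule.subset_span ⟨_, hmem, ?_⟩
    rw [map_sum]
    exact Finset.sum_congr rfl fun j _ => by rw [map_mul, hres, Algebra.smul_def]
  have h1 := hu s (fun j => π (a j)) hR i₀ hi₀
  simp only [a, dif_pos hi₀] at h1
  have : (⟨lam i₀ / lam i₀, hA' i₀ hi₀⟩ : A) = 1 := Subtype.ext (div_self hne)
  rw [this, map_one] at h1
  exact one_ne_zero h1

/-- Reduction does not increase the dimension of a finite-dimensional subspace. -/
theorem finrank_resSpan_le (W : Submodule K F) [FiniteDimensional K W] :
    FiniteDimensional k (resSpan (k := k) res W) ∧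
      Module.finrank k (resSpan (k := k) res W) ≤ Module.finrank K W := by
  classical
  have hbot : resSpan (k := k) res (⊥ : Submodule K F) = ⊥ := by
    refine Submodule.span_eq_bot.mpr fun y hy => ?_
    obtain ⟨x, hx, rfl⟩ := hy
    rw [Submodule.mem_bot] at hx
    rw [show x = 0 from Subtype.ext hx, map_zero]
  obtain ⟨s, hs, hspan, hli⟩ :=
    exists_linearIndependent k {y : κ | ∃ x : V, (x : F) ∈ W ∧ res x = y}
  choose u huW hu using fun y : s => hs y.2
  have h1 : LinearIndependent k
      fun y : s => (resSpan (k := k) res (⊥ : Submodule K F)).mkQ (res (u y)) := by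
    simp_rw [hu]
    refine hli.map ?_
    rw [Submodule.ker_mkQ, hbot]
    exact disjoint_bot_right
  have h2 := linearIndependent_mkQ hA hres ⊥ u h1
  have h3 : LinearIndependent K fun y : s => (u y : F) := h2.of_comp (⊥ : Submodule K F).mkQ
  have h4 : LinearIndependent K fun y : s => (⟨(u y : F), huW y⟩ : W) :=
    LinearIndependent.of_comp W.subtype h3
  have : Finite s := h4.finite
  have := Fintype.ofFinite s
  have heq : resSpan (k := k) res W = Submodule.span k s := hspan.symm
  have hfin : FiniteDimensional k (Submodule.span k s) :=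
    FiniteDimensional.span_of_finite k s.toFinite
  rw [heq]
  refine ⟨hfin, ?_⟩
  rw [finrank_span_set_eq_card hli, Set.toFinset_card]
  exact h4.fintype_card_le_finrank

omit hA hres

end Fermat.Agent.GoodReduction
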