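import Fermat.Agent.GoodReduction.PlaceMap

/-!
# Homomorphisms of divisor groups agreeing on principal divisors

A bounded homomorphism on divisors which kills principal divisors kills every divisor of degree
zero, by the Riemann inequality. In particular two bounded maps agreeing on principal divisors
agree on `Pic0`.
-/

set_option autoImplicit false

noncomputable section

open AlgebraicCurve

namespace Fermat.Agent.GoodReduction

variable {K F : Type*} [Field K] [Field F] [Algebra K F]

variable (K F) in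
/-- What the boundedness argument needs from a function field. -/
structure EffectiveUpTo (g : ℕ) (E₀ : Divisor K F) : Prop where
  deg_one : ∀ v : Place K F, v.deg = 1
  exists_effective : ∀ D : Divisor K F, Divisor.degree D = 0 →
    ∃ D' : Divisor K F, D'.IsPrincipal ∧ 0 ≤ D + E₀ + D'
  degree_le : Divisor.degree E₀ ≤ g
  degree_principal : ∀ D : Divisor K F, D.IsPrincipal → Divisor.degree D = 0

/-- Riemann data provide a non-special divisor `E₀` as in `EffectiveUpTo`. -/
theorem RiemannData.exists_effectiveUpTo {g : ℕ} {c : ℤ} (R : RiemannData K F g c) :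
    ∃ E₀ : Divisor K F, EffectiveUpTo K F g E₀ := by
  obtain ⟨T, hTc, -, -⟩ := R.exists_nonspecial ∅
  refine ⟨∑ v ∈ T, Finsupp.single v 1, R.deg_one, fun D hD => ?_, ?_, fun D ⟨f, hf, hDf⟩ => ?_⟩
  · obtain ⟨f, hf, hE⟩ := R.exists_effective (E₀ := ∑ v ∈ T, Finsupp.single v 1) hD
      (by simp [map_sum, R.deg_one, hTc])
    exact ⟨R.div f, ⟨f, hf, fun v => R.div_apply f v⟩, hE⟩
  · simp [map_sum, R.deg_one, hTc]
  · rw [R.div_eq hDf, R.degree_div]

/-- A coefficient of an effective divisor is at most its degree. -/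
theorem abs_apply_le_degree {k κ : Type*} [Field k] [Field κ] [Algebra k κ]
    (hdeg : ∀ v : Place k κ, v.deg = 1) {X : Divisor k κ} (hX : 0 ≤ X) (Q : Place k κ) :
    |X Q| ≤ Divisor.degree X := by
  classical
  rw [abs_of_nonneg (hX Q), Divisor.degree, Finsupp.liftAddHom_apply, Finsupp.sum]
  simp only [AddMonoidHom.mulRight_apply, hdeg, Nat.cast_one, mul_one]
  by_cases hQ : Q ∈ X.support
  · exact Finset.single_le_sum (fun v _ => hX v) hQ
  · rw [Finsupp.notMem_support_iff.mp hQ]
    exact Finset.sum_nonneg fun v _ => hX v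

/-- Bounded and killing principal divisors implies killing degree zero. -/
theorem eq_zero_of_bounded {g : ℕ} {E₀ : Divisor K F} (hE : EffectiveUpTo K F g E₀)
    (δ : Divisor K F →+ ℤ) (b : ℤ) (hb : ∀ P, |δ (Finsupp.single P 1)| ≤ b)
    (hp : ∀ D : Divisor K F, D.IsPrincipal → δ D = 0) {D : Divisor K F}
    (hD : Divisor.degree D = 0) : δ D = 0 := by
  classical
  have heff : ∀ E : Divisor K F, 0 ≤ E → |δ E| ≤ b * Divisor.degree E := by
    intro E hE'
    have hsum : E = ∑ P ∈ E.support, E P • Finsupp.single P (1 : ℤ) := by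
      conv_lhs => rw [← Finsupp.sum_single E]
      exact Finset.sum_congr rfl fun P _ => by rw [Finsupp.smul_single, smul_eq_mul, mul_one]
    conv_lhs => rw [hsum, map_sum]
    conv_rhs => rw [hsum, map_sum, Finset.mul_sum]
    refine (Finset.abs_sum_le_sum_abs _ _).trans (Finset.sum_le_sum fun P _ => ?_)
    rw [map_zsmul, map_zsmul, Divisor.degree_single, hE.deg_one, smul_eq_mul, smul_eq_mul,
      abs_mul, abs_of_nonneg (hE' P)]
    have h1 := mul_le_mul_of_nonneg_left (hb P) (hE' P)
    push_cast
    linarith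
  by_contra hne
  set n : ℕ := (b * Divisor.degree E₀).natAbs + (δ E₀).natAbs + 1 with hn
  obtain ⟨D', hD', hpos⟩ := hE.exists_effective (n • D) (by rw [map_nsmul, hD, smul_zero])
  have hdeg' : Divisor.degree (n • D + E₀ + D') = Divisor.degree E₀ + Divisor.degree D' := by
    rw [map_add, map_add, map_nsmul, hD, smul_zero, zero_add]
  have h := heff _ hpos
  rw [map_add, map_add, map_nsmul, hp D' hD', add_zero, hdeg', nsmul_eq_mul] at h
  have habs : (1 : ℤ) ≤ |δ D| := Int.one_le_abs hne
  have h2 : (n : ℤ) * |δ D| ≤ |(n : ℤ) * δ D + δ E₀| + |δ E₀| := by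
    have := abs_sub (((n : ℤ) * δ D + δ E₀)) (δ E₀)
    rw [add_sub_cancel_right, abs_mul, abs_of_nonneg (Int.natCast_nonneg n)] at this
    exact this
  have h3 : (n : ℤ) ≤ (n : ℤ) * |δ D| := le_mul_of_one_le_right (Int.natCast_nonneg n) habs
  have h4 : |δ E₀| = ((δ E₀).natAbs : ℤ) := (Int.natCast_natAbs _).symm
  have h5 : |b * Divisor.degree E₀| = ((b * Divisor.degree E₀).natAbs : ℤ) :=
    (Int.natCast_natAbs _).symm
  have h6 := le_abs_self (b * Divisor.degree E₀)
  have h7 : (n : ℤ) = ((b * Divisor.degree E₀).natAbs : ℤ) + ((δ E₀).natAbs : ℤ) * 1 + 1 := by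
    rw [hn]; push_cast; ring
  have hdegD' : b * Divisor.degree D' = 0 := by rw [hE.degree_principal D' hD', mul_zero]
  rw [mul_add, hdegD', add_zero] at h
  omega

end Fermat.Agent.GoodReduction
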