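import Fermat.Agent.GoodReduction.Reduction
import Mathlib.Order.Filter.AtTopBot.Basic

/-!
# Good models: reductions preserving the Riemann-Roch spaces of a polarisation
-/

set_option autoImplicit false

noncomputable section

open AlgebraicCurve Filter

namespace Fermat.Agent.GoodReduction

variable {K k F κ : Type*} [Field K] [Field k] [Field F] [Field κ] [Algebra K F] [Algebra k κ]
variable {A : ValuationSubring K} {π : A →+* k}

/-- A good model: both fibres have the same genus and `L(m H)` reduces onto `L(m Hb)`. -/
structure GoodModel (red : Reduction F κ A π) (g : ℕ) (c : ℤ) (H : Divisor K F)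
    (Hb : Divisor k κ) : Prop where
  riemann : RiemannData K F g c
  riemann' : RiemannData k κ g c
  deg_pos : 0 < Divisor.degree H
  deg_eq : Divisor.degree Hb = Divisor.degree H
  res_L : ∀ᶠ m : ℕ in atTop, red.resSpace (LSpace (m • H)) = LSpace (m • Hb)

end Fermat.Agent.GoodReduction
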