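import Fermat.Agent.GoodReduction.FromFunctionField

/-!
# Reduced bases of the ring of functions regular off the poles of a function
-/

set_option autoImplicit false

noncomputable section

open AlgebraicCurve WithZero IntermediateField Polynomial
open Fermat.Agent.FunctionField (IsFunctionField degFun poleDiv)

namespace Fermat.Agent.GoodReduction

variable {K F : Type*} [Field K] [Field F] [Algebra K F]

variable (K) in
/-- Functions that are regular wherever `x` is regular. -/
def regularOff (x : F) : Subalgebra K F where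
  carrier := {f | ∀ v : Place K F, 0 ≤ v.ord x → v.adicValuation f ≤ 1}
  mul_mem' := fun hf hg v hv => by
    rw [map_mul]
    exact mul_le_one' (hf v hv) (hg v hv)
  one_mem' := fun v _ => by simp
  add_mem' := fun hf hg v hv => (Valuation.map_add _ _ _).trans (max_le (hf v hv) (hg v hv))
  zero_mem' := fun v _ => by simp
  algebraMap_mem' := fun a v _ => v.adicValuation_algebraMap_le_one a

/-- Membership in `regularOff`. -/
theorem mem_regularOff {x f : F} :
    f ∈ regularOff K x ↔ ∀ v : Place K F, 0 ≤ v.ord x → v.adicValuation f ≤ 1 := Iff.rfl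

/-- Membership of a nonzero function in `regularOff`, by orders. -/
theorem mem_regularOff_of_ne_zero {x f : F} (hf : f ≠ 0) :
    f ∈ regularOff K x ↔ ∀ v : Place K F, 0 ≤ v.ord x → 0 ≤ v.ord f := by
  rw [mem_regularOff]
  refine forall_congr' fun v => ?_
  simp [v.adicValuation_le_one_iff, hf]

/-- `x` is regular off its poles. -/
theorem self_mem_regularOff (x : F) : x ∈ regularOff K x := fun v hv =>
  v.adicValuation_le_one_iff.mpr (Or.inr hv)

/-- Inverting `x` swaps the two charts: `y ^ N * p(x)` is the reflected polynomial in `y = x⁻¹`. -/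
theorem aeval_inv_reflect {x : F} (hx : x ≠ 0) (p : K[X]) {N : ℕ} (hN : p.natDegree ≤ N) :
    aeval x⁻¹ (reflect N p) = x⁻¹ ^ N * aeval x p := by
  let : Invertible x := invertibleOfNonzero hx
  have h := eval₂_reflect_mul_pow (algebraMap K F) x N p hN
  rw [invOf_eq_inv] at h
  rw [aeval_def, aeval_def, ← h, mul_left_comm, ← mul_pow, inv_mul_cancel₀ hx, one_pow, mul_one]

/-- A `K[x]`-basis of the ring of functions regular off the poles of `x`. -/
structure PolyBasis (K : Type*) {F : Type*} [Field K] [Field F] [Algebra K F] (x : F) (n : ℕ) where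
  b : Fin n → F
  mem : ∀ i, b i ∈ regularOff K x
  indep : LinearIndependent K⟮x⟯ b
  span : ∀ f ∈ regularOff K x, ∃ p : Fin n → K[X], f = ∑ i, aeval x (p i) * b i

variable [IsFunctionField K F]

variable (K) in
/-- The spaces `L(m H)`, `H` the polar divisor of `x`, for all integers `m`. -/
abbrev poleSpace (x : F) (m : ℤ) : Submodule K F := LSpace (m • poleDiv K x)

theorem mem_poleSpace {x f : F} {m : ℤ} (hf : f ≠ 0) :
    f ∈ poleSpace K x m ↔ ∀ v : Place K F, 0 ≤ m * max (-v.ord x) 0 + v.ord f := by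
  rw [mem_LSpace hf]
  simp [poleDiv]

theorem poleSpace_neg {x : F} (hx : Transcendental K x) {m : ℤ} (hm : m < 0) :
    poleSpace K x m = ⊥ := by
  have h : Divisor.degree (m • poleDiv K x) < 0 := by
    rw [map_zsmul, FunctionField.degree_poleDiv hx, smul_eq_mul]
    exact mul_neg_of_neg_of_pos hm (by exact_mod_cast FunctionField.degFun_pos hx)
  exact Submodule.finrank_eq_zero.mp (FunctionField.ell_eq_zero_of_degree_neg h)

theorem poleSpace_mono (x : F) {m m' : ℤ} (h : m ≤ m') :
    poleSpace K x m ≤ poleSpace K x m' :=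
  LSpace_mono fun v => by
    simp only [Finsupp.smul_apply, smul_eq_mul]
    exact mul_le_mul_of_nonneg_right h (Finsupp.le_def.mp (FunctionField.poleDiv_nonneg x) v)

theorem pow_mul_mem_poleSpace {x f : F} (hx : x ≠ 0) {m : ℤ} (hf : f ∈ poleSpace K x m) (k : ℕ) :
    x ^ k * f ∈ poleSpace K x (m + k) := by
  rcases eq_or_ne f 0 with rfl | hf0
  · simp
  rw [mem_poleSpace hf0] at hf
  rw [mem_poleSpace (mul_ne_zero (pow_ne_zero k hx) hf0)]
  intro v
  have h1 := hf v
  have h2 : (k : ℤ) * (-v.ord x) ≤ k * max (-v.ord x) 0 :=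
    mul_le_mul_of_nonneg_left (le_max_left _ _) (by omega)
  rw [v.ord_mul (pow_ne_zero k hx) hf0, FunctionField.ord_pow]
  linarith

theorem aeval_mul_mem_poleSpace {x z : F} (hx : x ≠ 0) {a : ℕ} {m : ℤ}
    (hz : z ∈ poleSpace K x a) (p : K[X]) (hp : ∀ j, p.coeff j ≠ 0 → ((j + a : ℕ) : ℤ) ≤ m) :
    aeval x p * z ∈ poleSpace K x m := by
  rw [aeval_eq_sum_range, Finset.sum_mul]
  refine Submodule.sum_mem _ fun j _ => ?_
  rcases eq_or_ne (p.coeff j) 0 with h | h
  · simp [h]
  rw [smul_mul_assoc]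
  refine Submodule.smul_mem _ _ (poleSpace_mono x ?_ (pow_mul_mem_poleSpace hx hz j))
  have := hp j h
  omega

/-- Membership in a pole space, by the two charts. -/
theorem mem_poleSpace_nat {x f : F} (hx : x ≠ 0) {m : ℕ} :
    f ∈ poleSpace K x m ↔ f ∈ regularOff K x ∧ f * x⁻¹ ^ m ∈ regularOff K x⁻¹ := by
  rcases eq_or_ne f 0 with rfl | hf
  · simp
  have hi : x⁻¹ ^ m ≠ 0 := pow_ne_zero m (inv_ne_zero hx)
  rw [mem_poleSpace hf, mem_regularOff_of_ne_zero hf,
    mem_regularOff_of_ne_zero (mul_ne_zero hf hi), ← forall_and]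
  refine forall_congr' fun v => ?_
  rw [v.ord_mul hf hi, FunctionField.ord_pow, v.ord_inv]
  rcases le_total 0 (v.ord x) with h | h
  · rw [max_eq_right (by omega), mul_zero, zero_add]
    refine ⟨fun h' => ⟨fun _ => h', fun h'' => ?_⟩, fun h' => h'.1 h⟩
    rw [show v.ord x = 0 by omega]
    simpa using h'
  · rw [max_eq_left (by omega)]
    refine ⟨fun h' => ⟨fun h'' => ?_, fun _ => by linarith⟩, fun h' => ?_⟩
    · rw [show v.ord x = 0 by omega] at h'
      simpa using h'
    · have := h'.2 (by omega)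
      linarith

theorem exists_mul_pow_mem {x f : F} (hx : x ≠ 0) (hf : f ∈ regularOff K x) :
    ∃ m : ℕ, f ∈ poleSpace K x m := by
  rcases eq_or_ne f 0 with rfl | hf0
  · exact ⟨0, zero_mem _⟩
  set S := (FunctionField.finite_ord_ne_zero (K := K) f).toFinset
  refine ⟨∑ v ∈ S, (v.ord f).natAbs, (mem_poleSpace_nat hx).mpr ⟨hf, ?_⟩⟩
  rw [mem_regularOff_of_ne_zero (mul_ne_zero hf0 (pow_ne_zero _ (inv_ne_zero hx)))]
  intro v hv
  rw [v.ord_mul hf0 (pow_ne_zero _ (inv_ne_zero hx)), FunctionField.ord_pow]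
  rw [mem_regularOff_of_ne_zero hf0] at hf
  rcases le_or_gt 0 (v.ord f) with h | h
  · exact add_nonneg h (mul_nonneg (by omega) hv)
  · have hx1 : 1 ≤ v.ord x⁻¹ := by
      by_contra h1
      rw [v.ord_inv] at h1 hv
      have := hf v (by omega)
      omega
    have hS : (v.ord f).natAbs ≤ ∑ v ∈ S, (v.ord f).natAbs :=
      Finset.single_le_sum (f := fun v : Place K F => (v.ord f).natAbs) (fun _ _ => Nat.zero_le _)
        (by simp [S]; omega)
    have := le_mul_of_one_le_right (a := ((∑ v ∈ S, (v.ord f).natAbs : ℕ) : ℤ)) (by omega) hx1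
    omega

theorem mem_of_pow_mul_mem {x y : F} (hx : x ≠ 0) {a : ℤ} (k : ℕ) (hy : y ∈ poleSpace K x a)
    (h : x ^ k * y ∈ poleSpace K x (a - 1 + k)) : y ∈ poleSpace K x (a - 1) := by
  rcases eq_or_ne y 0 with rfl | hy0
  · exact zero_mem _
  rw [mem_poleSpace (mul_ne_zero (pow_ne_zero k hx) hy0)] at h
  rw [mem_poleSpace hy0] at hy ⊢
  intro v
  have h1 := h v
  have h2 := hy v
  rw [v.ord_mul (pow_ne_zero k hx) hy0, FunctionField.ord_pow] at h1
  rcases le_total (-v.ord x) 0 with hp | hp
  · rw [max_eq_right hp] at h2 ⊢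
    simpa using h2
  · rw [max_eq_left hp] at h1 ⊢
    linarith

section Adapted

variable {x : F}

/-- A family of complements of `L((a-1) H) + x L((a-1) H)` in `L(a H)`. -/
structure Complements (K : Type*) {F : Type*} [Field K] [Field F] [Algebra K F]
    [IsFunctionField K F] (x : F) where
  W : ℕ → Submodule K F
  le : ∀ a, W a ≤ poleSpace K x a
  disj : ∀ a : ℕ, Disjoint (W a)
    (poleSpace K x (a - 1) ⊔ (poleSpace K x (a - 1)).map (LinearMap.mulLeft K x))
  sup : ∀ a : ℕ, poleSpace K x a ≤
    W a ⊔ (poleSpace K x (a - 1) ⊔ (poleSpace K x (a - 1)).map (LinearMap.mulLeft K x))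

theorem exists_complements (hx : x ≠ 0) : Nonempty (Complements K x) := by
  choose W₀ hW₀ using fun a : ℕ => exists_isCompl
    (poleSpace K x ((a : ℤ) - 1) ⊔ (poleSpace K x ((a : ℤ) - 1)).map (LinearMap.mulLeft K x))
  have hle : ∀ a : ℕ, poleSpace K x ((a : ℤ) - 1) ⊔
      (poleSpace K x ((a : ℤ) - 1)).map (LinearMap.mulLeft K x) ≤ poleSpace K x a := by
    intro a
    refine sup_le (poleSpace_mono x (by omega)) ?_
    rintro _ ⟨u, hu, rfl⟩
    simpa using pow_mul_mem_poleSpace hx hu 1
  refine ⟨⟨fun a => W₀ a ⊓ poleSpace K x a, fun a => inf_le_right, fun a => ?_, fun a => ?_⟩⟩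
  · exact (hW₀ a).symm.disjoint.mono_left inf_le_left
  · rw [sup_comm (W₀ a ⊓ poleSpace K x a), ← sup_inf_assoc_of_le _ (hle a),
      (hW₀ a).sup_eq_top, top_inf_eq]

variable (C : Complements K x)

/-- The top-degree parts of complement vectors cannot cancel. -/
theorem Complements.top_eq_zero (hx : x ≠ 0) (s : Finset ℕ) (w : ℕ → F)
    (hw : ∀ a, w a ∈ C.W a) (m : ℕ) (hs : ∀ a ∈ s, a ≤ m)
    (h : ∑ a ∈ s, x ^ (m - a) * w a ∈ poleSpace K x ((m : ℤ) - 1)) :
    ∀ a ∈ s, w a = 0 := by
  classical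
  by_contra hne
  push Not at hne
  obtain ⟨a₁, ha₁, hw₁⟩ := hne
  obtain ⟨a', ha', hmax⟩ := (s.filter fun a => w a ≠ 0).exists_max_image id
    ⟨a₁, Finset.mem_filter.mpr ⟨ha₁, hw₁⟩⟩
  rw [Finset.mem_filter] at ha'
  set y := ∑ a ∈ s, x ^ (a' - a) * w a with hydef
  have hterm : ∀ a ∈ s, x ^ (m - a) * w a = x ^ (m - a') * (x ^ (a' - a) * w a) := by
    intro a ha
    rcases eq_or_ne (w a) 0 with h0 | h0
    · simp [h0]
    have : a ≤ a' := hmax a (Finset.mem_filter.mpr ⟨ha, h0⟩)
    have := hs a' ha'.1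
    rw [← mul_assoc, ← pow_add]
    congr 2
    omega
  have hsum : x ^ (m - a') * y ∈ poleSpace K x ((a' : ℤ) - 1 + (m - a' : ℕ)) := by
    rw [hydef, Finset.mul_sum, ← Finset.sum_congr rfl hterm]
    have := hs a' ha'.1
    rwa [show (a' : ℤ) - 1 + (m - a' : ℕ) = (m : ℤ) - 1 by omega]
  have hy : y ∈ poleSpace K x a' := by
    refine Submodule.sum_mem _ fun a ha => ?_
    rcases eq_or_ne (w a) 0 with h0 | h0
    · simp [h0]
    have : a ≤ a' := hmax a (Finset.mem_filter.mpr ⟨ha, h0⟩)
    refine poleSpace_mono x ?_ (pow_mul_mem_poleSpace hx (C.le a (hw a)) (a' - a))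
    omega
  have hy' := mem_of_pow_mul_mem hx (m - a') hy hsum
  refine ha'.2 (Submodule.disjoint_def.mp (C.disj a') _ (hw a') ?_)
  rw [hydef, ← Finset.add_sum_erase _ _ ha'.1] at hy'
  have hrest : ∑ a ∈ s.erase a', x ^ (a' - a) * w a ∈
      (poleSpace K x ((a' : ℤ) - 1)).map (LinearMap.mulLeft K x) := by
    refine Submodule.sum_mem _ fun a ha => ?_
    rw [Finset.mem_erase] at ha
    rcases eq_or_ne (w a) 0 with h0 | h0
    · simp [h0]
    have : a ≤ a' := hmax a (Finset.mem_filter.mpr ⟨ha.2, h0⟩)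
    have hlt : a < a' := lt_of_le_of_ne this ha.1
    refine ⟨x ^ (a' - a - 1) * w a,
      poleSpace_mono x (by omega) (pow_mul_mem_poleSpace hx (C.le a (hw a)) (a' - a - 1)), ?_⟩
    rw [LinearMap.mulLeft_apply, ← mul_assoc, ← pow_succ']
    congr 2
    omega
  simp only [Nat.sub_self, pow_zero, one_mul] at hy'
  have := Submodule.sub_mem _ (Submodule.mem_sup_left hy'
    (T := (poleSpace K x ((a' : ℤ) - 1)).map (LinearMap.mulLeft K x)))
    (Submodule.mem_sup_right hrest)
  simpa using this

/-- The index type of the vectors of the complements in degrees in `s`. -/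
abbrev Complements.Idx (s : Finset ℕ) : Type :=
  Σ a : s, Fin (Module.finrank K (C.W a))

/-- The vectors. -/
def Complements.vec (s : Finset ℕ) (i : C.Idx s) : F :=
  haveI : FiniteDimensional K (C.W i.1) := Submodule.finiteDimensional_of_le (C.le i.1)
  ((Module.finBasis K (C.W i.1)) i.2 : F)

theorem Complements.vec_mem (s : Finset ℕ) (i : C.Idx s) : C.vec s i ∈ C.W i.1 :=
  Subtype.prop _

theorem Complements.vec_indep (s : Finset ℕ) (a : s) :
    LinearIndependent K fun j => C.vec s ⟨a, j⟩ := by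
  have : FiniteDimensional K (C.W a) := Submodule.finiteDimensional_of_le (C.le a)
  exact (Module.finBasis K (C.W a)).linearIndependent.map' (C.W a).subtype
    (Submodule.ker_subtype _)

theorem Complements.polynomial_eq_zero (hx : x ≠ 0) (s : Finset ℕ) (p : C.Idx s → K[X])
    (h : ∑ i, aeval x (p i) * C.vec s i = 0) : p = 0 := by
  classical
  suffices key : ∀ (M : ℕ) (p : C.Idx s → K[X]),
      (∀ i j, (p i).coeff j ≠ 0 → j + (i.1 : ℕ) < M) →
      ∑ i, aeval x (p i) * C.vec s i = 0 → p = 0 by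
    refine key (∑ i, ((p i).natDegree + (i.1 : ℕ) + 1)) p (fun i j hj => ?_) h
    have h1 := le_natDegree_of_ne_zero hj
    have h2 := Finset.single_le_sum (f := fun i : C.Idx s => (p i).natDegree + (i.1 : ℕ) + 1)
      (fun _ _ => Nat.zero_le _) (Finset.mem_univ i)
    omega
  intro M
  induction M with
  | zero =>
    intro p hp _
    funext i
    ext j
    by_contra hj
    exact Nat.not_lt_zero _ (hp i j (by simpa using hj))
  | succ M ih =>
    intro p hp h
    let c : C.Idx s → K := fun i => if (i.1 : ℕ) ≤ M then (p i).coeff (M - i.1) else 0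
    let q : C.Idx s → K[X] := fun i => p i - Polynomial.C (c i) * X ^ (M - (i.1 : ℕ))
    have hq : ∀ i j, (q i).coeff j ≠ 0 → j + (i.1 : ℕ) < M := by
      intro i j hj
      have hj' : (p i).coeff j - (if j = M - (i.1 : ℕ) then c i else 0) ≠ 0 := by
        simpa [q, coeff_C_mul, coeff_X_pow] using hj
      by_cases hji : j = M - (i.1 : ℕ)
      · rw [if_pos hji] at hj'
        by_cases hiM : (i.1 : ℕ) ≤ M
        · simp [c, hiM, hji] at hj'
        · simp only [c, if_neg hiM, sub_zero] at hj'
          have := hp i j hj'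
          omega
      · rw [if_neg hji, sub_zero] at hj'
        have := hp i j hj'
        omega
    let w : ℕ → F := fun a =>
      if ha : a ∈ s then ∑ j, c ⟨⟨a, ha⟩, j⟩ • C.vec s ⟨⟨a, ha⟩, j⟩ else 0
    have hw : ∀ a, w a ∈ C.W a := fun a => by
      simp only [w]
      split
      · exact Submodule.sum_mem _ fun j _ => Submodule.smul_mem _ _ (C.vec_mem s ⟨⟨a, _⟩, j⟩)
      · exact zero_mem _
    have hc0 : ∀ a : s, ¬ (a : ℕ) ≤ M → ∀ j, c ⟨a, j⟩ = 0 := fun a ha j => if_neg ha
    have hsum : ∑ a ∈ s.filter (· ≤ M), x ^ (M - a) * w a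
        = ∑ i, aeval x (Polynomial.C (c i) * X ^ (M - (i.1 : ℕ))) * C.vec s i := by
      rw [Fintype.sum_sigma, Finset.sum_filter, ← Finset.sum_coe_sort s]
      refine Finset.sum_congr rfl fun a _ => ?_
      simp only [w, dif_pos a.2]
      split_ifs with ha
      · rw [Finset.mul_sum]
        refine Finset.sum_congr rfl fun j _ => ?_
        rw [map_mul, aeval_C, map_pow, aeval_X, Algebra.smul_def]
        ring
      · simp [hc0 a ha]
    have hzero := C.top_eq_zero hx (s.filter (· ≤ M)) w hw M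
      (fun a ha => (Finset.mem_filter.mp ha).2) (by
        rw [hsum]
        have : ∑ i, aeval x (Polynomial.C (c i) * X ^ (M - (i.1 : ℕ))) * C.vec s i
            = -∑ i, aeval x (q i) * C.vec s i := by
          rw [eq_neg_iff_add_eq_zero, ← Finset.sum_add_distrib, ← h]
          refine Finset.sum_congr rfl fun i _ => ?_
          simp only [q, map_sub]
          ring
        rw [this]
        refine Submodule.neg_mem _ (Submodule.sum_mem _ fun i _ =>
          aeval_mul_mem_poleSpace hx (C.le _ (C.vec_mem s i)) _ fun j hj => ?_)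
        have := hq i j hj
        omega)
    have hc : c = 0 := by
      funext ⟨a, j⟩
      by_cases ha : (a : ℕ) ≤ M
      · have := hzero a (Finset.mem_filter.mpr ⟨a.2, ha⟩)
        simp only [w, dif_pos a.2] at this
        exact Fintype.linearIndependent_iff.mp (C.vec_indep s a) (fun j => c ⟨a, j⟩) this j
      · exact hc0 a ha j
    have hpq : q = p := by funext i; simp [q, hc]
    exact ih p (hpq ▸ hq) h

/-- The vectors of the complements are independent over `K(x)`. -/
theorem Complements.indep (hx : x ≠ 0) (s : Finset ℕ) : LinearIndependent K⟮x⟯ (C.vec s) :=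
  FunctionField.linearIndependent_of_polynomial _
    fun p hp i => congrFun (C.polynomial_eq_zero hx s p hp) i

theorem Complements.finite_support (hx : Transcendental K x) : {a | C.W a ≠ ⊥}.Finite := by
  classical
  have := IsFunctionField.finiteDimensional_adjoin x hx
  by_contra hinf
  obtain ⟨s, hs, hcard⟩ := (Set.not_finite.mp hinf).exists_subset_card_eq (degFun K x + 1)
  have h := (C.indep (FunctionField.transcendental_ne_zero hx) s).fintype_card_le_finrank
  have h1 : s.card ≤ Fintype.card (C.Idx s) := by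
    rw [Fintype.card_sigma, Finset.card_eq_sum_ones, ← Finset.sum_coe_sort s]
    refine Finset.sum_le_sum fun a _ => ?_
    rw [Fintype.card_fin]
    have : FiniteDimensional K (C.W a) := Submodule.finiteDimensional_of_le (C.le a)
    exact Submodule.one_le_finrank_iff.mpr (hs a.2)
  unfold degFun at hcard
  omega

/-- The vectors of the complements span every pole space with bounded coefficients. -/
theorem Complements.span (hx : Transcendental K x) {s : Finset ℕ} (hs : ∀ a, a ∉ s → C.W a = ⊥)
    (m : ℕ) : ∀ f ∈ poleSpace K x m, ∃ p : C.Idx s → K[X],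
      f = ∑ i, aeval x (p i) * C.vec s i ∧ ∀ i j, (p i).coeff j ≠ 0 → j + (i.1 : ℕ) ≤ m := by
  classical
  induction m using Nat.strong_induction_on with
  | _ m ih =>
    intro f hf
    have hlow : ∀ u ∈ poleSpace K x ((m : ℤ) - 1), ∃ p : C.Idx s → K[X],
        u = ∑ i, aeval x (p i) * C.vec s i ∧ ∀ i j, (p i).coeff j ≠ 0 → j + (i.1 : ℕ) < m := by
      intro u hu
      rcases Nat.eq_zero_or_pos m with rfl | hm
      · rw [poleSpace_neg hx (by simp), Submodule.mem_bot] at hu
        exact ⟨0, by simp [hu], by simp⟩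
      obtain ⟨p, hp, hdeg⟩ := ih (m - 1) (by omega) u
        (by rwa [show ((m - 1 : ℕ) : ℤ) = (m : ℤ) - 1 by omega])
      refine ⟨p, hp, fun i j hj => ?_⟩
      have := hdeg i j hj
      omega
    obtain ⟨w, hw, r, hr, rfl⟩ := Submodule.mem_sup.mp (C.sup m hf)
    obtain ⟨u, hu, _, ⟨u', hu', rfl⟩, rfl⟩ := Submodule.mem_sup.mp hr
    obtain ⟨p, rfl, hp⟩ := hlow u hu
    obtain ⟨p', rfl, hp'⟩ := hlow u' hu'
    obtain ⟨e, he, hew⟩ : ∃ e : C.Idx s → K,
        (∀ i, e i ≠ 0 → (i.1 : ℕ) = m) ∧ ∑ i, e i • C.vec s i = w := by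
      by_cases hms : m ∈ s
      · have : FiniteDimensional K (C.W m) := Submodule.finiteDimensional_of_le (C.le m)
        let B := Module.finBasis K (C.W m)
        refine ⟨fun i => if h : (i.1 : ℕ) = m then
          B.repr ⟨w, hw⟩ (Fin.cast (by rw [h]) i.2) else 0, fun i hi => by
            by_contra h
            exact hi (dif_neg h), ?_⟩
        rw [Fintype.sum_sigma, Finset.sum_eq_single (⟨m, hms⟩ : s) ?_ (by simp)]
        · have h := congrArg Subtype.val (B.sum_repr ⟨w, hw⟩)
          rw [AddSubmonoidClass.coe_finsetSum] at h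
          refine (Finset.sum_congr rfl fun j _ => ?_).trans h
          simp only
          rfl
        · intro a _ ha
          refine Finset.sum_eq_zero fun j _ => ?_
          simp only [dif_neg fun h : (a : ℕ) = m => ha (Subtype.ext h), zero_smul]
      · rw [hs m hms, Submodule.mem_bot] at hw
        exact ⟨0, by simp, by simp [hw]⟩
    refine ⟨fun i => Polynomial.C (e i) + (p i + X * p' i), ?_, fun i j hj => ?_⟩
    · rw [← hew, LinearMap.mulLeft_apply, Finset.mul_sum, ← Finset.sum_add_distrib,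
        ← Finset.sum_add_distrib]
      refine Finset.sum_congr rfl fun i _ => ?_
      simp only [map_add, map_mul, aeval_C, aeval_X, Algebra.smul_def]
      ring
    · by_contra hlt
      refine hj ?_
      have h1 : (p i).coeff j = 0 := by
        by_contra h
        have := hp i j h
        omega
      rcases j with _ | j
      · have h2 : e i = 0 := by
          by_contra h
          have := he i h
          omega
        simp [h1, h2]
      · have h2 : (p' i).coeff j = 0 := by
          by_contra h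
          have := hp' i j h
          omega
        simp [h1, h2, coeff_X_mul]

theorem Complements.finrank_poleSpace (hx : Transcendental K x) {s : Finset ℕ}
    (hs : ∀ a, a ∉ s → C.W a = ⊥) (m : ℕ) (hm : ∀ a ∈ s, a ≤ m) :
    (Module.finrank K (poleSpace K x m) : ℤ) = ∑ i : C.Idx s, ((m : ℤ) - (i.1 : ℕ) + 1) := by
  classical
  have hx0 := FunctionField.transcendental_ne_zero hx
  let u : (Σ i : C.Idx s, Fin (m - (i.1 : ℕ) + 1)) → F := fun k => x ^ (k.2 : ℕ) * C.vec s k.1
  have hli : LinearIndependent K u := by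
    rw [Fintype.linearIndependent_iff]
    intro g hg ⟨i, j⟩
    have h0 := C.polynomial_eq_zero hx0 s
      (fun i => ∑ j : Fin (m - (i.1 : ℕ) + 1), Polynomial.C (g ⟨i, j⟩) * X ^ (j : ℕ)) (by
      rw [← hg, eq_comm, Fintype.sum_sigma, eq_comm]
      refine Finset.sum_congr rfl fun i _ => ?_
      rw [map_sum, Finset.sum_mul]
      refine Finset.sum_congr rfl fun j _ => ?_
      simp only [u, map_mul, map_pow, aeval_C, aeval_X, Algebra.smul_def]
      ring)
    have := congrArg (fun p => p.coeff (j : ℕ)) (congrFun h0 i)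
    simpa [finsetSum_coeff, coeff_C_mul, coeff_X_pow, Fin.val_inj] using this
  have hspan : Submodule.span K (Set.range u) = poleSpace K x m := by
    refine le_antisymm (Submodule.span_le.mpr ?_) fun f hf => ?_
    · rintro _ ⟨⟨i, j⟩, rfl⟩
      refine poleSpace_mono x ?_ (pow_mul_mem_poleSpace hx0 (C.le _ (C.vec_mem s i)) (j : ℕ))
      have := j.2
      have := hm _ i.1.2
      omega
    · obtain ⟨p, rfl, hp⟩ := C.span hx hs m f hf
      refine Submodule.sum_mem _ fun i _ => ?_
      rw [aeval_eq_sum_range, Finset.sum_mul]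
      refine Submodule.sum_mem _ fun j _ => ?_
      rcases eq_or_ne ((p i).coeff j) 0 with h | h
      · simp [h]
      rw [smul_mul_assoc]
      have := hp i j h
      exact Submodule.smul_mem _ _ (Submodule.subset_span ⟨⟨i, ⟨j, by omega⟩⟩, rfl⟩)
  rw [← hspan, finrank_span_eq_card hli, Fintype.card_sigma, Nat.cast_sum]
  refine Finset.sum_congr rfl fun i _ => ?_
  have := hm _ i.1.2
  rw [Fintype.card_fin]
  omega

end Adapted

/-- A reduced basis: the degrees add up to `g + n - 1`. -/
structure ReducedBasis (K : Type*) {F : Type*} [Field K] [Field F] [Algebra K F]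
    [IsFunctionField K F] (x : F) (n : ℕ) where
  b : Fin n → F
  a : Fin n → ℕ
  mem : ∀ i, b i ∈ poleSpace K x (a i)
  indep : LinearIndependent K⟮x⟯ b
  span : ∀ m : ℕ, ∀ f ∈ poleSpace K x m, ∃ p : Fin n → K[X],
    f = ∑ i, aeval x (p i) * b i ∧ ∀ i j, (p i).coeff j ≠ 0 → j + a i ≤ m
  sum_eq : ∑ i, (a i : ℤ) = (genusFF K F : ℤ) + n - 1

/-- Over an algebraically closed field a reduced basis exists. -/
theorem exists_reducedBasis [IsAlgClosed K] {x : F} (hx : Transcendental K x) :
    Nonempty (ReducedBasis K x (degFun K x)) := by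
  classical
  have hx0 := FunctionField.transcendental_ne_zero hx
  obtain ⟨C⟩ := exists_complements (K := K) hx0
  set s := (C.finite_support hx).toFinset
  have hs : ∀ a, a ∉ s → C.W a = ⊥ := fun a ha => by simpa [s] using ha
  obtain ⟨c₀, hc₀⟩ := exists_riemannData K F
  have R := hc₀ c₀ le_rfl
  set M := c₀.toNat + ∑ a ∈ s, a
  have hM : ∀ m ≥ M, (degFun K x : ℤ) * m + 1 - genusFF K F
      = ∑ i : C.Idx s, ((m : ℤ) - (i.1 : ℕ) + 1) := by
    intro m hm
    have hdeg : Divisor.degree ((m : ℤ) • poleDiv K x) = (m : ℤ) * degFun K x := by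
      rw [map_zsmul, FunctionField.degree_poleDiv hx, smul_eq_mul]
    have h1 : (1 : ℤ) ≤ degFun K x := by exact_mod_cast FunctionField.degFun_pos hx
    have h2 := le_mul_of_one_le_right (a := (m : ℤ)) (by omega) h1
    rw [← C.finrank_poleSpace hx hs m fun a ha =>
      (Finset.single_le_sum (f := fun a : ℕ => a) (fun _ _ => Nat.zero_le _) ha).trans (by omega)]
    rw [R.exact' _ (by rw [hdeg]; omega), hdeg, mul_comm]
  have e1 := hM M le_rfl
  have e2 := hM (M + 1) (Nat.le_succ M)
  have hr : (Fintype.card (C.Idx s) : ℤ) = degFun K x := by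
    simp only [Finset.sum_add_distrib, Finset.sum_sub_distrib, Finset.sum_const, nsmul_eq_mul,
      Finset.card_univ, mul_one] at e1 e2
    push_cast at e2
    linarith
  have hA : ∑ i : C.Idx s, ((i.1 : ℕ) : ℤ) = (genusFF K F : ℤ) + degFun K x - 1 := by
    simp only [Finset.sum_add_distrib, Finset.sum_sub_distrib, Finset.sum_const, nsmul_eq_mul,
      Finset.card_univ, mul_one, hr] at e1
    linarith
  let e : Fin (degFun K x) ≃ C.Idx s :=
    (finCongr (by exact_mod_cast hr.symm)).trans (Fintype.equivFin _).symm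
  refine ⟨⟨fun i => C.vec s (e i), fun i => (e i).1, fun i => C.le _ (C.vec_mem s _),
    (C.indep hx0 s).comp e e.injective, fun m f hf => ?_, ?_⟩⟩
  · obtain ⟨p, hp, hd⟩ := C.span hx hs m f hf
    exact ⟨p ∘ e, hp.trans (e.sum_comp fun i => aeval x (p i) * C.vec s i).symm,
      fun i j hj => hd (e i) j hj⟩
  · rw [e.sum_comp fun i => ((i.1 : ℕ) : ℤ)]
    exact hA

namespace ReducedBasis

variable {x : F} {n : ℕ} (B : ReducedBasis K x n)

/-- The basis in the chart at finite values of `x`. -/
def finiteChart (hx : x ≠ 0) : PolyBasis K x n where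
  b := B.b
  mem i := ((mem_poleSpace_nat hx).mp (B.mem i)).1
  indep := B.indep
  span f hf := by
    obtain ⟨m, hm⟩ := exists_mul_pow_mem hx hf
    obtain ⟨p, hp, -⟩ := B.span m f hm
    exact ⟨p, hp⟩

theorem indep_inv (hx : x ≠ 0) :
    LinearIndependent K⟮x⁻¹⟯ fun i => B.b i * x⁻¹ ^ (B.a i) := by
  rw [FunctionField.adjoin_inv_eq, Fintype.linearIndependent_iff]
  intro g hg i
  have hy : x⁻¹ ∈ K⟮x⟯ := inv_mem (mem_adjoin_simple_self K x)
  have h := Fintype.linearIndependent_iff.mp B.indep
    (fun i => g i * ⟨x⁻¹ ^ B.a i, pow_mem hy _⟩) (by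
      rw [← hg]
      refine Finset.sum_congr rfl fun i _ => ?_
      simp [IntermediateField.smul_def]
      ring) i
  refine (mul_eq_zero.mp h).resolve_right fun h0 => ?_
  exact pow_ne_zero _ (inv_ne_zero hx) (congrArg Subtype.val h0)

/-- The basis in the chart at infinity. -/
def infiniteChart (hx : x ≠ 0) : PolyBasis K x⁻¹ n where
  b i := B.b i * x⁻¹ ^ (B.a i)
  mem i := ((mem_poleSpace_nat hx).mp (B.mem i)).2
  indep := B.indep_inv hx
  span f hf := by
    obtain ⟨m, hm⟩ := exists_mul_pow_mem (inv_ne_zero hx) hf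
    rw [mem_poleSpace_nat (inv_ne_zero hx), inv_inv] at hm
    have hfm : f * x ^ m ∈ poleSpace K x m := by
      rw [mem_poleSpace_nat hx]
      refine ⟨hm.2, ?_⟩
      rwa [mul_assoc, ← mul_pow, mul_inv_cancel₀ hx, one_pow, mul_one]
    obtain ⟨p, hp, hd⟩ := B.span m _ hfm
    refine ⟨fun i => reflect (m - B.a i) (p i), ?_⟩
    have hf' : f = x⁻¹ ^ m * (f * x ^ m) := by
      rw [mul_comm f, ← mul_assoc, ← mul_pow, inv_mul_cancel₀ hx, one_pow, one_mul]
    rw [hf', hp, Finset.mul_sum]
    refine Finset.sum_congr rfl fun i _ => ?_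
    rcases eq_or_ne (p i) 0 with h0 | h0
    · simp [h0]
    have := hd i _ (leadingCoeff_ne_zero.mpr h0)
    rw [aeval_inv_reflect hx _ (by omega), show x⁻¹ ^ m = x⁻¹ ^ (m - B.a i) * x⁻¹ ^ B.a i by
      rw [← pow_add]; congr 1; omega]
    ring

end ReducedBasis

end Fermat.Agent.GoodReduction
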