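import Fermat.Prelude.Def_AlgebraicCurve_Repartitions
import Mathlib.Data.Finsupp.Order
import Mathlib.Algebra.Algebra.Operations
import Mathlib.Algebra.Module.Submodule.Union
import Mathlib.LinearAlgebra.FiniteDimensional.Lemmas
import Mathlib.Tactic

/-!
# Riemann data on a function field

An axiomatic package (degree-one places, principal divisors of degree zero, Riemann inequality,
exact formula in large degree) and its elementary consequences: base-point-free pencils, surjective
multiplication of Riemann-Roch spaces, and non-special sets of distinct points.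
-/

set_option autoImplicit false

noncomputable section

open AlgebraicCurve

namespace Fermat.Agent.GoodReduction

variable {K F : Type*} [Field K] [Field F] [Algebra K F]

/-- The Riemann-Roch space. -/
abbrev LSpace (D : Divisor K F) : Submodule K F := riemannRochSpace D

/-- Membership of a nonzero function in a Riemann-Roch space. -/
theorem mem_LSpace {D : Divisor K F} {f : F} (hf : f ≠ 0) :
    f ∈ LSpace D ↔ ∀ v : Place K F, 0 ≤ D v + v.ord f := by
  rw [mem_riemannRochSpace_iff]
  refine forall_congr' fun v => ?_
  simp only [hf, false_or]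
  omega

/-- `LSpace` is monotone. -/
theorem LSpace_mono {D D' : Divisor K F} (h : D ≤ D') : LSpace D ≤ LSpace D' := by
  intro f hf
  rw [mem_riemannRochSpace_iff] at hf ⊢
  intro v
  have := h v
  rcases hf v with h0 | h0
  · exact Or.inl h0
  · exact Or.inr (by omega)

/-- `LSpace` commutes with infima. -/
theorem LSpace_inf (D D' : Divisor K F) : LSpace (D ⊓ D') = LSpace D ⊓ LSpace D' := by
  refine le_antisymm (le_inf (LSpace_mono inf_le_left) (LSpace_mono inf_le_right)) ?_
  rintro f ⟨h1, h2⟩
  rcases eq_or_ne f 0 with rfl | hf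
  · exact zero_mem _
  rw [SetLike.mem_coe, mem_LSpace hf] at h1 h2
  rw [mem_LSpace hf]
  intro v
  rw [Finsupp.inf_apply]
  rcases le_total (D v) (D' v) with h | h
  · simpa [min_eq_left h] using h1 v
  · simpa [min_eq_right h] using h2 v

variable (K F) in
/-- Riemann package with genus `g` and exactness bound `c`. -/
structure RiemannData (g : ℕ) (c : ℤ) : Prop where
  deg_one : ∀ v : Place K F, v.deg = 1
  principal : HasPrincipalDivisors K F
  finite : ∀ D : Divisor K F, FiniteDimensional K (LSpace D)
  riemann : ∀ D : Divisor K F,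
    Divisor.degree D + 1 - g ≤ (Module.finrank K (LSpace D) : ℤ)
  exact' : ∀ D : Divisor K F, c ≤ Divisor.degree D →
    (Module.finrank K (LSpace D) : ℤ) = Divisor.degree D + 1 - g
  one : Module.finrank K (LSpace (0 : Divisor K F)) = 1
  infinite : Infinite K
  infinitePlaces : Infinite (Place K F)

namespace RiemannData

variable {g : ℕ} {c : ℤ} (R : RiemannData K F g c)

include R

/-- All places have degree one. -/
theorem degree_single (v : Place K F) (n : ℤ) :
    Divisor.degree (Finsupp.single v n) = n := by
  simp [R.deg_one]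

/-- The divisor of a function (zero for the zero function). -/
def div (f : F) : Divisor K F :=
  open Classical in
  if h : f ≠ 0 then (R.principal.exists_divisor f h).choose else 0

/-- The coefficients of a principal divisor are the orders. -/
theorem div_apply (f : F) (v : Place K F) : R.div f v = v.ord f := by
  unfold div
  split
  · rename_i h
    exact (R.principal.exists_divisor f h).choose_spec.1 v
  · rename_i h
    simp only [ne_eq, not_not] at h
    simp [h]

/-- Principal divisors have degree zero. -/
theorem degree_div (f : F) : Divisor.degree (R.div f) = 0 := by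
  unfold div
  split
  · rename_i h
    exact (R.principal.exists_divisor f h).choose_spec.2
  · simp

/-- A divisor with the orders of `f` is `div f`. -/
theorem div_eq {f : F} {D : Divisor K F} (h : ∀ v, D v = v.ord f) : D = R.div f :=
  Finsupp.ext fun v => by rw [h, div_apply]

/-- The divisor of a product. -/
theorem div_mul {f f' : F} (hf : f ≠ 0) (hf' : f' ≠ 0) : R.div (f * f') = R.div f + R.div f' :=
  Finsupp.ext fun v => by simp [div_apply, v.ord_mul hf hf']

/-- The divisor of an inverse. -/
theorem div_inv (f : F) : R.div f⁻¹ = - R.div f :=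
  Finsupp.ext fun v => by simp [div_apply, v.ord_inv]

/-- Multiplication by `f` shifts Riemann-Roch spaces by the divisor of `f`. -/
theorem map_mulLeft {f : F} (hf : f ≠ 0) (D : Divisor K F) :
    (LSpace D).map (LinearMap.mulLeft K f) = LSpace (D - R.div f) := by
  ext x
  constructor
  · rintro ⟨y, hy, rfl⟩
    rw [LinearMap.mulLeft_apply]
    rcases eq_or_ne y 0 with rfl | hy0
    · simp
    rw [SetLike.mem_coe, mem_LSpace hy0] at hy
    rw [mem_LSpace (mul_ne_zero hf hy0)]
    intro v
    have := hy v
    rw [Finsupp.sub_apply, div_apply, v.ord_mul hf hy0]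
    omega
  · intro hx
    refine ⟨f⁻¹ * x, ?_, by rw [LinearMap.mulLeft_apply, mul_inv_cancel_left₀ hf]⟩
    rcases eq_or_ne x 0 with rfl | hx0
    · simp
    rw [mem_LSpace hx0] at hx
    rw [SetLike.mem_coe, mem_LSpace (mul_ne_zero (inv_ne_zero hf) hx0)]
    intro v
    have := hx v
    rw [Finsupp.sub_apply, div_apply] at this
    rw [v.ord_mul (inv_ne_zero hf) hx0, v.ord_inv]
    omega

omit R in
/-- Multiplication maps `L(D) × L(D')` into `L(D + D')`. -/
theorem mul_mem (_R : RiemannData K F g c) {D D' : Divisor K F} {f f' : F}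
    (hf : f ∈ LSpace D) (hf' : f' ∈ LSpace D') :
    f * f' ∈ LSpace (D + D') := by
  rcases eq_or_ne f 0 with rfl | h0
  · simp
  rcases eq_or_ne f' 0 with rfl | h0'
  · simp
  rw [mem_LSpace h0] at hf
  rw [mem_LSpace h0'] at hf'
  rw [mem_LSpace (mul_ne_zero h0 h0')]
  intro v
  have := hf v
  have := hf' v
  rw [Finsupp.add_apply, v.ord_mul h0 h0']
  omega

/-- The product of `L(D)` and `L(D')` lies in `L(D + D')`. -/
theorem mul_le (D D' : Divisor K F) : LSpace D * LSpace D' ≤ LSpace (D + D') :=
  Submodule.mul_le.mpr fun _ hf _ hf' => R.mul_mem hf hf'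

omit R in
/-- The degree is monotone. -/
theorem degree_mono (_R : RiemannData K F g c) {D D' : Divisor K F} (h : D ≤ D') :
    Divisor.degree D ≤ Divisor.degree D' := by
  have key : ∀ E : Divisor K F, 0 ≤ E → 0 ≤ Divisor.degree E := by
    intro E hE
    rw [Divisor.degree, Finsupp.liftAddHom_apply]
    refine Finset.sum_nonneg fun v _ => ?_
    simp only [AddMonoidHom.mulRight_apply]
    exact mul_nonneg (hE v) (Int.natCast_nonneg _)
  have h' := key (D' - D) (fun v => by simpa using h v)
  rw [map_sub] at h'
  omega

/-- The dimension of `L(D)` is monotone. -/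
theorem finrank_mono {D D' : Divisor K F} (h : D ≤ D') :
    Module.finrank K (LSpace D) ≤ Module.finrank K (LSpace D') :=
  haveI := R.finite D'
  Submodule.finrank_mono (LSpace_mono h)

/-- Linearly equivalent divisors have spaces of the same dimension. -/
theorem finrank_sub_div {f : F} (hf : f ≠ 0) (D : Divisor K F) :
    Module.finrank K (LSpace (D - R.div f)) = Module.finrank K (LSpace D) := by
  rw [← R.map_mulLeft hf D]
  exact (Submodule.equivMapOfInjective _ (mul_right_injective₀ hf) _).finrank_eq.symm

/-- Spaces of large degree add up to the space of the supremum. -/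
theorem sup_eq {D₁ D₂ : Divisor K F} (h : c ≤ Divisor.degree (D₁ ⊓ D₂)) :
    LSpace D₁ ⊔ LSpace D₂ = LSpace (D₁ ⊔ D₂) := by
  have := R.finite D₁
  have := R.finite D₂
  have := R.finite (D₁ ⊔ D₂)
  refine Submodule.eq_of_le_of_finrank_eq
    (sup_le (LSpace_mono le_sup_left) (LSpace_mono le_sup_right)) ?_
  have h1 := R.degree_mono (show D₁ ⊓ D₂ ≤ D₁ from inf_le_left)
  have h2 := R.degree_mono (show D₁ ⊓ D₂ ≤ D₂ from inf_le_right)
  have h3 := R.degree_mono (show D₁ ≤ D₁ ⊔ D₂ from le_sup_left)
  have e1 := R.exact' D₁ (by omega)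
  have e2 := R.exact' D₂ (by omega)
  have e3 := R.exact' _ h
  have e4 := R.exact' (D₁ ⊔ D₂) (by omega)
  have hd : Divisor.degree (D₁ ⊓ D₂) + Divisor.degree (D₁ ⊔ D₂)
      = Divisor.degree D₁ + Divisor.degree D₂ := by
    rw [← map_add, ← map_add]
    congr 1
    ext v
    simp [Finsupp.inf_apply, Finsupp.sup_apply, min_add_max]
  have := Submodule.finrank_sup_add_finrank_inf_eq (LSpace D₁) (LSpace D₂)
  rw [← LSpace_inf] at this
  omega

/-- A subspace of `LSpace B` without base points. -/
def BaseFree (B : Divisor K F) (W : Submodule K F) : Prop :=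
  ∀ v : Place K F, ∃ f ∈ W, f ≠ 0 ∧ B v + v.ord f = 0

omit R in
/-- The vanishing condition at a place. -/
theorem mem_LSpace_sub_single {B : Divisor K F} {f : F} (hf : f ≠ 0) (hB : f ∈ LSpace B)
    (v : Place K F) :
    f ∈ LSpace (B - Finsupp.single v 1) ↔ B v + v.ord f ≠ 0 := by
  classical
  rw [mem_LSpace hf] at hB
  rw [mem_LSpace hf]
  constructor
  · intro h
    have := h v
    simp at this
    omega
  · intro h w
    rcases eq_or_ne v w with rfl | hvw
    · have := hB v
      simp
      omega
    · simpa [Finsupp.single_eq_of_ne hvw.symm] using hB w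

/-- Multiplying by a base-point-free space is surjective in large degree. -/
theorem le_mul_of_baseFree {B D : Divisor K F} {W : Submodule K F} (hW : W ≤ LSpace B)
    (hb : BaseFree B W) (hd : c ≤ Divisor.degree D - Divisor.degree B) :
    LSpace (B + D) ≤ W * LSpace D := by
  classical
  have := R.infinite
  rcases isEmpty_or_nonempty (Place K F) with hv | ⟨⟨v₀⟩⟩
  · exact absurd R.infinitePlaces (fun h => (not_finite (Place K F)))
  obtain ⟨g₁, hg₁W, hg₁, -⟩ := hb v₀
  let T : Finset (Place K F) := (B + R.div g₁).support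
  let p : T → Submodule K W := fun v =>
    (LSpace (B - Finsupp.single (v : Place K F) 1)).comap W.subtype
  have hp : ∀ v, p v ≠ ⊤ := by
    intro v htop
    obtain ⟨f, hfW, hf, hfv⟩ := hb v
    have : (⟨f, hfW⟩ : W) ∈ p v := htop ▸ Submodule.mem_top
    exact (mem_LSpace_sub_single hf (hW hfW) v).mp this hfv
  have key : ∃ g₂ ∈ W, g₂ ≠ 0 ∧ ∀ v : Place K F,
      B v + v.ord g₁ = 0 ∨ B v + v.ord g₂ = 0 := by
    obtain hT | hT := T.eq_empty_or_nonempty
    · refine ⟨g₁, hg₁W, hg₁, fun v => Or.inl ?_⟩
      have := Finsupp.notMem_support_iff.mp (show v ∉ T by simp [hT])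
      simpa [R.div_apply] using this
    obtain ⟨g₂, hg₂⟩ := Submodule.exists_forall_notMem_of_forall_ne_top p hp
    have h0 : (g₂ : F) ≠ 0 := by
      intro h
      obtain ⟨v, hv⟩ := hT
      exact hg₂ ⟨v, hv⟩ (by simp [p, h])
    refine ⟨g₂, g₂.2, h0, fun v => ?_⟩
    by_cases hv : v ∈ T
    · right
      by_contra hne
      exact hg₂ ⟨v, hv⟩ ((mem_LSpace_sub_single h0 (hW g₂.2) v).mpr hne)
    · left
      simpa [R.div_apply] using Finsupp.notMem_support_iff.mp hv
  obtain ⟨g₂, hg₂W, hg₂, hzero⟩ := key
  have hinf : (D - R.div g₁) ⊓ (D - R.div g₂) = D - R.div g₁ - R.div g₂ - B := by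
    ext v
    simp only [Finsupp.inf_apply, Finsupp.sub_apply, R.div_apply]
    have h1 := (mem_LSpace hg₁).mp (hW hg₁W) v
    have h2 := (mem_LSpace hg₂).mp (hW hg₂W) v
    rcases hzero v with h | h
    · rw [min_eq_right (by omega)]; omega
    · rw [min_eq_left (by omega)]; omega
  have hsup : (D - R.div g₁) ⊔ (D - R.div g₂) = B + D := by
    ext v
    simp only [Finsupp.sup_apply, Finsupp.sub_apply, Finsupp.add_apply, R.div_apply]
    have h1 := (mem_LSpace hg₁).mp (hW hg₁W) v
    have h2 := (mem_LSpace hg₂).mp (hW hg₂W) v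
    rcases hzero v with h | h
    · rw [max_eq_left (by omega)]; omega
    · rw [max_eq_right (by omega)]; omega
  rw [← hsup, ← R.sup_eq (by rw [hinf]; simp only [map_sub, R.degree_div]; omega)]
  refine sup_le ?_ ?_
  · rw [← R.map_mulLeft hg₁ D]
    rintro _ ⟨y, hy, rfl⟩
    exact Submodule.mul_mem_mul hg₁W hy
  · rw [← R.map_mulLeft hg₂ D]
    rintro _ ⟨y, hy, rfl⟩
    exact Submodule.mul_mem_mul hg₂W hy

/-- In large degree, removing a point lowers the dimension by one. -/
theorem finrank_sub_single {D : Divisor K F} (h : c + 1 ≤ Divisor.degree D) (v : Place K F) :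
    Module.finrank K (LSpace (D - Finsupp.single v 1)) + 1 = Module.finrank K (LSpace D) := by
  have e1 := R.exact' D (by omega)
  have hd : Divisor.degree (D - Finsupp.single v 1) = Divisor.degree D - 1 := by
    rw [map_sub, R.degree_single]
  have e2 := R.exact' _ (hd ▸ (by omega : c ≤ Divisor.degree D - 1))
  omega

/-- In large degree the linear system of `D` has no base point. -/
theorem exists_ord_eq {D : Divisor K F} (h : c + 1 ≤ Divisor.degree D) (v : Place K F) :
    ∃ f ∈ LSpace D, f ≠ 0 ∧ D v + v.ord f = 0 := by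
  classical
  have := R.finite D
  have hlt : ¬ LSpace D ≤ LSpace (D - Finsupp.single v 1) := by
    intro hle
    have := R.finite (D - Finsupp.single v 1)
    have := Submodule.finrank_mono hle
    have := R.finrank_sub_single h v
    omega
  obtain ⟨f, hf, hf'⟩ := SetLike.not_le_iff_exists.mp hlt
  have hf0 : f ≠ 0 := fun h0 => hf' (h0 ▸ zero_mem _)
  refine ⟨f, hf, hf0, ?_⟩
  by_contra hne
  exact hf' ((mem_LSpace_sub_single hf0 hf v).mpr hne)

/-- Multiplication of Riemann-Roch spaces is surjective in large degree. -/
theorem mul_eq {B D : Divisor K F} (hB : c + 1 ≤ Divisor.degree B)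
    (hD : c ≤ Divisor.degree D - Divisor.degree B) :
    LSpace B * LSpace D = LSpace (B + D) :=
  le_antisymm (R.mul_le B D)
    (R.le_mul_of_baseFree le_rfl (fun v => R.exists_ord_eq hB v) hD)

/-- In large degree a divisor is determined by its space. -/
theorem eq_of_LSpace_le {D D' : Divisor K F} (h : c + 1 ≤ Divisor.degree D)
    (hle : LSpace D ≤ LSpace D') : D ≤ D' := by
  intro v
  obtain ⟨f, hf, hf0, hfv⟩ := R.exists_ord_eq h v
  have := (mem_LSpace hf0).mp (hle hf) v
  omega

/-- In large degree a divisor is determined by its Riemann-Roch space. -/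
theorem eq_of_LSpace_eq {D D' : Divisor K F} (h : c + 1 ≤ Divisor.degree D)
    (h' : c + 1 ≤ Divisor.degree D') (he : LSpace D = LSpace D') : D = D' :=
  le_antisymm (R.eq_of_LSpace_le h he.le) (R.eq_of_LSpace_le h' he.ge)

/-- Effective divisors with non-vanishing speciality can be enlarged at a new place without
enlarging the space. -/
theorem exists_place_finrank_eq {E : Divisor K F} (S : Finset (Place K F))
    (hE : Divisor.degree E + 1 - g < (Module.finrank K (LSpace E) : ℤ)) :
    ∃ v ∉ S, Module.finrank K (LSpace (E + Finsupp.single v 1))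
      = Module.finrank K (LSpace E) := by
  classical
  have := R.infinitePlaces
  by_contra hall
  push Not at hall
  have step : ∀ k : ℕ, ∃ T : Finset (Place K F), T.card = k ∧ Disjoint T S ∧
      Module.finrank K (LSpace E) + k
        ≤ Module.finrank K (LSpace (E + ∑ v ∈ T, Finsupp.single v 1)) := by
    intro k
    induction k with
    | zero =>
      refine ⟨∅, rfl, Finset.disjoint_empty_left S, ?_⟩
      rw [Nat.add_zero]
      exact R.finrank_mono (fun v => by simp)
    | succ k ih =>
      obtain ⟨T, hTc, hTS, hT⟩ := ih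
      obtain ⟨v, hv⟩ := Infinite.exists_notMem_finset (S ∪ T)
      simp only [Finset.mem_union, not_or] at hv
      refine ⟨insert v T, by simp [hv.2, hTc],
        Finset.disjoint_insert_left.mpr ⟨hv.1, hTS⟩, ?_⟩
      rw [Finset.sum_insert hv.2]
      set TT : Divisor K F := ∑ w ∈ T, Finsupp.single w 1 with hTT
      have hTTv : TT v = 0 := by
        rw [hTT, Finsupp.finsetSum_apply]
        refine Finset.sum_eq_zero fun w hw => Finsupp.single_eq_of_ne ?_
        rintro rfl
        exact hv.2 hw
      have hTT0 : 0 ≤ TT := Finset.sum_nonneg fun w _ => by simp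
      have := R.finite (E + Finsupp.single v 1)
      have := R.finite (E + (Finsupp.single v 1 + TT))
      have hne : ¬ LSpace (E + Finsupp.single v 1) ≤ LSpace E := fun hle =>
        hall v hv.1 (le_antisymm (by have := R.finite E; exact Submodule.finrank_mono hle)
          (R.finrank_mono (le_add_of_nonneg_right (by simp))))
      obtain ⟨f, hf, hf'⟩ := SetLike.not_le_iff_exists.mp hne
      have hf0 : f ≠ 0 := fun h0 => hf' (h0 ▸ zero_mem _)
      have hfv : E v + v.ord f < 0 := by
        by_contra hlt
        refine hf' ((mem_LSpace hf0).mpr fun w => ?_)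
        rcases eq_or_ne v w with rfl | hvw
        · omega
        · simpa [Finsupp.single_eq_of_ne hvw.symm] using (mem_LSpace hf0).mp hf w
      have hlt : LSpace (E + TT) < LSpace (E + (Finsupp.single v 1 + TT)) := by
        refine lt_of_le_not_ge (LSpace_mono ?_) (fun hge => ?_)
        · rw [add_comm (Finsupp.single v 1), ← add_assoc]
          exact le_add_of_nonneg_right (by simp)
        · have hfin : f ∈ LSpace (E + (Finsupp.single v 1 + TT)) :=
            LSpace_mono (add_le_add le_rfl (le_add_of_nonneg_right hTT0)) hf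
          have := (mem_LSpace hf0).mp (hge hfin) v
          simp [hTTv] at this
          omega
      have := Submodule.finrank_lt_finrank_of_lt hlt
      omega
  obtain ⟨T, hTc, -, hT⟩ := step ((c - Divisor.degree E).toNat)
  have hdeg : Divisor.degree (E + ∑ v ∈ T, Finsupp.single v 1) = Divisor.degree E + T.card := by
    simp [map_sum, R.deg_one]
  have := R.exact' (E + ∑ v ∈ T, Finsupp.single v 1) (by omega)
  omega

/-- A non-special set of `g` distinct places avoiding a given finite set. -/
theorem exists_nonspecial (S : Finset (Place K F)) :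
    ∃ T : Finset (Place K F), T.card = g ∧ Disjoint T S ∧
      Module.finrank K (LSpace (∑ v ∈ T, Finsupp.single v (1 : ℤ))) = 1 := by
  classical
  suffices h : ∀ k ≤ g, ∃ T : Finset (Place K F), T.card = k ∧ Disjoint T S ∧
      Module.finrank K (LSpace (∑ v ∈ T, Finsupp.single v (1 : ℤ))) = 1 from h g le_rfl
  intro k
  induction k with
  | zero => intro _; exact ⟨∅, by simp, by simp, by rw [Finset.sum_empty]; exact R.one⟩
  | succ k ih =>
    intro hk
    obtain ⟨T, hTc, hTS, hT⟩ := ih (by omega)
    have hdeg : Divisor.degree (∑ v ∈ T, Finsupp.single v (1 : ℤ)) = T.card := by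
      simp [map_sum, R.deg_one]
    obtain ⟨v, hv, hveq⟩ := R.exists_place_finrank_eq (S ∪ T)
      (E := ∑ v ∈ T, Finsupp.single v (1 : ℤ)) (by omega)
    simp only [Finset.mem_union, not_or] at hv
    refine ⟨insert v T, by simp [hv.2, hTc], Finset.disjoint_insert_left.mpr ⟨hv.1, hTS⟩, ?_⟩
    rw [Finset.sum_insert hv.2, add_comm, hveq, hT]

/-- Every class of degree zero is, up to a fixed effective divisor of degree `g`, effective. -/
theorem exists_effective {D E₀ : Divisor K F} (hD : Divisor.degree D = 0)
    (hE₀ : Divisor.degree E₀ = g) :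
    ∃ f : F, f ≠ 0 ∧ 0 ≤ D + E₀ + R.div f := by
  have h := R.riemann (D + E₀)
  rw [map_add] at h
  have := R.finite (D + E₀)
  have hne : LSpace (D + E₀) ≠ ⊥ := fun hbot => by
    have : Module.finrank K (LSpace (D + E₀)) = 0 := by rw [hbot]; exact finrank_bot K F
    omega
  obtain ⟨f, hf, hf0⟩ := Submodule.exists_mem_ne_zero_of_ne_bot hne
  exact ⟨f, hf0, fun v => by simpa [R.div_apply] using (mem_LSpace hf0).mp hf v⟩

end RiemannData

end Fermat.Agent.GoodReduction
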